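import Fermat.Agent.Arith.RootsOfUnity
import Fermat.Agent.Mazur.Eisenstein.Unram

/-!
# The `r`-part of tame inertia

An inertia element moving an `r`-th root of `q` generates every `r`-power action
(`exists_pow_eq`), and Frobenius conjugates it to its `q`-th power (`frobenius_conj`).
-/

set_option autoImplicit false
set_option linter.style.haveILetI false

noncomputable section

namespace Fermat.Agent.Mazur.Eisenstein

open Fermat.Agent.Arith
open scoped Pointwise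

variable {A : ValuationSubring QBar} {q : ℕ} (hA : A.LiesOverPrime q) (hq : q.Prime)
variable {r : ℕ} (hr : r.Prime) (hrq : r ≠ q)

local notation "Iq" => ValuationSubring.inertiaSubgroupIn ℚ A

include hA hq

omit hA hq in
theorem isUnitAt_smul_div_sub_one {σ : GQ} (hσ : σ ∈ Iq) {u : QBar} (hu : u ≠ 0)
    (h : IsUnitAt A u) : σ u / u - 1 ∈ A.nonunits := by
  obtain ⟨h1, h2⟩ := (isUnitAt_iff hu).mp h
  rw [div_sub_one hu, div_eq_mul_inv]
  exact nonunits_mul_right (isUnitAt_congr_sub hσ h1) h2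

include hr hrq

omit hrq in
theorem exists_inertia_ne {π : QBar} (hπ : π ^ r = q) : ∃ σ ∈ Iq, σ π ≠ π := by
  by_contra hcon
  push Not at hcon
  have hπ0 : π ≠ 0 := fun h => by
    rw [h, zero_pow hr.ne_zero] at hπ
    exact hq.ne_zero (by exact_mod_cast hπ.symm)
  obtain ⟨k, hk⟩ := exists_int_ordAt hA hq hπ0 hcon
  have h2 := ordAt_pow hA hq hπ0 r
  rw [hπ, ordAt_prime hA hq, hk] at h2
  have h3 : (r : ℤ) * k = 1 := by exact_mod_cast h2.symm
  exact hr.ne_one (Nat.dvd_one.mp (Int.natCast_dvd_natCast.mp ⟨k, h3.symm⟩))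

/-- An `r`-power order action of inertia is killed by the stabiliser of a suitable root of `q`. -/
theorem exists_root_kernel (L : IntermediateField ℚ QBar) [FiniteDimensional ℚ L]
    [IsGalois ℚ L] (hpow : ∀ σ ∈ Iq, ∃ b : ℕ, ∀ x ∈ L, (σ ^ r ^ b) x = x) :
    ∃ a : ℕ, ∀ η : QBar, η ^ r ^ a = q → ∀ σ ∈ Iq, σ η = η → ∀ x ∈ L, σ x = x := by
  classical
  haveI : NeZero r := ⟨hr.ne_zero⟩
  haveI : Fact (1 < r) := ⟨hr.one_lt⟩
  obtain ⟨ζ, hζ⟩ := HasEnoughRootsOfUnity.exists_primitiveRoot QBar r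
  have hr' : (r : ℕ) ≠ 0 := hr.ne_zero
  have hqr : ¬ q ∣ r := fun h => hrq ((Nat.prime_dvd_prime_iff_eq hq hr).mp h).symm
  -- an eigenvector for each automorphism of order `r` of `L`
  have heig : ∀ σ : GQ, σ ∈ Iq → (∀ x ∈ L, (σ ^ r) x = x) → (∃ x ∈ L, σ x ≠ x) →
      ∃ (y : QBar) (i : ℕ), y ≠ 0 ∧ ζ ^ i ≠ 1 ∧ σ y = ζ ^ i * y ∧
        ∀ τ : GQ, (∀ x ∈ L, τ x = σ x) → τ ζ = ζ → τ y = ζ ^ i * y := by
    intro σ hσ hσr ⟨x, hx, hσx⟩
    have hσζ : σ ζ = ζ := inertia_root hA hq hσ hζ.pow_eq_one hqr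
    have hmemL : ∀ (τ : GQ) (z : QBar), z ∈ L → τ z ∈ L := fun τ z hz => by
      have := AlgEquiv.restrictNormal_commutes τ L ⟨z, hz⟩
      exact this ▸ (τ.restrictNormal L ⟨z, hz⟩).2
    let R : ℕ → QBar := fun i => ∑ j ∈ Finset.range r, (ζ ^ i)⁻¹ ^ j * (σ ^ j) x
    have hR : ∀ (i : ℕ) (τ : GQ), (∀ z ∈ L, τ z = σ z) → τ ζ = ζ → τ (R i) = ζ ^ i * R i := by
      intro i τ hτ hτζ
      have hz : (ζ ^ i)⁻¹ ^ r = 1 := by
        rw [inv_pow, ← pow_mul, mul_comm, pow_mul, hζ.pow_eq_one, one_pow, inv_one]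
      have hζi : ζ ^ i ≠ 0 := pow_ne_zero _ (hζ.ne_zero hr')
      have h1 : ∀ j, τ ((ζ ^ i)⁻¹ ^ j * (σ ^ j) x) =
          ζ ^ i * ((ζ ^ i)⁻¹ ^ (j + 1) * (σ ^ (j + 1)) x) := by
        intro j
        rw [map_mul, map_pow, map_inv₀, map_pow, hτζ, hτ _ (hmemL _ _ hx), pow_succ' σ,
          AlgEquiv.mul_apply, pow_succ' (ζ ^ i)⁻¹]
        field_simp
      show τ (∑ j ∈ Finset.range r, _) = _
      rw [map_sum, Finset.sum_congr rfl fun j _ => h1 j, ← Finset.mul_sum]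
      congr 1
      have h2 := Finset.sum_range_succ' (fun j => (ζ ^ i)⁻¹ ^ j * (σ ^ j) x) r
      rw [Finset.sum_range_succ, hz, hσr x hx] at h2
      simp only [pow_zero, one_mul, AlgEquiv.one_apply] at h2
      show _ = ∑ j ∈ Finset.range r, (ζ ^ i)⁻¹ ^ j * (σ ^ j) x
      linear_combination -h2
    obtain ⟨i, hi, hRi⟩ : ∃ i, ζ ^ i ≠ 1 ∧ R i ≠ 0 := by
      by_contra hcon
      push Not at hcon
      have hsum : ∑ i ∈ Finset.range r, R i = (r : QBar) * x := by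
        show ∑ i ∈ Finset.range r, ∑ j ∈ Finset.range r, _ = _
        rw [Finset.sum_comm, Finset.sum_eq_single 0]
        · simp
        · intro j hj hj0
          rw [← Finset.sum_mul]
          have hne : (ζ ^ j)⁻¹ ≠ 1 := fun h => by
            rw [inv_eq_one] at h
            exact hζ.pow_ne_one_of_pos_of_lt hj0 (Finset.mem_range.mp hj) h
          have : ∑ i ∈ Finset.range r, (ζ ^ i)⁻¹ ^ j = 0 := by
            have e : ∀ i, (ζ ^ i)⁻¹ ^ j = ((ζ ^ j)⁻¹) ^ i := fun i => by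
              rw [inv_pow, inv_pow, ← pow_mul, ← pow_mul, mul_comm]
            rw [Finset.sum_congr rfl fun i _ => e i, geom_sum_eq hne, inv_pow, ← pow_mul,
              mul_comm, pow_mul, hζ.pow_eq_one, one_pow, inv_one, sub_self, zero_div]
          rw [this, zero_mul]
        · intro h
          exact absurd (Finset.mem_range.mpr hr.pos) h
      have hR0 : R 0 = (r : QBar) * x := by
        rw [← hsum, Finset.sum_eq_single 0]
        · intro i hi hi0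
          exact hcon i (hζ.pow_ne_one_of_pos_of_lt hi0 (Finset.mem_range.mp hi))
        · intro h; exact absurd (Finset.mem_range.mpr hr.pos) h
      have h0 := hR 0 σ (fun _ _ => rfl) hσζ
      rw [hR0, pow_zero, one_mul, map_mul, map_natCast] at h0
      exact hσx (mul_left_cancel₀ (by exact_mod_cast hr') h0)
    exact ⟨R i, i, hRi, hi, hR i σ (fun _ _ => rfl) hσζ, hR i⟩
  -- one eigenvector for each element of the finite group
  have hdata : ∀ f : L ≃ₐ[ℚ] L, ∃ (m : ℕ) (k : ℤ) (a : ℕ), ∀ g ∈ Iq,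
      (∀ x : L, g (x : QBar) = (f x : QBar)) → (∀ x ∈ L, (g ^ r) x = x) → (∃ x ∈ L, g x ≠ x) →
      ∃ (y : QBar) (i : ℕ), y ≠ 0 ∧ ζ ^ i ≠ 1 ∧ g y = ζ ^ i * y ∧ ¬ r ∣ m ∧
        ordAt A q y * m = k / (r : ℚ) ^ a := by
    intro f
    by_cases hex : ∃ g ∈ Iq, (∀ x : L, g (x : QBar) = (f x : QBar)) ∧
        (∀ x ∈ L, (g ^ r) x = x) ∧ ∃ x ∈ L, g x ≠ x
    · obtain ⟨g₀, hg₀, hgf, hgr, hgne⟩ := hex
      obtain ⟨y, i, hy, hi, -, hall⟩ := heig g₀ hg₀ hgr hgne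
      obtain ⟨a, m, hm, hdm⟩ :=
        Nat.exists_eq_pow_mul_and_not_dvd (ordAt A q y).den_ne_zero r hr.ne_one
      refine ⟨m, (ordAt A q y).num, a, fun g hg hgf' _ _ => ⟨y, i, hy, hi, hall g (fun x hx => ?_)
        (inertia_root hA hq hg hζ.pow_eq_one hqr), hm, ?_⟩⟩
      · exact (hgf' ⟨x, hx⟩).trans (hgf ⟨x, hx⟩).symm
      · conv_lhs => rw [← Rat.num_div_den (ordAt A q y), hdm]
        have hm0 : (m : ℚ) ≠ 0 := by
          intro h
          exact hm (by rw [show m = 0 by exact_mod_cast h]; exact dvd_zero r)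
        have hr0 : (r : ℚ) ≠ 0 := by exact_mod_cast hr'
        push_cast
        field_simp
    · push Not at hex
      exact ⟨0, 0, 0, fun g hg h1 h2 ⟨x, hx, hne⟩ => absurd (hex g hg h1 h2 x hx) hne⟩
  choose m k a hdata using hdata
  refine ⟨Finset.univ.sup a, fun η hη σ hσ hση => ?_⟩
  set a₀ := Finset.univ.sup a with ha₀
  by_contra hne
  obtain ⟨b, hb⟩ := hpow σ hσ
  -- an element of order exactly `r`
  obtain ⟨g, hg, hgη, hgr, hgne⟩ : ∃ g ∈ Iq, g η = η ∧ (∀ x ∈ L, (g ^ r) x = x) ∧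
      ∃ x ∈ L, g x ≠ x := by
    induction b with
    | zero => exact absurd (fun x hx => by simpa using hb x hx) hne
    | succ b ih =>
      by_cases h : ∀ x ∈ L, (σ ^ r ^ b) x = x
      · exact ih h
      · push Not at h
        refine ⟨σ ^ r ^ b, pow_mem hσ _, ?_, fun x hx => by rw [← pow_mul, ← pow_succ]; exact hb x hx,
          h⟩
        clear hb ih h
        induction r ^ b with
        | zero => rfl
        | succ c ihc => rw [pow_succ, AlgEquiv.mul_apply, hση, ihc]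
  set f := g.restrictNormal L
  obtain ⟨y, i, hy, hi, hgy, hm, hord⟩ := hdata f g hg
    (fun x => (AlgEquiv.restrictNormal_commutes g L x).symm) hgr hgne
  have hη0 : η ≠ 0 := fun h => by
    rw [h, zero_pow (pow_ne_zero _ hr')] at hη
    exact hq.ne_zero (by exact_mod_cast hη.symm)
  have hordη : ordAt A q η = 1 / (r : ℚ) ^ a₀ := by
    have h2 := ordAt_pow hA hq hη0 (r ^ a₀)
    rw [hη, ordAt_prime hA hq] at h2
    rw [eq_div_iff (pow_ne_zero _ (by exact_mod_cast hr')), mul_comm]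
    exact_mod_cast h2.symm
  obtain ⟨d, hd⟩ := Nat.exists_eq_add_of_le (Finset.le_sup (Finset.mem_univ f) (f := a))
  rw [← ha₀] at hd
  set u := y ^ m f / η ^ (k f * (r : ℤ) ^ d) with hu
  have hu0 : u ≠ 0 := div_ne_zero (pow_ne_zero _ hy) (zpow_ne_zero _ hη0)
  have hunit : IsUnitAt A u := by
    rw [← ordAt_eq_zero_iff hA hq hu0, hu, ordAt_div hA hq (pow_ne_zero _ hy)
      (zpow_ne_zero _ hη0), ordAt_pow hA hq hy, ordAt_zpow hA hq hη0, hordη, mul_comm, hord, hd,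
      pow_add]
    push_cast
    have hr0 : (r : ℚ) ≠ 0 := by exact_mod_cast hr'
    field_simp
    ring
  have hgu : g u / u = (ζ ^ i) ^ m f := by
    rw [hu, map_div₀, map_pow, map_zpow₀, hgy, hgη, mul_pow]
    field_simp
  have h1 := isUnitAt_smul_div_sub_one hg hu0 hunit
  rw [hgu] at h1
  have h2 : (ζ ^ i) ^ m f = 1 := root_eq_one_of_sub_one_mem_nonunits hA hq (m := r)
    (by rw [pow_right_comm, pow_right_comm ζ i r, hζ.pow_eq_one, one_pow, one_pow]) hqr h1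
  rw [← pow_mul, hζ.pow_eq_one_iff_dvd] at h2
  rcases hr.dvd_mul.mp h2 with h3 | h3
  · exact hi ((hζ.pow_eq_one_iff_dvd i).mpr h3)
  · exact hm h3

omit hr hrq in
theorem apply_root_of_unity {n : ℕ} (hn : ¬ q ∣ n) {σ : GQ} (hσ : σ ∈ Iq) {ξ : QBar}
    (hξ : ξ ^ n = 1) : σ ξ = ξ := inertia_root hA hq hσ hξ hn

/-- An element of inertia moving an `r`-th root of `q` generates every `r`-power action. -/
theorem exists_pow_eq {π : QBar} (hπ : π ^ r = q) {σ₀ : GQ} (hσ₀ : σ₀ ∈ Iq) (hne : σ₀ π ≠ π)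
    (L : IntermediateField ℚ QBar) [FiniteDimensional ℚ L] [IsGalois ℚ L]
    (hpow : ∀ σ ∈ Iq, ∃ b : ℕ, ∀ x ∈ L, (σ ^ r ^ b) x = x) {σ : GQ} (hσ : σ ∈ Iq) :
    ∃ k : ℕ, ∀ x ∈ L, σ x = (σ₀ ^ k) x := by
  obtain ⟨a, ha⟩ := exists_root_kernel hA hq hr hrq L hpow
  obtain ⟨η, hη⟩ := IsAlgClosed.exists_pow_nat_eq (q : QBar) (pow_pos hr.pos (a + 1))
  set n := r ^ (a + 1) with hn
  have hqn : ¬ q ∣ n := fun h =>
    hrq ((Nat.prime_dvd_prime_iff_eq hq hr).mp (hq.dvd_of_dvd_pow h)).symm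
  haveI : NeZero n := ⟨pow_ne_zero _ hr.ne_zero⟩
  have hη0 : η ≠ 0 := fun h => by
    rw [h, zero_pow (NeZero.ne n)] at hη
    exact hq.ne_zero (by exact_mod_cast hη.symm)
  have hroot : ∀ τ : GQ, (τ η / η) ^ n = 1 := fun τ => by
    rw [div_pow, ← map_pow, hη, map_natCast, div_self (by exact_mod_cast hq.ne_zero)]
  haveI : Fact r.Prime := ⟨hr⟩
  set ξ := σ₀ η / η with hξ
  have hσ₀η : σ₀ η = ξ * η := by rw [hξ, div_mul_cancel₀ _ hη0]
  have hord : orderOf ξ = n := by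
    refine orderOf_eq_prime_pow (fun h => hne ?_) (hroot σ₀)
    have h2 : (η ^ r ^ a) ^ r = (q : QBar) := by rw [← pow_mul, ← pow_succ, hη]
    have hσ' : σ₀ (η ^ r ^ a) = η ^ r ^ a := by rw [map_pow, hσ₀η, mul_pow, h, one_mul]
    have hηa : η ^ r ^ a ≠ 0 := pow_ne_zero _ hη0
    have h3 : (π / η ^ r ^ a) ^ r = 1 := by
      rw [div_pow, hπ, h2, div_self (by exact_mod_cast hq.ne_zero)]
    have h4 := apply_root_of_unity hA hq
      (fun hd => hrq ((Nat.prime_dvd_prime_iff_eq hq hr).mp hd).symm) hσ₀ h3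
    rwa [map_div₀, hσ', div_left_inj' hηa] at h4
  obtain ⟨i, -, hi⟩ :=
    (hord ▸ IsPrimitiveRoot.orderOf ξ).eq_pow_of_pow_eq_one (hroot σ)
  refine ⟨i, fun x hx => ?_⟩
  have hpowη : ∀ j : ℕ, (σ₀ ^ j) η = ξ ^ j * η := by
    intro j
    induction j with
    | zero => simp
    | succ j ih =>
      rw [pow_succ' σ₀, AlgEquiv.mul_apply, ih, map_mul, map_pow, hσ₀η,
        apply_root_of_unity hA hq hqn hσ₀ (hroot σ₀), pow_succ]
      ring
  have h5 : ((σ₀ ^ i)⁻¹ * σ) η = η := by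
    rw [AlgEquiv.mul_apply, show σ η = (σ₀ ^ i) η by
      rw [hpowη, hi, div_mul_cancel₀ _ hη0], ← AlgEquiv.mul_apply, inv_mul_cancel,
      AlgEquiv.one_apply]
  have h6 := ha (η ^ r) (by rw [← pow_mul, ← pow_succ', hη]) ((σ₀ ^ i)⁻¹ * σ)
    (mul_mem (inv_mem (pow_mem hσ₀ _)) hσ) (by rw [map_pow, h5]) x hx
  have h7 := congrArg (σ₀ ^ i) h6
  rwa [← AlgEquiv.mul_apply, mul_inv_cancel_left] at h7

/-- A Frobenius at `q` conjugates the `r`-part of inertia into its `q`-th power. -/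
theorem frobenius_conj (L : IntermediateField ℚ QBar) [FiniteDimensional ℚ L] [IsGalois ℚ L]
    (hpow : ∀ σ ∈ Iq, ∃ b : ℕ, ∀ x ∈ L, (σ ^ r ^ b) x = x) {F : GQ} (hF : A.IsFrobeniusAt F q)
    {σ : GQ} (hσ : σ ∈ Iq) : ∀ x ∈ L, (F * σ * F⁻¹) x = (σ ^ q) x := by
  obtain ⟨a, ha⟩ := exists_root_kernel hA hq hr hrq L hpow
  obtain ⟨η, hη⟩ := IsAlgClosed.exists_pow_nat_eq (q : QBar) (pow_pos hr.pos a)
  have hqn : ¬ q ∣ r ^ a := fun h =>
    hrq ((Nat.prime_dvd_prime_iff_eq hq hr).mp (hq.dvd_of_dvd_pow h)).symm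
  have hη0 : η ≠ 0 := fun h => by
    rw [h, zero_pow (pow_ne_zero _ hr.ne_zero)] at hη
    exact hq.ne_zero (by exact_mod_cast hη.symm)
  have hq0 : (q : QBar) ≠ 0 := by exact_mod_cast hq.ne_zero
  set ξ := σ η / η with hξ
  have hξn : ξ ^ r ^ a = 1 := by
    rw [hξ, div_pow, ← map_pow, hη, map_natCast, div_self hq0]
  have hση : σ η = ξ * η := by rw [hξ, div_mul_cancel₀ _ hη0]
  have hFA : F • A = A := (isFrobeniusAt_iff_forall_mem.mp hF).1
  have hFσ : F * σ * F⁻¹ ∈ Iq := by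
    have := (mem_inertia_smul_iff (g := F)).mpr hσ
    rwa [hFA] at this
  have hFη : ((F⁻¹) η / η) ^ r ^ a = 1 := by
    rw [div_pow, ← map_pow, hη, map_natCast, div_self hq0]
  have h1 : (F * σ * F⁻¹) η = ξ ^ q * η := by
    set χ := (F⁻¹) η / η with hχ
    have e : (F⁻¹) η = χ * η := by rw [hχ, div_mul_cancel₀ _ hη0]
    rw [AlgEquiv.mul_apply, AlgEquiv.mul_apply, e, map_mul, hση,
      apply_root_of_unity hA hq hqn hσ hFη,
      show χ * (ξ * η) = ξ * (χ * η) by ring, ← e, map_mul, frobenius_root hA hq hF hξn hqn,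
      ← AlgEquiv.mul_apply, mul_inv_cancel, AlgEquiv.one_apply]
  have h2 : ∀ j : ℕ, (σ ^ j) η = ξ ^ j * η := by
    intro j
    induction j with
    | zero => simp
    | succ j ih =>
      rw [pow_succ' σ, AlgEquiv.mul_apply, ih, map_mul, map_pow, hση,
        apply_root_of_unity hA hq hqn hσ hξn, pow_succ]
      ring
  intro x hx
  have h3 : ((σ ^ q)⁻¹ * (F * σ * F⁻¹)) η = η := by
    rw [AlgEquiv.mul_apply, h1, ← h2, ← AlgEquiv.mul_apply, inv_mul_cancel, AlgEquiv.one_apply]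
  have h6 := ha η hη ((σ ^ q)⁻¹ * (F * σ * F⁻¹)) (mul_mem (inv_mem (pow_mem hσ _)) hFσ) h3 x hx
  have h7 := congrArg (σ ^ q) h6
  rwa [← AlgEquiv.mul_apply, mul_inv_cancel_left] at h7

end Fermat.Agent.Mazur.Eisenstein
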