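import Fermat.Agent.Genus.Main
import Fermat.Agent.Igusa.SeriesOrder
import Fermat.Agent.Semistable.WEquiv
import Fermat.Agent.ModFun.CuspPlaces

/-!
# The two cusps of `X₀(p)` as places over `ℚ̄`
-/

set_option autoImplicit false

noncomputable section

open AlgebraicCurve ModularCurve
open scoped IntermediateField Pointwise WithZero

namespace Fermat.Agent.Mazur.Eisenstein

open Fermat.Agent.Genus (Fbar jB zerosFin mem_zerosFin)

local notation "Qb" => AlgebraicClosure ℚ

/-- `j(dτ)` in the function field of level `N`. -/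
def jAt (N : ℕ) [NeZero N] (d : ℕ) [NeZero d] (hd : d ∣ N) : Fbar N :=
  ⟨qExpand Qb d (jqModC Qb), Semistable.gen_mem N ⟨d, hd⟩⟩

@[simp]
theorem coe_jAt (N : ℕ) [NeZero N] (d : ℕ) [NeZero d] (hd : d ∣ N) :
    (jAt N d hd : LaurentSeries Qb) = qExpand Qb d (jqModC Qb) := rfl

theorem jAt_one (N : ℕ) [NeZero N] : jAt N 1 (one_dvd N) = jB N :=
  Subtype.ext (qExpand_one_apply _)

theorem jAt_ne_zero (N : ℕ) [NeZero N] (d : ℕ) [NeZero d] (hd : d ∣ N) : jAt N d hd ≠ 0 := by
  intro h
  have h1 := congrArg (fun x : Fbar N => (x : LaurentSeries Qb).order) h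
  simp only [coe_jAt, ZeroMemClass.coe_zero, HahnSeries.order_zero] at h1
  have hj : jqModC Qb ≠ 0 := fun h0 => by simpa [h0] using Igusa.order_jqModC (K := Qb)
  rw [Igusa.order_qExpand hj, Igusa.order_jqModC] at h1
  have := NeZero.ne d
  omega

variable (N : ℕ) [NeZero N]

omit [NeZero N] in
theorem order_jB : (jB N : LaurentSeries Qb).order = -1 := Igusa.order_jqModC (K := Qb)

omit [NeZero N] in
theorem one_lt_valInf_jB :
    1 < ModFun.valInf Qb ((modularFunctionFieldBar N).val (jB N)) := by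
  have hj : jqModC Qb ≠ 0 := fun h0 => by simpa [h0] using Igusa.order_jqModC (K := Qb)
  show 1 < ModFun.valInf Qb (jqModC Qb)
  rw [ModFun.valInf_apply hj, Igusa.order_jqModC, ← WithZero.exp_zero, WithZero.exp_lt_exp]
  norm_num

/-- The cusp at infinity. -/
def placeInf : Place Qb (Fbar N) :=
  ModFun.placeOfEmb (ModFun.valInf Qb) (fun _ hc => ModFun.valInf_constant hc)
    (modularFunctionFieldBar N).val (one_lt_valInf_jB N)

/-- The order at the cusp at infinity is the order of the expansion. -/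
theorem ord_placeInf {x : Fbar N} (hx : x ≠ 0) :
    (placeInf N).ord x = (x : LaurentSeries Qb).order := by
  obtain ⟨m, hm, h⟩ := ModFun.exists_pos_mul_of_mem_iff (placeInf N) (ModFun.valInf Qb)
    (modularFunctionFieldBar N).val (fun f => ModFun.mem_placeOfEmb _ _ _ _ f)
  have hne : ∀ {y : Fbar N}, y ≠ 0 → (y : LaurentSeries Qb) ≠ 0 := fun hy h0 =>
    hy (Subtype.ext h0)
  have hj0 : jB N ≠ 0 := fun h0 => by
    rw [← jAt_one] at h0
    exact jAt_ne_zero N 1 (one_dvd N) h0
  have h1 := h _ hj0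
  rw [show (modularFunctionFieldBar N).val (jB N) = (jB N : LaurentSeries Qb) from rfl,
    ModFun.ordL_valInf (hne hj0), order_jB] at h1
  have hm1 : m = 1 := by
    refine Int.eq_one_of_dvd_one hm.le ?_
    exact ⟨-((placeInf N).ord (jB N)), by rw [mul_neg, ← h1]; norm_num⟩
  have h2 := h x hx
  rw [show (modularFunctionFieldBar N).val x = (x : LaurentSeries Qb) from rfl,
    ModFun.ordL_valInf (hne hx), hm1, one_mul] at h2
  exact h2.symm

theorem ord_placeInf_jAt (d : ℕ) [NeZero d] (hd : d ∣ N) :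
    (placeInf N).ord (jAt N d hd) = -(d : ℤ) := by
  have hj : jqModC Qb ≠ 0 := fun h0 => by simpa [h0] using Igusa.order_jqModC (K := Qb)
  rw [ord_placeInf N (jAt_ne_zero N d hd), coe_jAt, Igusa.order_qExpand hj, Igusa.order_jqModC]
  ring

theorem ord_placeInf_jB : (placeInf N).ord (jB N) = -1 := by
  rw [← jAt_one, ord_placeInf_jAt]; norm_num

section Prime

variable (p : ℕ) [hp : Fact p.Prime]

instance neZero_of_fact_prime' : NeZero p := ⟨hp.out.ne_zero⟩

theorem cuspCount_prime : cuspCount p = 2 := by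
  rw [cuspCount, hp.out.divisors, Finset.sum_pair hp.out.one_lt.ne]
  simp [Nat.div_self hp.out.pos]

theorem dedekindPsi_prime : dedekindPsi p = p + 1 := by
  rw [dedekindPsi, hp.out.divisors, Finset.filter_insert, if_pos squarefree_one,
    Finset.filter_singleton, if_pos hp.out.squarefree,
    Finset.sum_pair hp.out.one_lt.ne]
  simp [Nat.div_self hp.out.pos]

theorem exists_placeZero :
    ∃ v : Place Qb (Fbar p), v ≠ placeInf p ∧ v.ord (jB p) = -(p : ℤ) ∧
      ∀ w : Place Qb (Fbar p), w.ord (jB p) < 0 → w = placeInf p ∨ w = v := by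
  classical
  set S := zerosFin p (jB p)⁻¹ with hS
  have hmem : ∀ w : Place Qb (Fbar p), w ∈ S ↔ w.ord (jB p) < 0 := fun w => by
    rw [hS, mem_zerosFin, w.ord_inv]; omega
  have hinf : placeInf p ∈ S := (hmem _).mpr (by rw [ord_placeInf_jB]; norm_num)
  have hcard : S.card = 2 := (Genus.card_zeros_inv p).trans (cuspCount_prime p)
  obtain ⟨v, hv⟩ : ∃ v, S.erase (placeInf p) = {v} := by
    rw [← Finset.card_eq_one, Finset.card_erase_of_mem hinf, hcard]
  have hvS : v ∈ S ∧ v ≠ placeInf p := by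
    have : v ∈ S.erase (placeInf p) := by rw [hv]; exact Finset.mem_singleton_self v
    exact ⟨(Finset.mem_erase.mp this).2, (Finset.mem_erase.mp this).1⟩
  have ht : Transcendental Qb (jB p)⁻¹ := fun h =>
    ModFun.transcendental_jBase p Qb (IsAlgebraic.inv_iff.mp h)
  have hsum := Genus.sum_ord_zerosFin p ht
  rw [← Finset.add_sum_erase _ _ hinf, hv, Finset.sum_singleton, FF.finrank_adjoin_inv,
    (ModFun.finrank_baseChange p Qb).2, dedekindPsi_prime, Place.ord_inv, Place.ord_inv,
    ord_placeInf_jB] at hsum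
  refine ⟨v, hvS.2, by push_cast at hsum; omega, fun w hw => ?_⟩
  by_cases h : w = placeInf p
  · exact Or.inl h
  · right
    have : w ∈ S.erase (placeInf p) := Finset.mem_erase.mpr ⟨h, (hmem w).mpr hw⟩
    rw [hv, Finset.mem_singleton] at this
    exact this

/-- The cusp `0`. -/
def placeZero : Place Qb (Fbar p) := (exists_placeZero p).choose

theorem placeZero_ne_placeInf : placeZero p ≠ placeInf p := (exists_placeZero p).choose_spec.1

theorem ord_placeZero_jB : (placeZero p).ord (jB p) = -(p : ℤ) :=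
  (exists_placeZero p).choose_spec.2.1

theorem eq_of_ord_jB_neg {w : Place Qb (Fbar p)} (hw : w.ord (jB p) < 0) :
    w = placeInf p ∨ w = placeZero p :=
  (exists_placeZero p).choose_spec.2.2 w hw

/-- A pole of `j` at which its order is `-1`, resp. `-p`, is `∞`, resp. `0`. -/
theorem eq_placeInf_of_ord {w : Place Qb (Fbar p)} (hw : w.ord (jB p) = -1) : w = placeInf p := by
  rcases eq_of_ord_jB_neg p (by omega : w.ord (jB p) < 0) with h | h
  · exact h
  · rw [h, ord_placeZero_jB] at hw
    have := hp.out.one_lt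
    omega

theorem eq_placeZero_of_ord {w : Place Qb (Fbar p)} (hw : w.ord (jB p) = -(p : ℤ)) :
    w = placeZero p := by
  have := hp.out.one_lt
  rcases eq_of_ord_jB_neg p (by omega : w.ord (jB p) < 0) with h | h
  · rw [h, ord_placeInf_jB] at hw; omega
  · exact h

/-- The Atkin–Lehner involution of prime level. -/
theorem exists_atkinLehner :
    ∃ e : Fbar p ≃ₐ[Qb] Fbar p, e (jB p) = jAt p p dvd_rfl ∧ e (jAt p p dvd_rfl) = jB p := by
  suffices h : ∀ N : ℕ, N = p * 1 → ∀ [NeZero N], ∀ hpN : p ∣ N,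
      ∃ e : Fbar N ≃ₐ[Qb] Fbar N, e (jB N) = jAt N p hpN ∧ e (jAt N p hpN) = jB N from
    h p (mul_one p).symm dvd_rfl
  rintro N rfl _ hpN
  have hp1 : ¬ p ∣ 1 := fun h => hp.out.one_lt.ne' (Nat.dvd_one.mp h)
  let e := Semistable.wEquiv p 1 hp1
  refine ⟨e, Subtype.ext ?_, Subtype.ext ?_⟩
  · rw [← jAt_one, coe_jAt,
      show jAt (p * 1) 1 (one_dvd _) = Semistable.genF (p * 1) ⟨1, dvd_mul_of_dvd_right dvd_rfl p⟩
        from Subtype.ext rfl,
      Semistable.wEquiv_gen_of_dvd p 1 hp1 (d := 1) dvd_rfl]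
    exact qExpand_congr (mul_one p) _
  · rw [show jAt (p * 1) p hpN = Semistable.genF (p * 1) ⟨p * 1, mul_dvd_mul_left p dvd_rfl⟩ from
      Subtype.ext (qExpand_congr (mul_one p).symm _),
      Semistable.wEquiv_gen_mul p 1 hp1 (d := 1) dvd_rfl]
    exact qExpand_one_apply _

/-- The poles of `j(pτ)` are the two cusps, with orders `-p` and `-1`. -/
theorem ord_jAt_cases {w : Place Qb (Fbar p)} (hw : w.ord (jAt p p dvd_rfl) < 0) :
    w = placeInf p ∨ w = placeZero p ∧ w.ord (jAt p p dvd_rfl) = -1 := by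
  obtain ⟨e, he1, he2⟩ := exists_atkinLehner p
  have h1 : (e • w).ord (e (jAt p p dvd_rfl)) = w.ord (jAt p p dvd_rfl) :=
    AlgebraicCurve.Place.ord_smul e w _
  have h2 : (e • w).ord (e (jB p)) = w.ord (jB p) := AlgebraicCurve.Place.ord_smul e w _
  rw [he2] at h1
  rw [he1] at h2
  rcases eq_of_ord_jB_neg p (w := e • w) (by omega) with h | h
  · -- the image is `∞`, so `w` is `0`
    rw [h, ord_placeInf_jB] at h1
    rw [h, ord_placeInf_jAt] at h2
    exact Or.inr ⟨eq_placeZero_of_ord p h2.symm, h1.symm⟩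
  · by_cases hwi : w = placeInf p
    · exact Or.inl hwi
    exfalso
    -- then `∞` is also sent to `0`
    have h3 : (e • placeInf p).ord (e (jAt p p dvd_rfl)) = -(p : ℤ) :=
      (AlgebraicCurve.Place.ord_smul e _ _).trans (ord_placeInf_jAt p p dvd_rfl)
    rw [he2] at h3
    have h4 : e • placeInf p = e • w := (eq_placeZero_of_ord p h3).trans h.symm
    exact hwi (smul_left_cancel _ h4).symm

theorem ord_placeZero_jAt : (placeZero p).ord (jAt p p dvd_rfl) = -1 := by
  obtain ⟨e, he1, he2⟩ := exists_atkinLehner p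
  have h1 : (e • placeInf p).ord (e (jB p)) = -1 :=
    (AlgebraicCurve.Place.ord_smul e _ _).trans (ord_placeInf_jB p)
  have h2 : (e • placeInf p).ord (e (jAt p p dvd_rfl)) = -(p : ℤ) :=
    (AlgebraicCurve.Place.ord_smul e _ _).trans (ord_placeInf_jAt p p dvd_rfl)
  rw [he1] at h1
  rw [he2] at h2
  rwa [eq_placeZero_of_ord p h2] at h1

theorem ord_jB_neg_of_jAt_neg {w : Place Qb (Fbar p)} (hw : w.ord (jAt p p dvd_rfl) < 0) :
    w.ord (jB p) < 0 := by
  have := hp.out.pos
  rcases ord_jAt_cases p hw with rfl | ⟨rfl, -⟩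
  · rw [ord_placeInf_jB]; norm_num
  · rw [ord_placeZero_jB]; omega

/-- Galois fixes both cusps. -/
theorem galois_smul_placeInf (σ : Qb ≃ₐ[ℚ] Qb) :
    arithmeticGalois (modularFunctionFieldFull p) σ • placeInf p = placeInf p := by
  set g := arithmeticGalois (modularFunctionFieldFull p) σ
  have hj : g • jB p = jB p := Subtype.ext (by
    rw [coe_arithmeticGalois_smul]; exact coeffMap_jqModC _)
  refine eq_placeInf_of_ord p ?_
  have := SemilinearAut.ord_smul g (placeInf p) (jB p)
  rwa [hj, ord_placeInf_jB] at this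

theorem galois_smul_placeZero (σ : Qb ≃ₐ[ℚ] Qb) :
    arithmeticGalois (modularFunctionFieldFull p) σ • placeZero p = placeZero p := by
  set g := arithmeticGalois (modularFunctionFieldFull p) σ
  have hj : g • jB p = jB p := Subtype.ext (by
    rw [coe_arithmeticGalois_smul]; exact coeffMap_jqModC _)
  refine eq_placeZero_of_ord p ?_
  have := SemilinearAut.ord_smul g (placeZero p) (jB p)
  rwa [hj, ord_placeZero_jB] at this

/-- The divisor `(0) - (∞)`. -/
def cuspDiv : Divisor Qb (Fbar p) := Finsupp.single (placeZero p) 1 - Finsupp.single (placeInf p) 1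

theorem cuspDiv_mem : cuspDiv p ∈ Divisor.degZero (K := Qb) (F := Fbar p) := by
  rw [Divisor.mem_degZero, cuspDiv, map_sub, Divisor.degree_single, Divisor.degree_single,
    FF.deg_eq_one, FF.deg_eq_one, sub_self]

/-- The cuspidal class `[0] - [∞]`. -/
def cuspidal : JZero p := Pic0.mk ⟨cuspDiv p, cuspDiv_mem p⟩

end Prime

end Fermat.Agent.Mazur.Eisenstein

end
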