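import Fermat.Agent.Mazur.Eisenstein.CuspFibre
import Fermat.Prelude.Def_ModularCurve_HeckeModule

/-!
# The cuspidal class is an Eisenstein eigenclass
-/

set_option autoImplicit false

noncomputable section

open AlgebraicCurve ModularCurve
open scoped IntermediateField

namespace Fermat.Agent.Mazur.Eisenstein

open Fermat.Agent.Genus (Fbar jB)

local notation "Qb" => AlgebraicClosure ℚ

-- The algebra structures of the function fields are found much faster this way.
attribute [local instance 2000] SubalgebraClass.toAlgebra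

variable (p l : ℕ) [hp : Fact p.Prime] [hl : Fact l.Prime]

/-- The Hecke correspondence on divisors. -/
def cuspCorr : Divisor Qb (Fbar p) →+ Divisor Qb (Fbar p) :=
  haveI : HasPrincipalDivisors Qb (Fbar (p * l)) := FF.hasPrincipalDivisors
  Divisor.correspondence (heckeBetaBar Qb p l) (heckeAlphaBar Qb p l)
    (FF.isIntegralAlong _) (FF.isIntegralAlong _)

theorem heckeAlong_cuspidal {E : Divisor Qb (Fbar p)}
    (hE : cuspCorr p l (cuspDiv p) = E) (hmem : E ∈ Divisor.degZero (K := Qb) (F := Fbar p)) :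
    heckeOperatorAlong Qb p l (cuspidal p) = Pic0.mk ⟨E, hmem⟩ := by
  have : HasPrincipalDivisors Qb
      (laurentBaseChange Qb (modularFunctionFieldFull (p * l))) := FF.hasPrincipalDivisors
  have hα : HeckeAlphaBarIntegral Qb p l := FF.isIntegralAlong (heckeAlphaBar Qb p l)
  have hβ : HeckeBetaBarIntegral Qb p l := FF.isIntegralAlong (heckeBetaBar Qb p l)
  rw [heckeOperatorAlong_eq (L := Qb) (N := p) (ℓ := l) hα hβ
    (FF.fundamentalIdentityAlong (heckeBetaBar Qb p l) hβ)
    (FF.finiteAlong (heckeAlphaBar Qb p l))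
    (FF.normFormulaAlong (heckeAlphaBar Qb p l) (FF.finiteAlong (heckeAlphaBar Qb p l)))]
  rw [cuspidal]
  unfold heckePic0Bar
  erw [Pic0.correspondence_mk]
  exact congrArg Pic0.mk (Subtype.ext hE)

theorem mk_zsmul_cuspDiv (n : ℤ) (h : n • cuspDiv p ∈ Divisor.degZero (K := Qb) (F := Fbar p)) :
    Pic0.mk ⟨n • cuspDiv p, h⟩ = n • cuspidal p :=
  map_zsmul (QuotientAddGroup.mk' _)
    n (⟨cuspDiv p, cuspDiv_mem p⟩ : Divisor.degZero (K := Qb) (F := Fbar p))

theorem cuspCorr_single_of_ne (hne : l ≠ p) {v : Place Qb (Fbar p)} (hv : v.ord (jB p) < 0) :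
    cuspCorr p l (Finsupp.single v 1) = Finsupp.single v ((l : ℤ) + 1) := by
  have : HasPrincipalDivisors Qb (Fbar (p * l)) := FF.hasPrincipalDivisors
  rw [cuspCorr, correspondence_single_of_forall _ _ _ _
    (fun w hw => restrictAlong_alpha_eq_beta p l hne hv w hw), (finrankAlong_of_ne p l hne).2]
  push_cast
  ring_nf

/-- `T_l c = (1 + l) c`. -/
theorem heckeAlong_cuspidal_of_ne (hne : l ≠ p) :
    heckeOperatorAlong Qb p l (cuspidal p) = ((l : ℤ) + 1) • cuspidal p := by
  have h0 : (placeZero p).ord (jB p) < 0 := by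
    rw [ord_placeZero_jB]; have := hp.out.pos; omega
  have hi : (placeInf p).ord (jB p) < 0 := by rw [ord_placeInf_jB]; norm_num
  have hE : cuspCorr p l (cuspDiv p) = ((l : ℤ) + 1) • cuspDiv p := by
    rw [cuspDiv, map_sub, cuspCorr_single_of_ne p l hne h0, cuspCorr_single_of_ne p l hne hi,
      smul_sub, Finsupp.smul_single, Finsupp.smul_single, smul_eq_mul, mul_one]
  rw [heckeAlong_cuspidal p l hE (zsmul_mem (cuspDiv_mem p) _), mk_zsmul_cuspDiv]

theorem cuspCorr_self : cuspCorr p p (cuspDiv p) = cuspDiv p := by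
  classical
  have : HasPrincipalDivisors Qb (Fbar (p * p)) := FF.hasPrincipalDivisors
  set α := heckeAlphaBar Qb p p with hαdef
  set β := heckeBetaBar Qb p p with hβdef
  have hαi := FF.isIntegralAlong α
  have hβi := FF.isIntegralAlong β
  obtain ⟨dα, dβ⟩ := finrankAlong_self p
  have hp1 : (1 : ℤ) < p := by exact_mod_cast hp.out.one_lt
  have hne := placeZero_ne_placeInf p
  -- the middle generator
  have hmid : α (jAt p p dvd_rfl) = β (jB p) := by
    refine Subtype.ext ?_
    rw [coe_heckeAlphaBar, coe_heckeBetaBar, coe_jAt, ModFun.coe_jBase]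
  have hjj : α (jB p) = jB (p * p) := by
    refine Subtype.ext ?_
    rw [coe_heckeAlphaBar, ModFun.coe_jBase, ModFun.coe_jBase]
  have hmid' : β (jB p) = jAt (p * p) p (dvd_mul_left p p) := by
    refine Subtype.ext ?_
    rw [coe_heckeBetaBar, coe_jAt, ModFun.coe_jBase]
  -- infinity
  set W := placeInf (p * p) with hW
  have hWa : W.ord (α (jB p)) = -1 := by rw [hjj, ord_placeInf_jB]
  have hWb : W.ord (β (jB p)) = -(p : ℤ) := by rw [hmid', ord_placeInf_jAt]
  obtain ⟨e, he, hWβ, hWe⟩ := pos_of_map_pole p β W (Or.inl (by rw [hWb]; omega))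
  obtain ⟨f, hf, hWα, -⟩ := pos_of_map_pole p α W (Or.inl (by rw [hWa]; norm_num))
  have hWαinf : W.restrictAlong α hαi = placeInf p := by
    rcases hWα with ⟨h, -, -⟩ | ⟨-, h, -⟩
    · exact h
    · rw [hWa] at h
      have := le_mul_of_one_le_right (a := (p : ℤ)) (b := f) (by omega) (by omega)
      omega
  have hWβjp : W.ord (β (jAt p p dvd_rfl)) = -((p : ℤ) * p) := by
    rw [show β (jAt p p dvd_rfl) = jAt (p * p) (p * p) dvd_rfl from Subtype.ext (by
      rw [coe_heckeBetaBar, coe_jAt, coe_jAt, qExpand_qExpand]), ord_placeInf_jAt]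
    push_cast
    ring
  have hWβinf : W.restrictAlong β hβi = placeInf p ∧ e = p := by
    rcases hWβ with ⟨h, h1, -⟩ | ⟨-, h1, h2⟩
    · exact ⟨h, by rw [hWb] at h1; omega⟩
    · rw [hWb] at h1; rw [hWβjp] at h2
      have he1 : (1 : ℤ) = e :=
        mul_left_cancel₀ (a := (p : ℤ)) (by omega) ((mul_one _).trans (neg_inj.mp h1))
      have := le_mul_of_one_le_right (a := (p : ℤ)) (b := (p : ℤ)) (by omega) (by omega)
      omega
  have hWram : finrankAlong Qb β ≤ W.ramificationIndexAlong β := by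
    have : (finrankAlong Qb β : ℤ) ≤ W.ramificationIndexAlong β := by
      rw [hWe, dβ, hWβinf.2]
    exact_mod_cast this
  obtain ⟨fibInf, -⟩ := fiberAlong_eq_singleton β hβi hWβinf.1 hWram
  -- zero
  obtain ⟨Z, hZ⟩ := FF.exists_restrictAlong_eq α hαi (placeZero p)
  have hZpole : Z.ord (α (jB p)) < 0 := by
    rw [ord_map α hαi, hZ, ord_placeZero_jB]
    have := ramificationIndexAlong_pos α Z
    exact mul_neg_of_pos_of_neg (by exact_mod_cast this) (by omega)
  obtain ⟨a, ha, hZα, hZa⟩ := pos_of_map_pole p α Z (Or.inl hZpole)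
  obtain ⟨hZa1, hZa2⟩ : Z.ord (α (jB p)) = -((p : ℤ) * a) ∧ Z.ord (α (jAt p p dvd_rfl)) = -a := by
    rcases hZα with ⟨h, -, -⟩ | ⟨-, h1, h2⟩
    · exact absurd (hZ.symm.trans h) hne
    · exact ⟨h1, h2⟩
  rw [hmid] at hZa2
  obtain ⟨b, hb, hZβ, hZb⟩ := pos_of_map_pole p β Z (Or.inl (by omega))
  have hZW : Z ≠ W := fun h => hne (by rw [← hZ, h, hWαinf])
  obtain ⟨hZβ0, hab⟩ : Z.restrictAlong β hβi = placeZero p ∧ a = (p : ℤ) * b := by
    rcases hZβ with ⟨h, -, -⟩ | ⟨h, h1, -⟩
    · exfalso
      have h2 : Z ∈ Place.fiberAlong β hβi (placeInf p) := Place.mem_fiberAlong.mpr h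
      rw [fibInf, Finset.mem_singleton] at h2
      exact hZW h2
    · exact ⟨h, by omega⟩
  have hZram : finrankAlong Qb α ≤ Z.ramificationIndexAlong α := by
    have : (finrankAlong Qb α : ℤ) ≤ Z.ramificationIndexAlong α := by
      rw [hZa, dα, hab]; exact le_mul_of_one_le_right (by omega) (by omega)
    exact_mod_cast this
  obtain ⟨fibZero, hZram'⟩ := fiberAlong_eq_singleton α hαi hZ hZram
  have hb1 : b = 1 := by
    have h1 : a = (p : ℤ) := by rw [← hZa, hZram', dα]
    exact mul_left_cancel₀ (a := (p : ℤ)) (by omega) ((hab.symm.trans h1).trans (mul_one _).symm)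
  -- the images
  have hinf : cuspCorr p p (Finsupp.single (placeInf p) 1) = Finsupp.single (placeInf p) (p : ℤ) := by
    rw [cuspCorr, correspondence_single, fibInf, Finset.sum_singleton, hWαinf, hWe, hWβinf.2]
  have hzero : cuspCorr p p (Finsupp.single (placeZero p) 1) =
      Finsupp.single (placeZero p) 1 + Finsupp.single (placeInf p) ((p : ℤ) - 1) := by
    have hmem : Z ∈ Place.fiberAlong β hβi (placeZero p) := Place.mem_fiberAlong.mpr hZβ0
    have hsum := sum_ramification_eq β hβi (placeZero p)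
    rw [← Finset.add_sum_erase _ _ hmem, hZb, hb1, dβ] at hsum
    rw [cuspCorr, correspondence_single, ← Finset.add_sum_erase _ _ hmem, hZ, hZb, hb1]
    congr 1
    rw [show (p : ℤ) - 1 = ∑ u ∈ (Place.fiberAlong β hβi (placeZero p)).erase Z,
      (u.ramificationIndexAlong β : ℤ) by omega, Finsupp.single_finsetSum]
    refine Finset.sum_congr rfl fun u hu => ?_
    obtain ⟨huZ, hu'⟩ := Finset.mem_erase.mp hu
    rw [Place.mem_fiberAlong] at hu'
    congr 1
    have hupole : u.ord (β (jB p)) < 0 := by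
      rw [ord_map β hβi, hu', ord_placeZero_jB]
      have := ramificationIndexAlong_pos β u
      exact mul_neg_of_pos_of_neg (by exact_mod_cast this) (by omega)
    rw [← hmid] at hupole
    obtain ⟨c, -, huα, -⟩ := pos_of_map_pole p α u (Or.inr hupole)
    rcases huα with ⟨h, -, -⟩ | ⟨h, -, -⟩
    · exact h
    · exfalso
      have h2 : u ∈ Place.fiberAlong α hαi (placeZero p) := Place.mem_fiberAlong.mpr h
      rw [fibZero, Finset.mem_singleton] at h2
      exact huZ h2
  rw [cuspDiv, map_sub, hinf, hzero, add_sub_assoc, ← Finsupp.single_sub, sub_sub_cancel_left,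
    Finsupp.single_neg, ← sub_eq_add_neg]

/-- `U_p c = c`. -/
theorem heckeAlong_cuspidal_self :
    heckeOperatorAlong Qb p p (cuspidal p) = cuspidal p := by
  rw [heckeAlong_cuspidal p p (cuspCorr_self p) (cuspDiv_mem p), cuspidal]

/-- The eigenvalues of `c`, for the bundled operators. -/
theorem heckeOperatorBar_cuspidal (q : Nat.Primes) :
    heckeOperatorBar p q (cuspidal p) =
      (if (q : ℕ) = p then (1 : ℤ) else (q : ℤ) + 1) • cuspidal p := by
  have : Fact (q : ℕ).Prime := ⟨q.2⟩
  rw [heckeOperatorBar_apply]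
  split_ifs with h
  · subst h
    rw [one_smul]
    exact heckeAlong_cuspidal_self (q : ℕ)
  · exact heckeAlong_cuspidal_of_ne p (q : ℕ) h

/-- The Eisenstein system: `T_l ↦ 1 + l`, `U_p ↦ 1`. -/
def eisensteinEval : HeckeAlg →+* ℤ :=
  (MvPolynomial.aeval fun q : Nat.Primes => if (q : ℕ) = p then (1 : ℤ) else (q : ℤ) + 1).toRingHom

theorem eisensteinEval_heckeGen (q : Nat.Primes) :
    eisensteinEval p (heckeGen q) = if (q : ℕ) = p then (1 : ℤ) else (q : ℤ) + 1 :=
  aeval_heckeGen _ q

theorem heckeEvalBar_cuspidal (h : HeckeOperatorsCommuteBar p) (t : HeckeAlg) :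
    heckeEvalBar h t (cuspidal p) = eisensteinEval p t • cuspidal p := by
  induction t using MvPolynomial.induction_on with
  | C a =>
    rw [heckeEvalBar_C, Module.End.intCast_apply]
    congr 1
    exact (MvPolynomial.aeval_C _ a).symm
  | add s t hs ht => rw [map_add, map_add, LinearMap.add_apply, hs, ht, add_zsmul]
  | mul_X t q ht =>
    rw [map_mul, map_mul, Module.End.mul_apply]
    have hq : heckeEvalBar h (MvPolynomial.X q) (cuspidal p)
        = eisensteinEval p (MvPolynomial.X q) • cuspidal p := by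
      rw [show (MvPolynomial.X q : HeckeAlg) = heckeGen q from rfl, heckeEvalBar_heckeGen,
        eisensteinEval_heckeGen, heckeOperatorBar_cuspidal]
    rw [hq, map_zsmul, ht, smul_smul, mul_comm]

/-- The cuspidal class is an eigenvector of the Hecke module. -/
theorem exists_eigen_cuspidal :
    ∃ ε : HeckeAlg →+* ℤ, ∀ t : HeckeAlg,
      (letI := heckeModuleBar p; t • cuspidal p) = ε t • cuspidal p := by
  by_cases h : HeckeOperatorsCommuteBar p
  · exact ⟨eisensteinEval p, fun t => by rw [heckeModuleBar_smul_def h, heckeEvalBar_cuspidal p h]⟩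
  · exact ⟨MvPolynomial.constantCoeff, fun t => heckeModuleBar_smul_of_not h t _⟩

end Fermat.Agent.Mazur.Eisenstein

end
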