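import Fermat.Agent.EichlerShimura.Equivariance
import Fermat.Agent.EichlerShimura.Specialization
import Fermat.Agent.CurveTorsion.Classes
import Fermat.Agent.CurveTorsion.FrobBuild
import Fermat.Agent.GaloisReps.HeckeGalois
import Fermat.Agent.ModFun.CuspPlaces
import Fermat.Agent.ModFun.OrbitPlaces
import Fermat.Agent.Igusa.SeriesOrder

/-!
# The Hecke-stable kernel of reduction

At a place `A` of good reduction the classes all of whose Hecke translates reduce to zero form a
subgroup stable under Hecke operators and the decomposition group, containing `σ x - x` for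
inertia `σ`; classes fixed by the square of a Frobenius element are torsion modulo it, with a
uniform exponent.
-/

set_option autoImplicit false
set_option linter.unusedSectionVars false
set_option linter.style.haveILetI false

noncomputable section

open IsLocalRing AlgebraicCurve ModularCurve
open scoped Pointwise

namespace Fermat.Agent.Mazur.Eisenstein

open Fermat.Agent.EichlerShimura (Kappa coeffAut coe_coeffAut_smul frobRing)

-- searches for the constants inside Laurent series are slow without these priorities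
attribute [local instance 10000] SubalgebraClass.toAlgebra HahnSeries.powerSeriesAlgebra

local notation "Qb" => AlgebraicClosure ℚ
local notation "GalQ" => (AlgebraicClosure ℚ ≃ₐ[ℚ] AlgebraicClosure ℚ)

section Residue

variable {A : ValuationSubring Qb} {q : ℕ}

/-- A residue at a place over `q` is fixed by a power of the `q`-power map. -/
theorem exists_pow_pow_residue (hq : q.Prime) (hA : A.LiesOverPrime q) (a : Kappa A) :
    ∃ r, 0 < r ∧ a ^ (q ^ r) = a := by
  haveI := Fact.mk hq
  haveI := Arith.residueField_charP hA hq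
  letI := ZMod.algebra (Kappa A) q
  obtain ⟨⟨x, hx⟩, rfl⟩ := residue_surjective (R := A) a
  obtain ⟨Q, hQ, hQx⟩ := (IsFractionRing.isAlgebraic_iff ℤ ℚ Qb).mpr
    (Algebra.IsAlgebraic.isAlgebraic (R := ℚ) x)
  refine CurveTorsion.exists_pow_pow_eq (IsAlgebraic.isIntegral
    ⟨Q.primPart.map (Int.castRingHom (ZMod q)), fun h => ?_, ?_⟩)
  · have hdiv : Polynomial.C (q : ℤ) ∣ Q.primPart := by
      rw [Polynomial.C_dvd_iff_dvd_coeff]
      intro n
      have := congrArg (Polynomial.coeff · n) h
      rw [← ZMod.intCast_zmod_eq_zero_iff_dvd]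
      simpa using this
    have := (Polynomial.isPrimitive_iff_isUnit_of_C_dvd.mp Q.isPrimitive_primPart) _ hdiv
    rw [Int.isUnit_iff] at this
    have := hq.two_le
    omega
  · have hprim : Polynomial.aeval x Q.primPart = 0 :=
      Polynomial.aeval_primPart_eq_zero hQ hQx
    have h1 : Polynomial.eval₂ (Int.castRingHom A) (⟨x, hx⟩ : A) Q.primPart = 0 := by
      apply A.subtype_injective
      rw [Polynomial.hom_eval₂, map_zero, ← hprim, Polynomial.aeval_def]
      exact Polynomial.eval₂_congr (RingHom.ext_int _ _) rfl rfl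
    have h2 := congrArg (residue A) h1
    rw [Polynomial.hom_eval₂, map_zero] at h2
    rw [Polynomial.aeval_def, Polynomial.eval₂_map, ← h2]
    exact Polynomial.eval₂_congr (RingHom.ext_int _ _) rfl rfl

end Residue

section Frob

variable (N : ℕ) [NeZero N] {q : ℕ} [Fact q.Prime] (A : ValuationSubring Qb)
  [IsAlgClosed (Kappa A)] [CharP (Kappa A) q]

theorem isFrob_coeffAut (hA : A.LiesOverPrime q) :
    CurveTorsion.IsFrob (coeffAut N (frobRing A q)) (q ^ 1) := by
  refine CurveTorsion.IsFrob.of_generated one_pos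
    (exists_pow_pow_residue (Fact.out) hA) _ (fun a => by rw [pow_one]; rfl)
    ((↑) ⁻¹' (divisorExpansionsC (Kappa A) N)) ?_ ?_ ?_
  · refine IntermediateField.map_injective (modularFunctionFieldFullC (Kappa A) N).val ?_
    rw [IntermediateField.adjoin_map, ← AlgHom.fieldRange_eq_map, IntermediateField.fieldRange_val]
    show IntermediateField.adjoin _ _ = IntermediateField.adjoin _ _
    congr 1
    refine Set.ext fun x => ⟨?_, fun hx =>
      ⟨⟨x, IntermediateField.subset_adjoin _ _ hx⟩, hx, rfl⟩⟩
    rintro ⟨y, hy, rfl⟩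
    exact hy
  · rintro z ⟨d, hd, hdN, hz⟩
    refine Subtype.ext ?_
    rw [coe_coeffAut_smul, hz, coeffMap_qExpand, coeffMap_jqModC]
  · refine ⟨RedTorsion.jF rfl, RedTorsion.transcendental_jF rfl, Subtype.ext ?_⟩
    rw [coe_coeffAut_smul]
    exact coeffMap_jqModC _

theorem exists_fixed_place (hNA : (N : Kappa A) ≠ 0) :
    ∃ P : Place (Kappa A) (modularFunctionFieldFullC (Kappa A) N),
      coeffAut N (frobRing A q) • P = P := by
  haveI : FF.IsFunctionField (Kappa A) (modularFunctionFieldFullC (Kappa A) N) :=
    RedTorsion.isFunctionField_full rfl hNA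
  have hj : jqModC (Kappa A) ≠ 0 := fun h0 => by
    simpa [h0] using Igusa.order_jqModC (K := Kappa A)
  have hy : 1 < ModFun.valInf (Kappa A)
      ((modularFunctionFieldFullC (Kappa A) N).val (RedTorsion.jF rfl)) := by
    show 1 < ModFun.valInf (Kappa A) (jqModC (Kappa A))
    rw [ModFun.valInf_apply hj, Igusa.order_jqModC, ← WithZero.exp_zero, WithZero.exp_lt_exp]
    norm_num
  set P := ModFun.placeOfEmb (ModFun.valInf (Kappa A)) (fun _ hc => ModFun.valInf_constant hc)
    (modularFunctionFieldFullC (Kappa A) N).val hy with hP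
  refine ⟨P, Place.ext (SetLike.ext fun x => ?_)⟩
  set g := coeffAut N (frobRing A q) with hg
  have key : ∀ z, ModFun.valInf (Kappa A)
      ((g • z : modularFunctionFieldFullC (Kappa A) N) : LaurentSeries (Kappa A)) =
      ModFun.valInf (Kappa A) (z : LaurentSeries (Kappa A)) := by
    intro z
    rcases eq_or_ne z 0 with rfl | hz
    · rw [smul_zero]
    have hz' : (z : LaurentSeries (Kappa A)) ≠ 0 := fun h => hz (Subtype.ext h)
    have hgz : ((g • z : modularFunctionFieldFullC (Kappa A) N) : LaurentSeries (Kappa A)) ≠ 0 :=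
      fun h => ((smul_ne_zero_iff_ne g).mpr hz) (Subtype.ext h)
    rw [ModFun.valInf_apply hgz, ModFun.valInf_apply hz']
    congr 2
    refine Igusa.order_eq_of_coeff ?_ fun k hk => ?_
    · rw [hg, coe_coeffAut_smul, coeffMap_coeff]
      exact (_root_.map_ne_zero _).mpr (HahnSeries.coeff_order_eq_zero.not.mpr hz')
    · rw [hg, coe_coeffAut_smul, coeffMap_coeff, HahnSeries.coeff_eq_zero_of_lt_order hk, map_zero]
  rw [SemilinearAut.smul_toValuationSubring, ValuationSubring.mem_pointwise_smul_iff_inv_smul_mem,
    hP, ModFun.mem_placeOfEmb, ModFun.mem_placeOfEmb]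
  show ModFun.valInf (Kappa A)
      ((g⁻¹ • x : modularFunctionFieldFullC (Kappa A) N) : LaurentSeries (Kappa A)) ≤ 1 ↔
    ModFun.valInf (Kappa A) ((x : modularFunctionFieldFullC (Kappa A) N) : LaurentSeries (Kappa A)) ≤ 1
  rw [← key (g⁻¹ • x), smul_inv_smul]

/-- The classes fixed by the square of the Frobenius form a finite group. -/
theorem finite_fixedSub_sq (hA : A.LiesOverPrime q) (hNA : (N : Kappa A) ≠ 0) :
    (CurveTorsion.fixedSub (coeffAut N (frobRing A q) ^ 2) :
      Set (JZeroC (Kappa A) N)).Finite := by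
  haveI : FF.IsFunctionField (Kappa A) (modularFunctionFieldFullC (Kappa A) N) :=
    RedTorsion.isFunctionField_full rfl hNA
  obtain ⟨P, hP⟩ := exists_fixed_place N A (q := q) hNA
  exact CurveTorsion.finite_fixedSub ((isFrob_coeffAut N A hA).pow two_pos) (P₀ := P)
    (by rw [pow_two, mul_smul, hP, hP])

end Frob

section Kernel

variable (N : ℕ) [NeZero N]

/-- The classes all of whose Hecke translates reduce to zero. -/
def kerRed (A : ValuationSubring Qb) : AddSubgroup (JZero N) where
  carrier := {x | ∀ t : HeckeAlg, (letI := heckeModuleBar N; reductionModL A N (t • x) = 0)}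
  zero_mem' t := by
    letI := heckeModuleBar N
    show reductionModL A N (t • (0 : JZero N)) = 0
    rw [smul_zero, map_zero]
  add_mem' {x y} hx hy t := by
    letI := heckeModuleBar N
    show reductionModL A N (t • (x + y)) = 0
    rw [smul_add, map_add, hx t, hy t, add_zero]
  neg_mem' {x} hx t := by
    letI := heckeModuleBar N
    show reductionModL A N (t • -x) = 0
    rw [smul_neg, map_neg, hx t, neg_zero]

variable {N} {A : ValuationSubring Qb}

theorem reductionModL_eq_zero_of_mem {x : JZero N} (hx : x ∈ kerRed N A) :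
    reductionModL A N x = 0 := by
  letI := heckeModuleBar N
  have := hx 1
  rwa [one_smul] at this

theorem hecke_mem_kerRed (t : HeckeAlg) {x : JZero N} (hx : x ∈ kerRed N A) :
    letI := heckeModuleBar N
    t • x ∈ kerRed N A := by
  letI := heckeModuleBar N
  intro s
  rw [smul_smul]
  exact hx _

theorem galois_smul_hecke (σ : GalQ) (t : HeckeAlg) :
    letI := heckeModuleBar N
    ∀ x : JZero N, σ • t • x = t • σ • x := by
  letI := heckeModuleBar N
  have hz : ∀ (a : ℤ) (x : JZero N), σ • a • x = a • σ • x := fun a x =>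
    map_zsmul (DistribSMul.toAddMonoidHom (JZero N) σ) a x
  induction t using MvPolynomial.induction_on with
  | C a => intro x; rw [heckeModuleBar_C_smul, heckeModuleBar_C_smul, hz]
  | add f g hf hg => intro x; rw [add_smul, add_smul, smul_add, hf, hg]
  | mul_X f l hf =>
    intro x
    rw [mul_smul, mul_smul, hf]
    congr 1
    rw [show (MvPolynomial.X l : HeckeAlg) = heckeGen l from rfl]
    by_cases h : HeckeOperatorsCommuteBar N
    · rw [heckeModuleBar_heckeGen_smul h, heckeModuleBar_heckeGen_smul h]
      exact GaloisReps.galois_heckeOperatorBar N l σ x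
    · rw [heckeModuleBar_heckeGen_smul_of_not h, heckeModuleBar_heckeGen_smul_of_not h]
      exact map_zero (DistribSMul.toAddMonoidHom (JZero N) σ)

variable [IsAlgClosed (Kappa A)] (hNA : (N : Kappa A) ≠ 0)

include hNA in
theorem inertia_sub_mem_kerRed {σ : GalQ} (hσ : σ ∈ A.inertiaSubgroupIn ℚ) (x : JZero N) :
    σ • x - x ∈ kerRed N A := by
  letI := heckeModuleBar N
  intro t
  rw [smul_sub, ← galois_smul_hecke, map_sub, EichlerShimura.reductionModL_inertia hNA hσ, sub_self]

include hNA in
theorem smul_mem_kerRed {σ : GalQ} (hσ : σ • A = A) {x : JZero N} (hx : x ∈ kerRed N A) :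
    σ • x ∈ kerRed N A := by
  letI := heckeModuleBar N
  intro t
  rw [← galois_smul_hecke,
    EichlerShimura.reductionModL_smul hNA hσ
      (MulSemiringAction.toRingEquiv (A.decompositionSubgroup ℚ) (Kappa A) ⟨σ, hσ⟩)
      (fun y => (Arith.residue_smul (A := A) hσ y).symm), hx t]
  exact smul_zero (M := SemilinearAut (Kappa A) (modularFunctionFieldFullC (Kappa A) N))
    (A := JZeroC (Kappa A) N) _

include hNA in
/-- A uniform exponent for classes fixed by the square of a Frobenius element, modulo the
kernel. -/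
theorem exists_bound_kerRed {q : ℕ} (hq : q.Prime) (hA : A.LiesOverPrime q) :
    ∃ δ : ℕ, δ ≠ 0 ∧ ∀ φ : GalQ, A.IsFrobeniusAt φ q →
      ∀ x : JZero N, φ • φ • x - x ∈ kerRed N A → δ • x ∈ kerRed N A := by
  haveI := Fact.mk hq
  haveI := Arith.residueField_charP hA hq
  haveI : FF.IsFunctionField (Kappa A) (modularFunctionFieldFullC (Kappa A) N) :=
    RedTorsion.isFunctionField_full rfl hNA
  have hfin := finite_fixedSub_sq (q := q) N A hA hNA
  set F := coeffAut N (frobRing A q) with hF
  haveI : Finite (CurveTorsion.fixedSub (F ^ 2) : AddSubgroup (JZeroC (Kappa A) N)) :=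
    hfin.to_subtype
  refine ⟨Nat.card (CurveTorsion.fixedSub (F ^ 2) : AddSubgroup (JZeroC (Kappa A) N)),
    Nat.card_pos.ne', fun φ hφ x hx t => ?_⟩
  letI := heckeModuleBar N
  have h0 := hx t
  rw [smul_sub, map_sub, sub_eq_zero] at h0
  rw [← galois_smul_hecke, ← galois_smul_hecke, EichlerShimura.reductionModL_frobenius hNA hφ,
    EichlerShimura.reductionModL_frobenius hNA hφ, ← mul_smul, ← pow_two, ← hF] at h0
  have hmem : reductionModL A N (t • x) ∈ CurveTorsion.fixedSub (F ^ 2) :=
    CurveTorsion.mem_fixedSub.mpr h0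
  have hz := congrArg Subtype.val (card_nsmul_eq_zero'
    (x := (⟨_, hmem⟩ : (CurveTorsion.fixedSub (F ^ 2) : AddSubgroup (JZeroC (Kappa A) N)))))
  exact (congrArg (reductionModL A N) (map_nsmul (DistribSMul.toAddMonoidHom (JZero N) t) _ x)).trans
    ((map_nsmul (reductionModL A N) _ _).trans hz)

omit [IsAlgClosed (Kappa A)] in
/-- Injectivity of reduction on prime-to-`q` torsion gives the same for the kernel. -/
theorem eq_zero_of_mem_kerRed (hinj : EichlerShimura.InjectiveOnTorsion N) {q : ℕ} (hq : q.Prime)
    (hqN : ¬ q ∣ N) (hA : A.LiesOverPrime q) {m : ℕ} (hm : ¬ q ∣ m) {x : JZero N}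
    (hmx : m • x = 0) (hx : x ∈ kerRed N A) : x = 0 := by
  haveI := Fact.mk hq
  haveI := Arith.residueField_isAlgClosed A
  exact hinj hqN A hA
    (EichlerShimura.reductionInputsModL (EichlerShimura.natCast_ne_zero hq hqN hA)) m hm x hmx
    (reductionModL_eq_zero_of_mem hx)

end Kernel

end Fermat.Agent.Mazur.Eisenstein
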