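import Fermat.Agent.Arith.Minkowski
import Fermat.Agent.Mazur.Eisenstein.CycInertia
import Fermat.Agent.Mazur.Eisenstein.Devissage
import Fermat.Agent.Mazur.Eisenstein.GalData
import Fermat.Agent.Mazur.Eisenstein.Kummer
import Fermat.Agent.Mazur.Eisenstein.Rational
import Fermat.Agent.FiniteFlat.GalOrder

/-!
# The descent bound for lines

Selmer groups of the trivial module and of `μ_r`. The main result is `descentBound_line`.
-/

set_option autoImplicit false
set_option linter.style.haveILetI false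
set_option linter.unusedSectionVars false

noncomputable section

namespace Fermat.Agent.Mazur.Eisenstein

open Fermat.Agent.Arith
open scoped Pointwise

variable {p r : ℕ} {Ap Ar : ValuationSubring QBar}
variable (hp : p.Prime) [Fact r.Prime] (hrp : r ≠ p)
variable (hAp : Ap.LiesOverPrime p) (hAr : Ar.LiesOverPrime r)
variable {B : Type} [AddCommGroup B] [DistribMulAction GQ B]

theorem zmod_two_eq_one : ∀ z : ZMod 2, z ≠ 0 → z = 1 := by decide

theorem exists_level_of_isOpen {H : Subgroup GQ} (hH : IsOpen (H : Set GQ)) :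
    ∃ L : IntermediateField ℚ QBar, FiniteDimensional ℚ L ∧
      ∀ σ : GQ, (∀ x ∈ L, σ x = x) → σ ∈ H := by
  obtain ⟨L, hL, hsub⟩ :=
    (krullTopology_mem_nhds_one_iff ℚ QBar (H : Set GQ)).mp (hH.mem_nhds (one_mem H))
  exact ⟨L, hL, fun σ hσ => hsub ((IntermediateField.mem_fixingSubgroup_iff _ _).mpr hσ)⟩

/-- A finite level through which a cocycle factors. -/
theorem exists_level_of_cocycle {c : GQ → B} (hc : c ∈ cocycles (G := GQ) B) :
    ∃ L : IntermediateField ℚ QBar, FiniteDimensional ℚ L ∧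
      ∀ g g' : GQ, (∀ x ∈ L, g x = g' x) → c g = c g' := by
  obtain ⟨-, H, hH, hHc⟩ := hc
  obtain ⟨L, hL, hLH⟩ := exists_level_of_isOpen hH
  refine ⟨L, hL, fun g g' h => ?_⟩
  have hmem : g⁻¹ * g' ∈ H := hLH _ fun x hx => by
    rw [AlgEquiv.mul_apply, ← h x hx, ← AlgEquiv.mul_apply, inv_mul_cancel, AlgEquiv.one_apply]
  have := hHc g (g⁻¹ * g') hmem
  rw [mul_inv_cancel_left] at this
  exact this.symm

theorem cocycle_one {c : GQ → B} (hc : c ∈ cocycles (G := GQ) B) : c 1 = 0 := by
  have := hc.1 1 1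
  rw [one_mul, one_smul] at this
  exact add_eq_left.mp this.symm

section Line

variable [Finite B] (B0 : AddSubgroup B) (hcard : Nat.card B = r)
include hcard

theorem nsmul_eq_zero_of_card (b : B) : r • b = 0 := hcard ▸ card_nsmul_eq_zero'

theorem eq_bot_or_eq_top_of_card : B0 = ⊥ ∨ B0 = ⊤ := by
  rcases (Nat.dvd_prime (Fact.out : r.Prime)).mp (hcard ▸ B0.card_addSubgroup_dvd_card) with h | h
  · exact Or.inl (AddSubgroup.card_eq_one.mp h)
  · exact Or.inr (AddSubgroup.eq_top_of_card_eq _ (by rw [h, hcard]))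

/-- An embedding of a line into `ℚ̄ˣ` by roots of unity. -/
theorem exists_emb : ∃ ψ : B →+ UnitsBar, Function.Injective ψ ∧
    (∀ b, uval (ψ b) ^ r = 1) ∧ ∀ ξ : QBar, ξ ^ r = 1 → ∃ b, uval (ψ b) = ξ := by
  haveI : NeZero r := ⟨(Fact.out : r.Prime).ne_zero⟩
  obtain ⟨ζ, hζ⟩ := HasEnoughRootsOfUnity.exists_primitiveRoot QBar r
  have hζ0 : ζ ≠ 0 := hζ.ne_zero (NeZero.ne r)
  haveI : Nontrivial B := Finite.one_lt_card_iff_nontrivial.mp
    (hcard ▸ (Fact.out : r.Prime).one_lt)
  obtain ⟨b₀, hb₀⟩ := exists_ne (0 : B)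
  have hord : addOrderOf b₀ = r :=
    addOrderOf_eq_prime (nsmul_eq_zero_of_card hcard b₀) hb₀
  set f : ZMod r →+ B := ZMod.lift r ⟨zmultiplesHom B b₀, by
    simp [nsmul_eq_zero_of_card hcard b₀]⟩ with hf
  have hfn : ∀ n : ℕ, f n = n • b₀ := fun n => by
    rw [hf, ← Int.cast_natCast (R := ZMod r) n, ZMod.lift_coe, zmultiplesHom_apply, natCast_zsmul]
  have hfinj : Function.Injective f := by
    rw [injective_iff_map_eq_zero]
    intro x hx
    rw [← ZMod.natCast_zmod_val x] at hx ⊢
    rw [hfn] at hx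
    refine (ZMod.natCast_eq_zero_iff x.val r).mpr ?_
    conv_lhs => rw [← hord]
    exact addOrderOf_dvd_of_nsmul_eq_zero hx
  have hfbij : Function.Bijective f := (Nat.bijective_iff_injective_and_card f).mpr
    ⟨hfinj, by rw [Nat.card_zmod, hcard]⟩
  let e : ZMod r ≃+ B := AddEquiv.ofBijective f hfbij
  set z : UnitsBar := Additive.ofMul (Units.mk0 ζ hζ0) with hz
  have hzr : r • z = 0 := uval_injective (by rw [uval_nsmul, hz, uval_ofMul, Units.val_mk0, hζ.pow_eq_one, uval_zero])
  set g : ZMod r →+ UnitsBar := ZMod.lift r ⟨zmultiplesHom UnitsBar z, by simp [hzr]⟩ with hg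
  have hgn : ∀ n : ℕ, uval (g n) = ζ ^ n := fun n => by
    rw [hg, ← Int.cast_natCast (R := ZMod r) n, ZMod.lift_coe, zmultiplesHom_apply, natCast_zsmul, uval_nsmul, hz,
      uval_ofMul, Units.val_mk0]
  refine ⟨g.comp e.symm.toAddMonoidHom, ?_, fun b => ?_, fun ξ hξ => ?_⟩
  · rw [AddMonoidHom.coe_comp]
    refine Function.Injective.comp ?_ e.symm.injective
    rw [injective_iff_map_eq_zero]
    intro x hx
    rw [← ZMod.natCast_zmod_val x] at hx ⊢
    have h1 : ζ ^ x.val = 1 := by rw [← hgn, hx, uval_zero]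
    exact (ZMod.natCast_eq_zero_iff x.val r).mpr ((hζ.pow_eq_one_iff_dvd _).mp h1)
  · show uval (g (e.symm b)) ^ r = 1
    rw [← ZMod.natCast_zmod_val (e.symm b), hgn, ← pow_mul, mul_comm, pow_mul, hζ.pow_eq_one,
      one_pow]
  · obtain ⟨i, -, rfl⟩ := hζ.eq_pow_of_pow_eq_one hξ
    exact ⟨e (i : ZMod r), by simp [hgn]⟩

variable {B0} (hgood : IsLocallyGood (galData p r Ap Ar) B0)
include hp hrp hAp hAr hgood

/-- On a line with trivial action, Selmer classes vanishing at `r` vanish. -/
theorem eq_zero_of_trivial (htriv : ∀ (g : GQ) (b : B), g • b = b) {c : GQ → B}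
    (hc : c ∈ selmer (galData p r Ap Ar) B0)
    (hr0 : ∀ g ∈ Ar.inertiaSubgroupIn ℚ, c g = 0) : c = 0 := by
  obtain ⟨hcoc, hunr, ⟨b, hb⟩, -, -⟩ := hc
  have hhom : ∀ g h, c (g * h) = c g + c h := fun g h => by rw [hcoc.1, htriv]
  have hconj : ∀ g h, c (g * h * g⁻¹) = c h := by
    intro g h
    have h1 := hhom (g * h * g⁻¹) g
    rw [inv_mul_cancel_right, hhom g h] at h1
    exact add_right_cancel (h1.symm.trans (add_comm _ _))
  obtain ⟨L, hL, hLc⟩ := exists_level_of_cocycle hcoc
  let ρ : GQ →* Multiplicative B :=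
    { toFun := fun g => Multiplicative.ofAdd (c g)
      map_one' := by rw [cocycle_one hcoc]; rfl
      map_mul' := fun g h => by rw [hhom]; rfl }
  have key := eq_one_of_trivial_on_inertia ρ L
    (fun σ hσ => by
      show Multiplicative.ofAdd (c σ) = 1
      rw [hLc σ 1 (fun x hx => by simpa using hσ x hx), cocycle_one hcoc]; rfl)
    (fun q hq A hA σ hσ => by
      show Multiplicative.ofAdd (c σ) = 1
      suffices c σ = 0 by rw [this]; rfl
      have hmove : ∀ (A' : ValuationSubring QBar), A'.LiesOverPrime q →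
          (∀ τ ∈ A'.inertiaSubgroupIn ℚ, c τ = 0) → c σ = 0 := by
        intro A' hA' h0
        obtain ⟨g, hg⟩ := exists_smul_eq hA hA' hq
        rw [← hconj g σ]
        refine h0 _ ?_
        rw [← hg]
        exact mem_inertia_smul_iff.mpr hσ
      by_cases hqp : q = p
      · subst hqp
        exact hmove Ap hAp fun τ hτ => by rw [hb τ hτ, htriv, sub_self]
      by_cases hqr : q = r
      · subst hqr
        exact hmove Ar hAr hr0
      exact hunr σ ⟨q, A, hq, hqp, hqr, hA, hσ⟩)
  exact funext fun g => Multiplicative.ofAdd.injective (DFunLike.congr_fun key g)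

/-- The Kummer element of a cyclotomic Selmer class with full multiplicative part. -/
theorem exists_rat_of_mu (hchi : ∀ (g : GQ) (b : B), g • b = (cyc r g : ZMod r).val • b)
    (_hB0 : B0 = ⊤) (ψ : B →+ UnitsBar) (hψr : ∀ b, uval (ψ b) ^ r = 1) {c : GQ → B}
    (hc : c ∈ selmer (galData p r Ap Ar) B0) :
    ∃ (y : QBar) (w : ℚ), y ≠ 0 ∧ (∀ g : GQ, g y = uval (ψ (c g)) * y) ∧
      (y ^ r = (w : QBar) ^ r ∨ y ^ r = -((w : QBar) ^ r)) := by
  have hr : r.Prime := Fact.out
  haveI : NeZero r := ⟨hr.ne_zero⟩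
  obtain ⟨hcoc, hunr, ⟨b, hb⟩, hB, hunit⟩ := hc
  have hequiv : ∀ (g : GQ) (x : B), uval (ψ (g • x)) = g (uval (ψ x)) := fun g x => by
    rw [hchi, map_nsmul, uval_nsmul, ← cyc_spec g (hψr x)]
  obtain ⟨L, hL, hLc⟩ := exists_level_of_cocycle hcoc
  obtain ⟨y, hy0, hy⟩ := exists_coboundary ⊤ (fun g => uval (ψ (c g))) L
    (fun g _ => uval_ne_zero _)
    (fun g _ h _ => by rw [hcoc.1, map_add, uval_add, hequiv])
    (fun g _ g' _ h => by rw [hLc g g' h])
  have hy' : ∀ g : GQ, g y = uval (ψ (c g)) * y := fun g => hy g trivial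
  obtain ⟨z, hz⟩ := FiniteFlat.exists_rat_of_fixed (x := y ^ r) fun σ => by
    rw [map_pow, hy', mul_pow, hψr, one_mul]
  have hz0 : z ≠ 0 := fun h => pow_ne_zero r hy0 (by rw [← hz, h, Rat.cast_zero])
  have hdiv : ∀ q, q.Prime →
      (r : ℤ) ∣ ((z.num.natAbs.factorization q : ℤ) - z.den.factorization q) := by
    intro q hq
    obtain ⟨A, hA, y', hy'0, hyy', hfix⟩ : ∃ A : ValuationSubring QBar, A.LiesOverPrime q ∧
        ∃ y' : QBar, y' ≠ 0 ∧ ordAt A q y' = ordAt A q y ∧
          ∀ σ ∈ A.inertiaSubgroupIn ℚ, σ y' = y' := by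
      by_cases hqp : q = p
      · subst hqp
        refine ⟨Ap, hAp, y, hy0, rfl, fun σ hσ => ?_⟩
        rw [hy', hb σ hσ, map_sub, uval_sub, hequiv, inertia_root hAp hq hσ (hψr b)
          (fun h => hrp ((Nat.prime_dvd_prime_iff_eq hq hr).mp h).symm),
          div_self (uval_ne_zero _), one_mul]
      by_cases hqr : q = r
      · subst hqr
        obtain ⟨u, hu, hu'⟩ := hunit (ψ.comp B0.subtype)
        refine ⟨Ar, hAr, y / uval u, div_ne_zero hy0 (uval_ne_zero u), ?_, fun σ hσ => ?_⟩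
        · rw [ordAt_div hAr hq hy0 (uval_ne_zero u),
            (ordAt_eq_zero_iff hAr hq (uval_ne_zero u)).mpr (mem_unitsAt.mp hu), sub_zero]
        · have h := congrArg uval (hu' ⟨σ, hσ⟩)
          rw [uval_sub, uval_smul] at h
          have h' : uval (ψ (c σ)) = σ (uval u) / uval u := h
          rw [map_div₀, hy', h']
          have hσu : σ (uval u) ≠ 0 := by simpa using uval_ne_zero u
          field_simp
      obtain ⟨A, hA⟩ := exists_liesOverPrime hq
      refine ⟨A, hA, y, hy0, rfl, fun σ hσ => ?_⟩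
      rw [hy', hunr σ ⟨q, A, hq, hqp, hqr, hA, hσ⟩, map_zero, uval_zero, one_mul]
    obtain ⟨k, hk⟩ := exists_int_ordAt hA hq hy'0 hfix
    have h1 := ordAt_pow hA hq hy0 r
    rw [← hz, ordAt_ratCast hA hq hz0, ← hyy', hk] at h1
    exact ⟨k, by exact_mod_cast h1⟩
  obtain ⟨w, hw⟩ := exists_rat_pow_of_forall_dvd hz0 hdiv
  refine ⟨y, w, hy0, hy', ?_⟩
  rw [← hz]
  exact hw.imp (fun h => by rw [h]; push_cast; rfl) (fun h => by rw [h]; push_cast; rfl)

/-- The descent bound for `μ_r` with full multiplicative part, `r` odd. -/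
theorem selmer_le_of_mu (hodd : r ≠ 2) (hchi : ∀ (g : GQ) (b : B), g • b = (cyc r g : ZMod r).val • b)
    (hB0 : B0 = ⊤) : selmer (galData p r Ap Ar) B0 ≤ (dB (G := GQ) B).range := by
  have hr : r.Prime := Fact.out
  haveI : NeZero r := ⟨hr.ne_zero⟩
  intro c hc
  obtain ⟨ψ, hψinj, hψr, hψsurj⟩ := exists_emb hcard
  obtain ⟨y, w, hy0, hy, hw⟩ := exists_rat_of_mu hp hrp hAp hAr hcard hgood hchi hB0 ψ hψr hc
  obtain ⟨w', hw'⟩ : ∃ w' : ℚ, y ^ r = (w' : QBar) ^ r := by
    rcases hw with h | h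
    · exact ⟨w, h⟩
    · exact ⟨-w, by rw [h, Rat.cast_neg, (hr.odd_of_ne_two hodd).neg_pow]⟩
  have hw0 : (w' : QBar) ≠ 0 := fun h => pow_ne_zero r hy0 (by rw [hw', h, zero_pow hr.ne_zero])
  obtain ⟨b, hb⟩ := hψsurj (y / w') (by rw [div_pow, hw', div_self (pow_ne_zero r hw0)])
  refine ⟨b, funext fun g => hψinj (uval_injective ?_)⟩
  rw [dB_apply, map_sub, uval_sub, hchi, map_nsmul, uval_nsmul, ← cyc_spec g (hψr b), hb,
    map_div₀, map_ratCast, hy]
  field_simp

/-- The bound on the Selmer group of `μ_2`. -/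
theorem selmer_two_bound (h2 : r = 2) (hchi : ∀ (g : GQ) (b : B), g • b = (cyc r g : ZMod r).val • b)
    (hB0 : B0 = ⊤) :
    selCard (galData p r Ap Ar) B0 ≠ 0 ∧ selCard (galData p r Ap Ar) B0 ≤ r := by
  have hr : r.Prime := Fact.out
  haveI : NeZero r := ⟨hr.ne_zero⟩
  obtain ⟨ψ, hψinj, hψr, -⟩ := exists_emb hcard
  obtain ⟨i, hi⟩ := IsAlgClosed.exists_pow_nat_eq (-1 : QBar) two_pos
  obtain ⟨γ, hγ⟩ : ∃ γ : GQ, γ i ≠ i := by
    by_contra hcon
    push Not at hcon
    obtain ⟨z, hz⟩ := FiniteFlat.exists_rat_of_fixed (x := i) hcon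
    have h : z ^ 2 = -1 := by
      have h' : (z : QBar) ^ 2 = -1 := by rw [hz, hi]
      exact_mod_cast h'
    nlinarith [sq_nonneg z]
  set S := selmer (galData p r Ap Ar) B0 with hS
  let ev : S → B := fun c => (c : GQ → B) γ
  have hev : Function.Injective ev := by
    intro c c' h
    refine Subtype.ext (sub_eq_zero.mp ?_)
    set d := (c : GQ → B) - c' with hd'
    have hd : d ∈ S := sub_mem c.2 c'.2
    have hdγ : d γ = 0 := sub_eq_zero.mpr h
    obtain ⟨y, w, hy0, hy, hw⟩ := exists_rat_of_mu hp hrp hAp hAr hcard hgood hchi hB0 ψ hψr hd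
    have hw0 : (w : QBar) ≠ 0 := fun h0 => pow_ne_zero r hy0 (by
      rcases hw with h' | h' <;> simp [h', h0, zero_pow hr.ne_zero])
    rw [h2] at hw
    have hgγ : γ y = y := by rw [hy, hdγ, map_zero, uval_zero, one_mul]
    have hfix : ∀ g : GQ, g y = y := by
      rcases hw with h' | h'
      · intro g
        rcases sq_eq_sq_iff_eq_or_eq_neg.mp h' with e | e <;> simp [e]
      · exfalso
        have h'' : y ^ 2 = ((w : QBar) * i) ^ 2 := by rw [h', mul_pow, hi]; ring
        rcases sq_eq_sq_iff_eq_or_eq_neg.mp h'' with e | e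
        · rw [e, map_mul, map_ratCast] at hgγ
          exact hγ (mul_left_cancel₀ hw0 hgγ)
        · rw [e, map_neg, map_mul, map_ratCast, neg_inj] at hgγ
          exact hγ (mul_left_cancel₀ hw0 hgγ)
    funext g
    refine hψinj (uval_injective ?_)
    show uval (ψ (d g)) = uval (ψ ((0 : GQ → B) g))
    rw [Pi.zero_apply, map_zero, uval_zero]
    have := hy g
    rw [hfix g] at this
    exact (mul_eq_right₀ hy0).mp this.symm
  haveI : Finite S := Finite.of_injective ev hev
  have hcardS : Nat.card S ≤ r := hcard ▸ Nat.card_le_card_of_injective ev hev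
  have hsel : selCard (galData p r Ap Ar) B0 ∣ Nat.card S := by
    rw [selCard, AddSubgroup.relIndex]
    exact AddSubgroup.index_dvd_card _
  exact ⟨fun h0 => Nat.card_pos.ne' (Nat.eq_zero_of_zero_dvd (h0 ▸ hsel)),
    (Nat.le_of_dvd Nat.card_pos hsel).trans hcardS⟩

/-- The descent bound for lines. -/
theorem descentBound_line
    (hact : (∀ (g : GQ) (b : B), g • b = b) ∨ ∀ (g : GQ) (b : B), g • b = (cyc r g : ZMod r).val • b) :
    DescentBound (galData p r Ap Ar) B0 := by
  classical
  have hr : r.Prime := Fact.out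
  haveI : NeZero r := ⟨hr.ne_zero⟩
  have hbound : selmer (galData p r Ap Ar) B0 ≤ (dB (G := GQ) B).range →
      B0.index ≤ Nat.card (fixedBy (G := GQ) B (⊤ : Subgroup GQ)) →
      DescentBound (galData p r Ap Ar) B0 := by
    intro hle hidx
    have h1 : selCard (galData p r Ap Ar) B0 = 1 := by
      rw [selCard, AddSubgroup.relIndex_eq_one]
      exact hle
    refine ⟨by omega, ?_⟩
    rw [h1, one_mul]
    exact Nat.mul_le_mul hidx (Nat.le_of_dvd Nat.card_pos (AddSubgroup.card_addSubgroup_dvd_card _))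
  obtain ⟨σ, hσ, hσinv⟩ := exists_inertia_inv hAr hr 1
  rw [pow_one] at hσinv
  obtain ⟨ψ, hψinj, hψr, -⟩ := exists_emb hcard
  have hneg : ∀ g : GQ, (∀ ζ : QBar, ζ ^ r = 1 → g ζ = ζ⁻¹) → ∀ x : B,
      (cyc r g : ZMod r).val • x + x = 0 := fun g hg x => hψinj (uval_injective (by
    rw [map_add, uval_add, map_nsmul, uval_nsmul, ← cyc_spec g (hψr x), hg _ (hψr x),
      inv_mul_cancel₀ (uval_ne_zero _), map_zero, uval_zero]))
  have hfixtop : (∀ (g : GQ) (b : B), g • b = b) →
      Nat.card (fixedBy (G := GQ) B (⊤ : Subgroup GQ)) = r := fun htriv => by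
    have : fixedBy (G := GQ) B (⊤ : Subgroup GQ) = ⊤ :=
      (AddSubgroup.eq_top_iff' _).mpr fun b => (mem_fixedBy B).mpr fun g _ => htriv g b
    rw [this, card_top', hcard]
  rcases hact with htriv | hchi
  · rcases eq_bot_or_eq_top_of_card B0 hcard with h0 | h0
    · refine hbound (fun c hc => ?_) (by rw [h0, AddSubgroup.index_bot, hcard, hfixtop htriv])
      obtain ⟨-, -, -, hB, -⟩ := id hc
      have hzero := eq_zero_of_trivial hp hrp hAp hAr hcard hgood htriv hc fun g hg => by
        have := hB ⟨g, hg⟩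
        rw [h0, AddSubgroup.mem_bot] at this
        exact this
      rw [hzero]
      exact zero_mem _
    by_cases h2 : r = 2
    · have hchi : ∀ (g : GQ) (b : B), g • b = (cyc r g : ZMod r).val • b := fun g b => by
        have hu : (cyc r g : ZMod r) = 1 := by
          subst h2
          exact zmod_two_eq_one _ (Units.ne_zero _)
        rw [hu, ZMod.val_one, one_smul, htriv]
      obtain ⟨hne, hle⟩ := selmer_two_bound hp hrp hAp hAr hcard hgood h2 hchi h0
      refine ⟨hne, ?_⟩
      rw [h0] at hle ⊢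
      rw [AddSubgroup.index_top, mul_one, hfixtop htriv]
      exact Nat.mul_le_mul hle (Nat.le_of_dvd Nat.card_pos (AddSubgroup.card_addSubgroup_dvd_card _))
    · refine hbound (fun c hc => ?_) (by rw [h0, AddSubgroup.index_top, hfixtop htriv]; exact hr.pos)
      obtain ⟨hcoc, -, -, hB, hunit⟩ := id hc
      have hzero := eq_zero_of_trivial hp hrp hAp hAr hcard hgood htriv hc fun τ hτ => by
        obtain ⟨u, -, hu⟩ := hunit (ψ.comp B0.subtype)
        have e : ∀ g ∈ Ar.inertiaSubgroupIn ℚ, ψ (c g) = g • u - u := fun g hg => hu ⟨g, hg⟩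
        have h1 : σ • ψ (c τ) = ψ (c τ) := by
          rw [e τ hτ, smul_sub, ← mul_smul]
          have h2' := e (σ * τ) (mul_mem hσ hτ)
          rw [hcoc.1, htriv, map_add, e σ hσ, e τ hτ] at h2'
          linear_combination (norm := abel) -h2'
        have h3 : uval (ψ (c τ)) ^ 2 = 1 := by
          have h4 := congrArg uval h1
          rw [uval_smul, hσinv _ (hψr _)] at h4
          have hne := uval_ne_zero (ψ (c τ))
          field_simp at h4
          linear_combination -h4
        refine hψinj (uval_injective ?_)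
        rw [map_zero, uval_zero]
        have h5 := hψr (c τ)
        obtain ⟨k, hk⟩ := hr.odd_of_ne_two h2
        rw [hk, pow_add, pow_mul, h3, one_pow, one_mul, pow_one] at h5
        exact h5
      rw [hzero]
      exact zero_mem _
  · by_cases h2 : r = 2
    · have htriv : ∀ (g : GQ) (b : B), g • b = b := fun g b => by
        rw [hchi]
        have hu : (cyc r g : ZMod r) = 1 := by
          subst h2
          exact zmod_two_eq_one _ (Units.ne_zero _)
        rw [hu, ZMod.val_one, one_smul]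
      rcases eq_bot_or_eq_top_of_card B0 hcard with h0 | h0
      · refine hbound (fun c hc => ?_) (by rw [h0, AddSubgroup.index_bot, hcard, hfixtop htriv])
        obtain ⟨-, -, -, hB, -⟩ := id hc
        have hzero := eq_zero_of_trivial hp hrp hAp hAr hcard hgood htriv hc fun g hg => by
          have := hB ⟨g, hg⟩
          rw [h0, AddSubgroup.mem_bot] at this
          exact this
        rw [hzero]
        exact zero_mem _
      · obtain ⟨hne, hle⟩ := selmer_two_bound hp hrp hAp hAr hcard hgood h2 hchi h0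
        refine ⟨hne, ?_⟩
        rw [h0] at hle ⊢
        rw [AddSubgroup.index_top, mul_one, hfixtop htriv]
        exact Nat.mul_le_mul hle (Nat.le_of_dvd Nat.card_pos (AddSubgroup.card_addSubgroup_dvd_card _))
    · have h0 : B0 = ⊤ := by
        rcases eq_bot_or_eq_top_of_card B0 hcard with h0 | h0
        · exfalso
          haveI : Nontrivial B := Finite.one_lt_card_iff_nontrivial.mp (hcard ▸ hr.one_lt)
          obtain ⟨b, hb⟩ := exists_ne (0 : B)
          have h1 := hgood.quot ⟨σ, hσ⟩ b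
          rw [h0, AddSubgroup.mem_bot] at h1
          have h3 : 2 • b = 0 := by
            have h1' : σ • b - b = 0 := h1
            rw [hchi] at h1'
            rw [two_nsmul]
            linear_combination (norm := abel) hneg σ hσinv b - h1'
          have h4 := addOrderOf_dvd_of_nsmul_eq_zero h3
          rw [addOrderOf_eq_prime (nsmul_eq_zero_of_card hcard b) hb] at h4
          exact h2 ((Nat.prime_dvd_prime_iff_eq hr Nat.prime_two).mp h4)
        · exact h0
      exact hbound (selmer_le_of_mu hp hrp hAp hAr hcard hgood h2 hchi h0)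
        (by rw [h0, AddSubgroup.index_top]; exact Nat.card_pos)

end Line

end Fermat.Agent.Mazur.Eisenstein
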