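import Fermat.Agent.FiniteFlat.GalOrder
import Fermat.Agent.Mazur.Eisenstein.Devissage
import Fermat.Agent.Mazur.Eisenstein.Unram
import Mathlib.GroupTheory.FiniteAbelian.Duality

/-!
# Points of a Galois order congruent to zero

`inertia_smul_of_congruent`: inertia at `r` acts through the cyclotomic character on points of a
Galois order congruent to zero, on an admissible module.
-/

set_option autoImplicit false
set_option linter.style.haveILetI false
set_option linter.unusedSectionVars false

noncomputable section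

namespace Fermat.Agent.Mazur.Eisenstein

open Fermat.Agent.Arith Fermat.Agent.FiniteFlat
open scoped Pointwise

universe u

/-- A non-trivial admissible module has a stable subgroup of index `r`. -/
theorem exists_stable_index {G : Type*} [Group G] {r : ℕ} [Fact r.Prime] (χ : G →* (ZMod r)ˣ) :
    ∀ (B : Type u) [AddCommGroup B] [DistribMulAction G B] [Finite B] [Nontrivial B],
      IsAdmissible B r χ → ∃ N : AddSubgroup B, N.index = r ∧ ∀ (g : G), ∀ b ∈ N, g • b ∈ N := by
  suffices H : ∀ (n : ℕ) (B : Type u) [AddCommGroup B] [DistribMulAction G B] [Finite B]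
      [Nontrivial B], Nat.card B = n → IsAdmissible B r χ →
      ∃ N : AddSubgroup B, N.index = r ∧ ∀ (g : G), ∀ b ∈ N, g • b ∈ N from
    fun B _ _ _ _ => H _ B rfl
  intro n
  induction n using Nat.strong_induction_on with
  | _ n ih =>
    intro B _ _ _ _ hn hadm
    obtain ⟨L, hL, hstab, -⟩ := exists_stable_line χ B hadm
    letI := quotAction L hstab
    rcases subsingleton_or_nontrivial (B ⧸ L) with hsub | hnt
    · refine ⟨⊥, ?_, fun g b hb => ?_⟩
      · rw [AddSubgroup.index_bot]
        have h := L.card_eq_card_quotient_mul_card_addSubgroup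
        rw [Nat.card_of_subsingleton (0 : B ⧸ L), one_mul, hL] at h
        exact h
      · rw [AddSubgroup.mem_bot] at hb ⊢
        rw [hb, smul_zero]
    · have hlt : Nat.card (B ⧸ L) < n := by
        have h := L.card_eq_card_quotient_mul_card_addSubgroup
        rw [hL, hn] at h
        have := (Fact.out : r.Prime).two_le
        have hq : 0 < Nat.card (B ⧸ L) := Nat.card_pos
        nlinarith
      obtain ⟨N, hN, hNs⟩ := ih _ hlt (B ⧸ L) rfl
        (hadm.of_surjective (QuotientAddGroup.mk' L) (QuotientAddGroup.mk'_surjective L)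
          fun g b => rfl)
      refine ⟨N.comap (QuotientAddGroup.mk' L), ?_, fun g b hb => hNs g _ hb⟩
      rw [AddSubgroup.index_comap_of_surjective _ (QuotientAddGroup.mk'_surjective L), hN]

variable {M : Type} [AddCommGroup M] [DistribMulAction GQ M] [Finite M]
variable {A : ValuationSubring QBar} {r : ℕ} (hA : A.LiesOverPrime r) (hr : r.Prime)
variable (O : GalOrder r M)

theorem zl_mem (hA : A.LiesOverPrime r) (hr : r.Prime) (c : Zl r) : ((c : ℚ) : QBar) ∈ A := by
  obtain ⟨d, hd, n, hn⟩ := exists_natCast_mul_eq r c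
  have hdn : ¬ r ∣ d := by
    intro hdvd
    obtain ⟨v, hv⟩ := hd.exists_left_inv
    have h1 := congrArg (fun t : Zl r => ((t : ℚ) : QBar)) hv
    obtain ⟨e, he, k, hk⟩ := exists_natCast_mul_eq r v
    have h2 : ((v : ℚ) : QBar) * (e : QBar) = (k : QBar) := by
      simpa using congrArg (fun t : Zl r => ((t : ℚ) : QBar)) hk
    have h3 : (k : QBar) * (d : QBar) = (e : QBar) := by
      have h1' : ((v : ℚ) : QBar) * (d : QBar) = 1 := by simpa using h1
      rw [← h2, mul_right_comm, h1', one_mul]
    have h4 : ((r : ℤ)) ∣ e := by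
      have : k * d = (e : ℤ) := by exact_mod_cast h3
      exact this ▸ Dvd.dvd.mul_left (Int.natCast_dvd_natCast.mpr hdvd) k
    obtain ⟨w, hw⟩ := he.exists_left_inv
    have h5 : (w : ℚ) * (e : ℚ) = 1 := by simpa using congrArg (fun t : Zl r => (t : ℚ)) hw
    have hwden : (w : ℚ).den.Coprime r := w.2
    have h6 : ((w : ℚ).num : ℚ) * e = (w : ℚ).den := by
      rw [← Rat.mul_den_eq_num, mul_right_comm, h5, one_mul]
    have h7 : (w : ℚ).num * e = ((w : ℚ).den : ℤ) := by exact_mod_cast h6
    have h8 : (r : ℤ) ∣ ((w : ℚ).den : ℤ) := h7 ▸ Dvd.dvd.mul_left h4 _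
    exact hr.ne_one (Nat.Coprime.eq_one_of_dvd hwden.symm (Int.natCast_dvd_natCast.mp h8))
  have hd0 : (d : QBar) ≠ 0 := by
    intro h
    exact hdn (by rw [show d = 0 by exact_mod_cast h]; exact dvd_zero r)
  have h : ((c : ℚ) : QBar) * (d : QBar) = (n : QBar) := by
    simpa using congrArg (fun t : Zl r => ((t : ℚ) : QBar)) hn
  rw [eq_div_iff hd0 |>.mpr h, div_eq_mul_inv]
  refine mul_mem (intCast_mem A n) ?_
  obtain ⟨-, hinv⟩ := (notMem_nonunits_iff (natCast_mem A d)).mp
    fun hmem => hdn ((natCast_mem_nonunits_iff hA hr d).mp hmem)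
  exact hinv

theorem mem_of_isIntegral_zl (hA : A.LiesOverPrime r) (hr : r.Prime) {x : QBar}
    (hx : IsIntegral (Zl r) x) : x ∈ A := by
  let φ : Zl r →+* A :=
    { toFun := fun c => ⟨((c : ℚ) : QBar), zl_mem hA hr c⟩
      map_one' := Subtype.ext (by simp)
      map_mul' := fun a b => Subtype.ext (by simp)
      map_zero' := Subtype.ext (by simp)
      map_add' := fun a b => Subtype.ext (by simp) }
  have h : (algebraMap A QBar).comp φ = algebraMap (Zl r) QBar := by
    refine RingHom.ext fun c => ?_
    rw [IsScalarTower.algebraMap_apply (Zl r) ℚ QBar, eq_ratCast]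
    rfl
  have hxA : IsIntegral A x := by
    obtain ⟨p, hp, hpx⟩ := hx
    exact ⟨p.map φ, hp.map _, by rwa [Polynomial.eval₂_map, h]⟩
  obtain ⟨y, hy⟩ := (IsIntegrallyClosed.isIntegral_iff (R := A) (K := QBar)).mp hxA
  exact hy ▸ y.2

include hA hr

theorem apply_mem {f : M → QBar} (hf : f ∈ O.H) (m : M) : f m ∈ A :=
  mem_of_isIntegral_zl hA hr ((Algebra.IsIntegral.isIntegral (R := Zl r) (⟨f, hf⟩ : O.H)).map
    ((Pi.evalAlgHom (Zl r) (fun _ : M => QBar) m).comp O.H.val))

/-- A character is an `A`-combination of elements of the order. -/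
theorem exists_coeff {ψ : M → QBar} (hψ : ∀ x y, ψ (x + y) = ψ x * ψ y) :
    ∃ (ι : Type) (_ : Fintype ι) (h : ι → M → QBar) (c : ι → QBar),
      (∀ i, h i ∈ O.H) ∧ (∀ i, c i ∈ A) ∧ ∀ m, ψ m = ∑ i, c i * h i m := by
  classical
  haveI := Fintype.ofFinite M
  set κ := Module.Free.ChooseBasisIndex (Zl r) O.H
  set h : κ → M → QBar := fun i => ((O.basis i : O.H) : M → QBar) with hh
  have hli : LinearIndependent QBar h := O.linearIndependent_basis
  have hspan : ∀ f : M → QBar, ∃ c : κ → QBar, ∀ m, f m = ∑ i, c i * h i m := by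
    intro f
    have hcard : Fintype.card κ = Module.finrank QBar (M → QBar) := by
      rw [Module.finrank_pi, ← Nat.card_eq_fintype_card, ← Nat.card_eq_fintype_card, O.card_basis]
    have htop : f ∈ Submodule.span QBar (Set.range h) := by
      rw [hli.span_eq_top_of_card_eq_finrank' hcard]
      exact Submodule.mem_top
    obtain ⟨c, hc⟩ := (Submodule.mem_span_range_iff_exists_fun QBar).mp htop
    exact ⟨c, fun m => by rw [← hc]; simp [Finset.sum_apply]⟩
  have hexp : ∀ f : M → QBar, f ∈ O.H → ∃ c : κ → Zl r,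
      ∀ m, f m = ∑ i, ((c i : ℚ) : QBar) * h i m := fun f hf => by
    refine ⟨O.basis.repr ⟨f, hf⟩, fun m => ?_⟩
    have := congrArg (fun g : O.H => (g : M → QBar) m) (O.basis.sum_repr ⟨f, hf⟩)
    simp only [AddSubmonoidClass.coe_finsetSum, Finset.sum_apply, SetLike.val_smul, Pi.smul_apply,
      zl_smul] at this
    exact this.symm
  -- structure constants of the comultiplication
  have hcom : ∀ k, ∃ C : κ → κ → Zl r,
      ∀ x y, h k (x + y) = ∑ i, ∑ j, ((C i j : ℚ) : QBar) * (h i x * h j y) := by
    intro k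
    obtain ⟨n, a, b, ha, hb, hab⟩ := O.comul _ (O.basis k).2
    choose ca hca using fun t => hexp (a t) (ha t)
    choose cb hcb using fun t => hexp (b t) (hb t)
    refine ⟨fun i j => ∑ t, ca t i * cb t j, fun x y => ?_⟩
    show ((O.basis k : O.H) : M → QBar) (x + y) = _
    rw [hab x y]
    simp only [hca, hcb, AddSubmonoidClass.coe_finsetSum, Rat.cast_sum, Finset.sum_mul,
      MulMemClass.coe_mul, Rat.cast_mul]
    rw [Finset.sum_comm]
    refine Finset.sum_congr rfl fun i _ => ?_
    rw [eq_comm, Finset.sum_comm]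
    refine Finset.sum_congr rfl fun t _ => ?_
    rw [Finset.mul_sum]
    exact Finset.sum_congr rfl fun j _ => by ring
  choose C hC using hcom
  obtain ⟨lam, hlam⟩ := hspan ψ
  have hmul : ∀ i j, lam i * lam j = ∑ k, lam k * ((C k i j : ℚ) : QBar) := by
    have key : ∀ x y, ∑ i, (∑ j, (lam i * lam j - ∑ k, lam k * ((C k i j : ℚ) : QBar)) * h j y)
        * h i x = 0 := by
      intro x y
      have h1 : ∑ i, ∑ j, lam i * lam j * (h i x * h j y) =
          ∑ i, ∑ j, (∑ k, lam k * ((C k i j : ℚ) : QBar)) * (h i x * h j y) := by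
        calc _ = ψ x * ψ y := by
              rw [hlam x, hlam y, Finset.sum_mul_sum]
              exact Finset.sum_congr rfl fun i _ => Finset.sum_congr rfl fun j _ => by ring
          _ = ∑ k, lam k * h k (x + y) := by rw [← hψ, hlam]
          _ = _ := by
              simp only [hC, Finset.mul_sum, Finset.sum_mul]
              rw [Finset.sum_comm]
              refine Finset.sum_congr rfl fun i _ => ?_
              rw [Finset.sum_comm]
              exact Finset.sum_congr rfl fun j _ => Finset.sum_congr rfl fun k _ => by ring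
      simp only [Finset.sum_mul, sub_mul, Finset.sum_sub_distrib] at h1 ⊢
      rw [sub_eq_zero]
      simpa only [mul_assoc, mul_comm (h _ y)] using h1
    intro i j
    have hy : ∀ y, ∑ j, (lam i * lam j - ∑ k, lam k * ((C k i j : ℚ) : QBar)) * h j y = 0 :=
      fun y => Fintype.linearIndependent_iff.mp hli _ (funext fun x => by
        simpa [Finset.sum_apply] using key x y) i
    exact sub_eq_zero.mp (Fintype.linearIndependent_iff.mp hli _
      (funext fun y => by simpa [Finset.sum_apply] using hy y) j)
  -- the coefficients are integral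
  set S : Submodule (Zl r) QBar := Submodule.span (Zl r) (Set.range lam ∪ {1}) with hS
  have hSfg : S.FG := Submodule.fg_span ((Set.finite_range lam).union (Set.finite_singleton 1))
  have hint : ∀ i, IsIntegral (Zl r) (lam i) := by
    intro i
    refine IsIntegral.of_mem_of_fg
      { carrier := S
        one_mem' := Submodule.subset_span (Set.mem_union_right (Set.range lam) (Set.mem_singleton (1 : QBar)))
        zero_mem' := S.zero_mem
        add_mem' := fun ha hb => S.add_mem ha hb
        algebraMap_mem' := fun c => by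
          rw [Algebra.algebraMap_eq_smul_one]
          exact S.smul_mem c (Submodule.subset_span (Set.mem_union_right (Set.range lam) (Set.mem_singleton (1 : QBar))))
        mul_mem' := fun {a b} ha hb => ?_ } hSfg _ (Submodule.subset_span (Set.mem_union_left ({1} : Set QBar) (Set.mem_range_self i)))
    have hmm : Submodule.span (Zl r) (Set.range lam ∪ {1}) *
        Submodule.span (Zl r) (Set.range lam ∪ {1}) ≤ S := by
      rw [Submodule.span_mul_span, Submodule.span_le]
      rintro _ ⟨a, ha', b, hb', rfl⟩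
      rcases ha' with ⟨i', rfl⟩ | rfl
      · rcases hb' with ⟨j', rfl⟩ | rfl
        · show lam i' * lam j' ∈ S
          rw [hmul]
          refine S.sum_mem fun k _ => ?_
          rw [mul_comm, ← zl_smul]
          exact S.smul_mem _ (Submodule.subset_span (Set.mem_union_left ({1} : Set QBar) (Set.mem_range_self k)))
        · show lam i' * 1 ∈ S
          rw [mul_one]
          exact Submodule.subset_span (Set.mem_union_left ({1} : Set QBar) (Set.mem_range_self i'))
      · show 1 * b ∈ S
        rw [one_mul]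
        exact Submodule.subset_span hb'
    exact hmm (Submodule.mul_mem_mul ha hb)
  exact ⟨κ, inferInstance, h, lam, fun i => (O.basis i).2,
    fun i => mem_of_isIntegral_zl hA hr (hint i), hlam⟩

local notation "Ir" => ValuationSubring.inertiaSubgroupIn ℚ A

/-- An element fixed by inertia which is integral up to a factor close to `r` is integral. -/
theorem mem_of_fixed_of_mul_mem_nonunits {x : QBar} (hfix : ∀ σ ∈ Ir, σ x = x)
    (h : (r : QBar) * x ∈ A.nonunits) : x ∈ A := by
  rcases eq_or_ne x 0 with rfl | hx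
  · exact zero_mem A
  obtain ⟨k, hk⟩ := exists_int_ordAt hA hr hx hfix
  have hr0 : (r : QBar) ≠ 0 := by exact_mod_cast hr.ne_zero
  have h2 := ordAt_nonneg_of_mem hA hr (mul_ne_zero hr0 hx) (mem_of_mem_nonunits h)
  have h3 : ordAt A r ((r : QBar) * x) ≠ 0 := by
    rw [Ne, ordAt_eq_zero_iff hA hr (mul_ne_zero hr0 hx)]
    exact fun hu => (ne_of_lt ((ValuationSubring.mem_nonunits_iff A).mp h)) hu
  rw [ordAt_mul hA hr hr0 hx, ordAt_prime hA hr, hk] at h2 h3
  have hk0 : 0 ≤ k := by
    have h4 : 0 ≤ 1 + k := by exact_mod_cast h2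
    have h5 : 1 + k ≠ 0 := fun he => h3 (by exact_mod_cast he)
    omega
  rcases eq_or_lt_of_le hk0 with h0 | h0
  · exact ((isUnitAt_iff hx).mp ((ordAt_eq_zero_iff hA hr hx).mp (by rw [hk, ← h0]; simp))).1
  · rw [← A.valuation_le_one_iff]
    by_contra hgt
    rw [not_le] at hgt
    have hmem : x⁻¹ ∈ A := by
      rw [← A.valuation_le_one_iff, map_inv₀]
      exact inv_le_one_of_one_le₀ hgt.le
    have h6 := ordAt_nonneg_of_mem hA hr (inv_ne_zero hx) hmem
    rw [ordAt_inv hA hr hx, hk] at h6
    have : k ≤ 0 := by exact_mod_cast (neg_nonneg.mp h6)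
    omega

/-- The average of a function of the order over a congruent stable subgroup is integral. -/
theorem avg_mem [Fact r.Prime] (χ : Ir →* (ZMod r)ˣ) (S₀ : AddSubgroup M)
    (hstab : ∀ g : Ir, ∀ x ∈ S₀, g • x ∈ S₀)
    (hadm : letI := subAction S₀ hstab; IsAdmissible S₀ r χ)
    (hcong : ∀ f ∈ O.H, ∀ x ∈ S₀, f x - f 0 ∈ A.nonunits) :
    ∀ (S : AddSubgroup M) [Fintype S], S ≤ S₀ → (∀ g : Ir, ∀ x ∈ S, g • x ∈ S) →
      ∀ f ∈ O.H, (∑ x : S, f x) / (Nat.card S : QBar) ∈ A := by
  classical
  haveI := Fintype.ofFinite M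
  suffices H : ∀ (n : ℕ) (S : AddSubgroup M) [Fintype S], Nat.card S = n → S ≤ S₀ →
      (∀ g : Ir, ∀ x ∈ S, g • x ∈ S) → ∀ f ∈ O.H,
      (∑ x : S, f x) / (Nat.card S : QBar) ∈ A from fun S _ => H _ S rfl
  intro n
  induction n using Nat.strong_induction_on with
  | _ n ih =>
    intro S _ hn hle hS f hf
    rcases subsingleton_or_nontrivial S with hsub | hnt
    · rw [Nat.card_of_subsingleton (0 : S), Nat.cast_one, div_one, Fintype.sum_subsingleton _ (0 : S)]
      exact apply_mem hA hr O hf _
    letI := subAction S₀ hstab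
    letI := subAction S hS
    obtain ⟨N, hN, hNs⟩ := exists_stable_index χ S
      (hadm.of_injective (AddSubgroup.inclusion hle) (AddSubgroup.inclusion_injective hle)
        fun g a => rfl)
    let e : N ≃+ N.map S.subtype := N.equivMapOfInjective S.subtype Subtype.val_injective
    set S' := N.map S.subtype with hS'
    have hS'le : S' ≤ S := by rintro _ ⟨x, -, rfl⟩; exact x.2
    have hS's : ∀ g : Ir, ∀ x ∈ S', g • x ∈ S' := by
      rintro g _ ⟨x, hx, rfl⟩
      exact ⟨g • x, hNs g x hx, rfl⟩
    have hcard : Nat.card S = r * Nat.card S' := by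
      rw [← N.index_mul_card, hN, Nat.card_congr e.toEquiv]
    have hlt : Nat.card S' < n := by
      rw [← hn, hcard]
      exact lt_mul_of_one_lt_left Nat.card_pos hr.one_lt
    haveI := Fintype.ofFinite S'
    have hih := fun f' hf' => ih _ hlt S' rfl (hS'le.trans hle) hS's f' hf'
    obtain ⟨k, a, b, ha, hb, hab⟩ := O.comul f hf
    set c : Fin k → QBar := fun i => (∑ y : S', b i y) / (Nat.card S' : QBar) with hc
    set g : M → QBar := fun x => (∑ y : S', f (x + y)) / (Nat.card S' : QBar) with hg
    have hg' : ∀ x, g x = ∑ i, a i x * c i := fun x => by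
      simp only [hg, hab, hc, mul_div_assoc', Finset.mul_sum, ← Finset.sum_div]
      rw [Finset.sum_comm]
    have hS'0 : (Nat.card S' : QBar) ≠ 0 := Nat.cast_ne_zero.mpr Nat.card_pos.ne'
    have hrep : ∀ x : S, ∀ y : N, g ((x : M) + ((y : S) : M)) = g x := by
      intro x y
      simp only [hg]
      congr 1
      refine Fintype.sum_equiv (Equiv.addLeft (⟨((y : S) : M), y, y.2, rfl⟩ : S')) _ _ fun z => ?_
      simp [add_assoc]
    have hsum : ∑ x : S, g x = ∑ x : S, f x := by
      simp only [hg, ← Finset.sum_div]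
      rw [Finset.sum_comm, eq_comm, eq_div_iff hS'0, Nat.card_eq_fintype_card, mul_comm,
        ← nsmul_eq_mul, ← Finset.card_univ, ← Finset.sum_const]
      refine Finset.sum_congr rfl fun z _ => ?_
      refine Fintype.sum_equiv (Equiv.addRight (⟨-(z : M), neg_mem (hS'le z.2)⟩ : S)) _ _ fun x => ?_
      simp
    have hgcong : ∀ x : S, g x - g 0 ∈ A.nonunits := fun x => by
      rw [hg', hg', ← Finset.sum_sub_distrib]
      refine sum_mem fun i _ => ?_
      rw [← sub_mul]
      exact nonunits_mul_right (hcong _ (ha i) x (hle x.2)) (hih _ (hb i))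
    have hg0 : g 0 ∈ A := by
      rw [hg']
      exact sum_mem fun i _ => mul_mem (apply_mem hA hr O (ha i) _) (hih _ (hb i))
    -- the sum over cosets
    let gbar : S ⧸ N → QBar := Quotient.lift (fun x : S => g x) (fun x y hxy => by
      have h1 : -x + y ∈ N := QuotientAddGroup.leftRel_apply.mp hxy
      have h2 := hrep x ⟨_, h1⟩
      show g x = g y
      rw [← h2]
      congr 1
      simp)
    haveI := Fintype.ofFinite N
    haveI := Fintype.ofFinite (S ⧸ N)
    have hfib : ∑ x : S, (g x - g 0) = (Nat.card N : QBar) * ∑ q : S ⧸ N, (gbar q - g 0) := by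
      rw [← (AddSubgroup.addGroupEquivQuotientProdAddSubgroup (s := N)).symm.sum_comp
        (fun x : S => g x - g 0), Fintype.sum_prod_type, Finset.mul_sum]
      refine Finset.sum_congr rfl fun q _ => ?_
      rw [Nat.card_eq_fintype_card, ← Finset.card_univ, ← nsmul_eq_mul, ← Finset.sum_const]
      refine Finset.sum_congr rfl fun y _ => ?_
      set x := (AddSubgroup.addGroupEquivQuotientProdAddSubgroup (s := N)).symm (q, y) with hx
      have hq : (QuotientAddGroup.mk x : S ⧸ N) = q :=
        congrArg Prod.fst ((AddSubgroup.addGroupEquivQuotientProdAddSubgroup (s := N)).apply_symm_apply (q, y))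
      rw [← hq]
      rfl
    set s := ∑ q : S ⧸ N, (gbar q - g 0) with hs
    have hr0 : (r : QBar) ≠ 0 := Nat.cast_ne_zero.mpr hr.ne_zero
    have hval : (∑ x : S, f x) / (Nat.card S : QBar) = g 0 + s / r := by
      have h1 : ∑ x : S, g x = (Nat.card S : QBar) * g 0 + (Nat.card N : QBar) * s := by
        rw [← hfib, Finset.sum_sub_distrib, Finset.sum_const, Finset.card_univ,
          ← Nat.card_eq_fintype_card, nsmul_eq_mul]
        ring
      have h2 : (Nat.card N : QBar) = Nat.card S' := by rw [Nat.card_congr e.toEquiv]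
      rw [← hsum, h1, h2, hcard]
      push_cast
      field_simp
    rw [hval]
    refine add_mem hg0 (mem_of_fixed_of_mul_mem_nonunits hA hr ?_ ?_)
    · intro σ hσ
      have h1 : σ ((∑ x : S, f x) / (Nat.card S : QBar)) = (∑ x : S, f x) / (Nat.card S : QBar) := by
        rw [map_div₀, map_natCast, map_sum]
        congr 1
        refine Fintype.sum_equiv (MulAction.toPerm (⟨σ, hσ⟩ : Ir)) _ _ fun x => ?_
        exact (O.equivariant f hf σ x).symm
      have h2 : σ (g 0) = g 0 := by
        simp only [hg, zero_add]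
        rw [map_div₀, map_natCast, map_sum]
        congr 1
        letI := subAction S' hS's
        refine Fintype.sum_equiv (MulAction.toPerm (⟨σ, hσ⟩ : Ir)) _ _ fun x => ?_
        exact (O.equivariant f hf σ x).symm
      rw [hval, map_add, h2] at h1
      exact add_left_cancel h1
    · rw [mul_div_cancel₀ _ hr0, hs]
      refine sum_mem fun q _ => ?_
      induction q using QuotientAddGroup.induction_on with
      | _ x => exact hgcong x

/-- Inertia acts through the cyclotomic character on points congruent to zero. -/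
theorem inertia_smul_of_congruent [Fact r.Prime] (χ : Ir →* (ZMod r)ˣ) (S₀ : AddSubgroup M)
    (hstab : ∀ g : Ir, ∀ x ∈ S₀, g • x ∈ S₀)
    (hadm : letI := subAction S₀ hstab; IsAdmissible S₀ r χ)
    (hcong : ∀ f ∈ O.H, ∀ x ∈ S₀, f x - f 0 ∈ A.nonunits)
    {σ : GQ} (hσ : σ ∈ Ir) {c : ℕ}
    (hc : ∀ ζ : QBar, ζ ^ Monoid.exponent (Multiplicative M) = 1 → σ ζ = ζ ^ c)
    {x : M} (hx : x ∈ S₀) : σ • x = c • x := by
  classical
  haveI := Fintype.ofFinite S₀
  haveI : NeZero (Monoid.exponent (Multiplicative M)) :=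
    ⟨Monoid.exponent_ne_zero_of_finite⟩
  -- every character is fixed by the twisted action
  have key : ∀ φ : Multiplicative M →* QBarˣ, (φ (Multiplicative.ofAdd (σ • x)) : QBar)
      = σ (φ (Multiplicative.ofAdd x)) := by
    intro φ
    set ψ : M → QBar := fun m => (φ (Multiplicative.ofAdd m) : QBar) with hψ
    have hψmul : ∀ a b, ψ (a + b) = ψ a * ψ b := fun a b => by
      simp [hψ, ofAdd_add, map_mul]
    have hψ0 : ∀ a, ψ a ≠ 0 := fun a => Units.ne_zero _
    set θ : M → QBar := fun m => σ (ψ (σ⁻¹ • m)) with hθ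
    have hθmul : ∀ a b, θ (a + b) = θ a * θ b := fun a b => by
      simp [hθ, smul_add, hψmul, map_mul]
    -- both characters have integral pairing
    obtain ⟨ι, _, h, lam, hh, hlam, hψexp⟩ := exists_coeff hA hr O hψmul
    let avg : (M → QBar) → QBar := fun F => (∑ y : S₀, F y) / (Nat.card S₀ : QBar)
    let pair : (M → QBar) → (M → QBar) → QBar := fun τ F => avg fun m => τ (-m) * F m
    have hint : ∀ τ : M → QBar, (∀ a b, τ (a + b) = τ a * τ b) → ∀ F ∈ O.H, pair τ F ∈ A := by
      intro τ hτ F hF
      obtain ⟨κ, _, h', c', hh', hc', hexp⟩ := exists_coeff hA hr O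
        (ψ := fun m => τ (-m)) (fun a b => by rw [neg_add, hτ])
      have : pair τ F = ∑ i, c' i * avg (h' i * F) := by
        simp only [pair, avg, hexp, Pi.mul_apply, Finset.sum_mul, mul_assoc, mul_div_assoc',
          Finset.mul_sum, ← Finset.sum_div]
        rw [Finset.sum_comm]
      rw [this]
      exact sum_mem fun i _ => mul_mem (hc' i)
        (avg_mem hA hr O χ S₀ hstab hadm hcong S₀ le_rfl hstab _ (mul_mem (hh' i) hF))
    have hconj : ∀ F ∈ O.H, σ (pair ψ F) = pair θ F := by
      intro F hF
      simp only [pair, avg, map_div₀, map_natCast, map_sum, map_mul]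
      congr 1
      letI := subAction S₀ hstab
      refine Fintype.sum_equiv (MulAction.toPerm (⟨σ, hσ⟩ : Ir)) _ _ fun y => ?_
      show σ (ψ (-(y : M))) * σ (F y) = θ (-(σ • (y : M))) * F (σ • (y : M))
      rw [O.equivariant F hF σ, hθ]
      simp only [smul_neg, inv_smul_smul]
    have hdiff : pair ψ ψ - pair θ ψ ∈ A.nonunits := by
      have e : ∀ τ, pair τ ψ = ∑ i, lam i * pair τ (h i) := by
        intro τ
        simp only [pair, avg, hψexp, Finset.mul_sum, mul_div_assoc', ← Finset.sum_div]
        rw [Finset.sum_comm]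
        congr 1
        exact Finset.sum_congr rfl fun i _ => Finset.sum_congr rfl fun y _ => by ring
      rw [e, e, ← Finset.sum_sub_distrib]
      refine sum_mem fun i _ => ?_
      rw [← mul_sub, ← hconj _ (hh i)]
      refine nonunits_mul_left (hlam i) ?_
      rw [← neg_sub]
      exact nonunits_neg (isUnitAt_congr_sub hσ (hint ψ hψmul _ (hh i)))
    have hψneg : ∀ a, ψ (-a) * ψ a = 1 := fun a => by
      rw [← hψmul, neg_add_cancel]; simp [hψ]
    have hone : pair ψ ψ = 1 := by
      simp only [pair, avg, hψneg, Finset.sum_const, Finset.card_univ, nsmul_eq_mul, mul_one,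
        ← Nat.card_eq_fintype_card]
      exact div_self (Nat.cast_ne_zero.mpr Nat.card_pos.ne')
    have hθx : θ (σ • x) = σ (ψ x) := by simp [hθ]
    rw [← hθx]
    show ψ (σ • x) = θ (σ • x)
    by_contra hne
    have hzero : pair θ ψ = 0 := by
      simp only [pair, avg]
      refine div_eq_zero_iff.mpr (Or.inl ?_)
      set T := ∑ y : S₀, θ (-(y : M)) * ψ y with hT
      set z : S₀ := ⟨σ • x, hstab ⟨σ, hσ⟩ x hx⟩
      have hθz : θ (-(σ • x)) * ψ (σ • x) * T = T := by
        rw [hT, Finset.mul_sum]
        refine Fintype.sum_equiv (Equiv.addLeft z) _ _ fun y => ?_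
        show _ = θ (-((σ • x) + (y : M))) * ψ (σ • x + (y : M))
        rw [neg_add, hθmul, hψmul]
        ring
      by_contra hT0
      have h1 : θ (-(σ • x)) * ψ (σ • x) = 1 := mul_right_cancel₀ hT0 (hθz.trans (one_mul T).symm)
      have h2 : θ (-(σ • x)) * θ (σ • x) = 1 := by
        rw [← hθmul, neg_add_cancel]
        simp [hθ, hψ]
      refine hne (mul_left_cancel₀ ?_ (h1.trans h2.symm))
      exact left_ne_zero_of_mul_eq_one h1
    rw [hone, hzero, sub_zero] at hdiff
    exact one_notMem_nonunits hdiff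
  have h2 : ∀ φ : Multiplicative M →* QBarˣ,
      φ (Multiplicative.ofAdd (σ • x)) = φ (Multiplicative.ofAdd (c • x)) := by
    intro φ
    refine Units.ext ?_
    rw [key, hc _ ?_, ofAdd_nsmul, map_pow, Units.val_pow_eq_pow_val]
    rw [← Units.val_pow_eq_pow_val, ← map_pow, Monoid.pow_exponent_eq_one, map_one, Units.val_one]
  exact Multiplicative.ofAdd.injective ((CommGroup.forall_apply_eq_apply_iff (G := Multiplicative M)
    (M := QBar)).mp h2)

end Fermat.Agent.Mazur.Eisenstein
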