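import Fermat.Agent.Mazur.Eisenstein.Assembly
import Fermat.Agent.Mazur.Large.Assembly

/-!
# Consequences of the component lemma: no cofixed line, irreducibility
-/

set_option autoImplicit false
set_option linter.style.haveILetI false

noncomputable section

open ModularCurve

namespace Fermat.Agent.Mazur.Eisenstein

/-- The three inputs give Mazur's three-place lemma. -/
theorem threePlaceLemma
    (hinj : ∀ (p : ℕ) [NeZero p], p.Prime → EichlerShimura.InjectiveOnTorsion p)
    (hdesc : ∀ (p : ℕ) [NeZero p], p.Prime → p ∉ ({2, 3, 5, 7, 13} : Finset ℕ) →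
      DescentProperty p)
    (hfix : ∀ (p : ℕ) [NeZero p], p.Prime → p ∉ ({2, 3, 5, 7, 13} : Finset ℕ) →
      FixedTorsionProperty p) :
    Large.ThreePlaceLemma := by
  intro p hp hp' W hΔ T hT hstable h2Δ h2c h2 h3Δ h3c h3 l hl hlp hlΔ hlc A hA
  haveI := Fact.mk hp
  exact component_eq_in hp' (hinj p hp) (hdesc p hp hp') (hfix p hp hp') W hΔ T hT hstable
    h2Δ h2c h3Δ h3c hl hlp hlΔ hlc h2 h3 A hA

end Fermat.Agent.Mazur.Eisenstein
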