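import Fermat.Agent.Mazur.Eisenstein.Cusps
import Fermat.Agent.Igusa.Degree
import Fermat.Prelude.Def_ModularCurve_ModularUnit

/-!
# The modular unit `Δ(τ)/Δ(pτ)` over `ℚ̄` and its divisor
-/

set_option autoImplicit false

noncomputable section

open AlgebraicCurve ModularCurve Polynomial
open scoped MatrixGroups

namespace Fermat.Agent.Mazur.Eisenstein

open Fermat.Agent.Genus (Fbar jB)

local notation "Qb" => AlgebraicClosure ℚ

/-- The copy of `ℚ̄` in `ℂ`. -/
abbrev qbarRange : Subring ℂ := Genus.toC0.range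

/-- Its identification with `ℚ̄`. -/
def qbarPi : qbarRange →+* Qb :=
  (RingEquiv.ofBijective Genus.toC0.rangeRestrict
    ⟨fun _ _ h => Genus.toC0.injective (congrArg Subtype.val h),
      Genus.toC0.rangeRestrict_surjective⟩).symm.toRingHom

theorem goodRed_qbar (N : ℕ) [NeZero N] : Igusa.GoodRed N qbarRange qbarPi where
  inv_mem := ⟨(N : Qb)⁻¹, by rw [map_inv₀, map_natCast]⟩
  root_mem z hz := by
    classical
    obtain ⟨ξ, hξ⟩ := IsAlgClosed.exists_root (cyclotomic N Qb) (by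
      rw [degree_cyclotomic]
      exact_mod_cast (Nat.totient_pos.mpr (Nat.pos_of_ne_zero (NeZero.ne N))).ne')
    have hξ' : IsPrimitiveRoot ξ N := (isRoot_cyclotomic_iff).mp hξ
    obtain ⟨i, -, hi⟩ := (hξ'.map_of_injective Genus.toC0.injective).eq_pow_of_pow_eq_one hz
    exact ⟨ξ ^ i, by rw [map_pow, hi]⟩
  ne_zero := Nat.cast_ne_zero.mpr (NeZero.ne N)

variable {N : ℕ} [NeZero N]

/-- A function with algebraic expansions at all cusps lies in the `ℚ̄`-model, integrally over
`ℚ̄[j]`. -/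
theorem exists_integral_element (g : Igusa.intHol qbarRange N) {y : LaurentSeries Qb}
    (hy : Igusa.Red qbarPi (ModFun.qExp N (g : ModFun.Hol N)) y) :
    ∃ x : Fbar N, (x : LaurentSeries Qb) = y ∧
      ∀ v : Place Qb (Fbar N), 0 ≤ v.ord (jB N) → x ∈ v.toValuationSubring := by
  classical
  have h := goodRed_qbar N
  let : Fintype (ModFun.Coset N) := Fintype.ofFinite _
  have h0 : Igusa.interpPoly (Igusa.vCusp h) (fun c => Igusa.rCusp qbarPi c g) ∈
      lifts (Igusa.evLine Qb (Igusa.jt Qb N)) :=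
    Igusa.interp_rCusp_mem_lifts g ⟨_, h.mem_one⟩
  have h1 := ((Igusa.orbitData_univ h).interp (fun c => Igusa.rCusp qbarPi c g) h0).1
  rw [Igusa.vCusp_one h, Igusa.rCusp_one g hy] at h1
  have h2 := Igusa.mem_adjoin_jqN_of_qExpand_mem h1
  have hmem : y ∈ modularFunctionFieldBar N := by
    rw [modularFunctionFieldBar, ModFun.laurentBaseChange_eq_fullC,
      ← Igusa.restrictScalars_fullOverLine, IntermediateField.mem_restrictScalars,
      Igusa.fullOverLine_eq_adjoin_jqN h]
    exact h2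
  refine ⟨⟨y, hmem⟩, rfl, fun v hv => ?_⟩
  -- the integral equation
  obtain ⟨P, hPmap, -, hPm⟩ := lifts_and_degree_eq_and_monic
    (Igusa.prod_rCusp_mem_lifts (π := qbarPi) g) (monic_prod_X_sub_C _ Finset.univ)
  have hroot : P.eval₂ (Igusa.evLine Qb (Igusa.jt Qb N)) (qExpand Qb N y) = 0 := by
    rw [← eval_map, hPmap, eval_prod]
    refine Finset.prod_eq_zero (Finset.mem_univ ((1 : SL(2, ℤ)) : ModFun.Coset N)) ?_
    rw [eval_sub, eval_X, eval_C, Igusa.rCusp_one g hy, sub_self]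
  set ψ : Qb[X] →+* Fbar N := (aeval (R := Qb) (jB N)).toRingHom with hψ
  have hcomp : (qExpand Qb N).comp ((modularFunctionFieldBar N).val.toRingHom.comp ψ)
      = Igusa.evLine Qb (Igusa.jt Qb N) := by
    refine Polynomial.ringHom_ext (fun a => ?_) ?_
    · show qExpand Qb N ((aeval (R := Qb) (jB N) (C a) : Fbar N) : LaurentSeries Qb)
        = aeval (R := Qb) (Igusa.jt Qb N) (C a)
      rw [aeval_C, aeval_C]
      show qExpand Qb N (algebraMap Qb (LaurentSeries Qb) a) = _
      rw [algebraMap_laurentSeries_eq_single, qExpand_single, mul_zero]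
    · show qExpand Qb N ((aeval (R := Qb) (jB N) X : Fbar N) : LaurentSeries Qb)
        = aeval (R := Qb) (Igusa.jt Qb N) X
      rw [aeval_X, aeval_X]
      rfl
  have hroot' : P.eval₂ ψ (⟨y, hmem⟩ : Fbar N) = 0 := by
    refine Subtype.ext (qExpand_injective (R := Qb) N ?_)
    show qExpand Qb N ((modularFunctionFieldBar N).val (P.eval₂ ψ ⟨y, hmem⟩)) = qExpand Qb N 0
    rw [map_zero, ← hroot, ← hcomp]
    show ((qExpand Qb N).comp (modularFunctionFieldBar N).val.toRingHom) (P.eval₂ ψ ⟨y, hmem⟩) = _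
    rw [hom_eval₂]
    rfl
  have hψv : ∀ a : Qb[X], ψ a ∈ v.toValuationSubring := by
    intro a
    induction a using Polynomial.induction_on' with
    | add a b ha hb => rw [map_add]; exact add_mem ha hb
    | monomial n c =>
      show aeval (R := Qb) (jB N) (monomial n c) ∈ _
      rw [aeval_monomial]
      exact mul_mem (v.algebraMap_mem' c) (pow_mem ((FF.mem_iff v).mpr (Or.inr hv)) n)
  let ψ' : Qb[X] →+* v.toValuationSubring := ψ.codRestrict v.toValuationSubring hψv
  have hint : IsIntegral v.toValuationSubring (⟨y, hmem⟩ : Fbar N) :=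
    ⟨P.map ψ', hPm.map ψ', by rw [eval₂_map]; exact hroot'⟩
  obtain ⟨z, hz⟩ := IsIntegrallyClosed.isIntegral_iff.mp hint
  exact hz ▸ z.2

theorem qExp_uHol {d : ℕ} [NeZero d] (hd : d ∣ N) :
    ModFun.qExp N (Igusa.uHol hd) = qExpand ℂ d (Igusa.deltaSer ℂ) * Igusa.deltaInvSer ℂ ∧
      ModFun.qExp N (Igusa.uInvHol hd) =
        qExpand ℂ d (Igusa.deltaInvSer ℂ) * Igusa.deltaSer ℂ := by
  have f1 : (Subalgebra.inclusion (ModFun.Hol_le_CuspAlg_one (N := N)) (Igusa.uHol hd) :
      ModFun.CuspAlg 1) = ModFun.compAffine d 0 1 (Igusa.discC 1) * Igusa.discInvC 1 := by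
    apply Subtype.ext
    funext τ
    show Igusa.uFun d τ = ModularForm.discriminant (ModFun.affine d 0 1 τ) *
      (ModularForm.discriminant τ)⁻¹
    rw [Igusa.uFun, ModFun.scaleH, div_eq_mul_inv]
  have f2 : (Subalgebra.inclusion (ModFun.Hol_le_CuspAlg_one (N := N)) (Igusa.uInvHol hd) :
      ModFun.CuspAlg 1) = ModFun.compAffine d 0 1 (Igusa.discInvC 1) * Igusa.discC 1 := by
    apply Subtype.ext
    funext τ
    show (Igusa.uFun d τ)⁻¹ = (ModularForm.discriminant (ModFun.affine d 0 1 τ))⁻¹ *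
      ModularForm.discriminant τ
    rw [Igusa.uFun, ModFun.scaleH, inv_div, div_eq_mul_inv, mul_comm]
  have e1 : ModFun.qExp N (Igusa.uHol hd) = ModFun.laurentExp 1
      (ModFun.compAffine d 0 1 (Igusa.discC 1) * Igusa.discInvC 1) :=
    congrArg (fun z => ModFun.laurentExp 1 z) f1
  have e2 : ModFun.qExp N (Igusa.uInvHol hd) = ModFun.laurentExp 1
      (ModFun.compAffine d 0 1 (Igusa.discInvC 1) * Igusa.discC 1) :=
    congrArg (fun z => ModFun.laurentExp 1 z) f2
  rw [e1, e2, map_mul, map_mul, ModFun.laurentExp_compAffine, ModFun.laurentExp_compAffine,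
    ModFun.affineRoot_zero, ModFun.twist_one, ModFun.twist_one, Igusa.laurentExp_discC,
    Igusa.laurentExp_discInvC]
  exact ⟨rfl, rfl⟩

section Prime

variable (p : ℕ) [hp : Fact p.Prime]

theorem deltaSeries_coeffEmb :
    coeffEmb Qb deltaSeries = Igusa.deltaSer Qb := by
  rw [Igusa.deltaSer_eq, deltaSeries, map_mul, coeffEmb, coeffMap_single, map_one,
    coeffMap_ofPowerSeries, dedekindEtaUnitQ, ← RingHom.comp_apply (PowerSeries.map _),
    ← PowerSeries.map_comp,
    RingHom.ext_int ((algebraMap ℚ Qb).comp (Int.castRingHom ℚ)) (Int.castRingHom Qb)]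

theorem modularUnit_coeffEmb :
    coeffEmb Qb (modularUnitSeries p) =
      qExpand Qb p (Igusa.deltaInvSer Qb) * Igusa.deltaSer Qb := by
  have h1 : coeffEmb Qb (deltaSeriesN p) * qExpand Qb p (Igusa.deltaInvSer Qb) = 1 := by
    rw [deltaSeriesN, coeffEmb, coeffMap_qExpand, ← map_mul]
    rw [show coeffMap (algebraMap ℚ Qb) deltaSeries = Igusa.deltaSer Qb from deltaSeries_coeffEmb,
      Igusa.deltaSer_mul_inv, map_one]
  have h2 : coeffEmb Qb (modularUnitSeries p) * coeffEmb Qb (deltaSeriesN p)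
      = Igusa.deltaSer Qb := by
    rw [← map_mul, modularUnitSeries_mul_deltaSeriesN, deltaSeries_coeffEmb]
  calc coeffEmb Qb (modularUnitSeries p)
      = coeffEmb Qb (modularUnitSeries p) *
          (coeffEmb Qb (deltaSeriesN p) * qExpand Qb p (Igusa.deltaInvSer Qb)) := by
        rw [h1, mul_one]
    _ = Igusa.deltaSer Qb * qExpand Qb p (Igusa.deltaInvSer Qb) := by rw [← mul_assoc, h2]
    _ = _ := mul_comm _ _

theorem exists_modularUnit :
    ∃ w : Fbar p, w ≠ 0 ∧ (w : LaurentSeries Qb) = coeffEmb Qb (modularUnitSeries p) ∧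
      ∀ v : Place Qb (Fbar p), 0 ≤ v.ord (jB p) → v.ord w = 0 := by
  have h := goodRed_qbar p
  obtain ⟨e1, e2⟩ := qExp_uHol (N := p) (d := p) dvd_rfl
  have r1 : Igusa.Red qbarPi (ModFun.qExp p (Igusa.uHol (dvd_refl p)))
      (qExpand Qb p (Igusa.deltaSer Qb) * Igusa.deltaInvSer Qb) := by
    rw [e1]; exact (Igusa.red_deltaSer.qExpand p).mul Igusa.red_deltaInvSer
  have r2 : Igusa.Red qbarPi (ModFun.qExp p (Igusa.uInvHol (dvd_refl p)))
      (qExpand Qb p (Igusa.deltaInvSer Qb) * Igusa.deltaSer Qb) := by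
    rw [e2]; exact (Igusa.red_deltaInvSer.qExpand p).mul Igusa.red_deltaSer
  obtain ⟨x, hx, hxv⟩ := exists_integral_element ⟨_, h.uHol_mem (dvd_refl p)⟩ r1
  obtain ⟨w, hw, hwv⟩ := exists_integral_element ⟨_, h.uInvHol_mem (dvd_refl p)⟩ r2
  have hwx : w * x = 1 := by
    refine Subtype.ext ?_
    show (w : LaurentSeries Qb) * (x : LaurentSeries Qb) = 1
    rw [hw, hx, mul_mul_mul_comm, ← map_mul, mul_comm (Igusa.deltaInvSer Qb),
      Igusa.deltaSer_mul_inv, map_one, one_mul]
  have hw0 : w ≠ 0 := left_ne_zero_of_mul_eq_one hwx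
  have hx0 : x ≠ 0 := right_ne_zero_of_mul_eq_one hwx
  refine ⟨w, hw0, by rw [hw, modularUnit_coeffEmb], fun v hv => ?_⟩
  have h1 := FF.ord_nonneg v (hwv v hv)
  have h2 := FF.ord_nonneg v (hxv v hv)
  have h3 := v.ord_mul hw0 hx0
  rw [hwx, v.ord_one] at h3
  omega

/-- The modular unit `Δ(τ)/Δ(pτ)`. -/
def wBar : Fbar p := (exists_modularUnit p).choose

theorem wBar_ne_zero : wBar p ≠ 0 := (exists_modularUnit p).choose_spec.1

@[simp]
theorem coe_wBar : (wBar p : LaurentSeries Qb) = coeffEmb Qb (modularUnitSeries p) :=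
  (exists_modularUnit p).choose_spec.2.1

theorem ord_wBar_eq_zero {v : Place Qb (Fbar p)} (hv : 0 ≤ v.ord (jB p)) : v.ord (wBar p) = 0 :=
  (exists_modularUnit p).choose_spec.2.2 v hv

theorem ord_placeInf_wBar : (placeInf p).ord (wBar p) = 1 - (p : ℤ) := by
  have h1 : Igusa.deltaInvSer Qb ≠ 0 := Igusa.deltaInvSer_ne_zero
  rw [ord_placeInf p (wBar_ne_zero p), coe_wBar, modularUnit_coeffEmb,
    HahnSeries.order_mul ((_root_.map_ne_zero _).mpr h1) Igusa.deltaSer_ne_zero,
    Igusa.order_qExpand h1, Igusa.order_deltaInvSer, Igusa.order_deltaSer]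
  ring

/-- The divisor of the modular unit is `(p - 1) ((0) - (∞))`. -/
theorem div_wBar : FF.div Qb (wBar p) = (p - 1 : ℤ) • cuspDiv p := by
  classical
  set e : ℤ := (placeZero p).ord (wBar p) with he
  have hne := placeZero_ne_placeInf p
  have hD : FF.div Qb (wBar p) =
      Finsupp.single (placeZero p) e + Finsupp.single (placeInf p) (1 - (p : ℤ)) := by
    ext v
    rw [FF.div_apply, Finsupp.add_apply]
    by_cases h0 : v = placeZero p
    · subst h0
      rw [Finsupp.single_eq_same, Finsupp.single_eq_of_ne hne, add_zero]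
    by_cases h1 : v = placeInf p
    · subst h1
      rw [Finsupp.single_eq_same, Finsupp.single_eq_of_ne (Ne.symm hne), zero_add,
        ord_placeInf_wBar]
    rw [Finsupp.single_eq_of_ne h0, Finsupp.single_eq_of_ne h1, add_zero]
    refine ord_wBar_eq_zero p (not_lt.mp fun hneg => ?_)
    exact (eq_of_ord_jB_neg p hneg).elim h1 h0
  have hdeg := congrArg Divisor.degree hD
  rw [FF.degree_div, map_add, Divisor.degree_single, Divisor.degree_single, FF.deg_eq_one,
    FF.deg_eq_one, Nat.cast_one, mul_one, mul_one] at hdeg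
  rw [hD, cuspDiv, smul_sub, Finsupp.smul_single, Finsupp.smul_single, smul_eq_mul, mul_one,
    show e = (p : ℤ) - 1 by omega, show (1 : ℤ) - p = -((p : ℤ) - 1) by ring, Finsupp.single_neg,
    ← sub_eq_add_neg]

/-- `(p - 1) c = 0`. -/
theorem smul_cuspidal : (p - 1 : ℤ) • cuspidal p = 0 := by
  refine (QuotientAddGroup.eq_zero_iff
    ((p - 1 : ℤ) • (⟨cuspDiv p, cuspDiv_mem p⟩ : Divisor.degZero (K := Qb) (F := Fbar p)))).mpr ?_
  rw [AddSubgroup.mem_addSubgroupOf]
  refine ⟨wBar p, wBar_ne_zero p, fun v => ?_⟩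
  show ((p - 1 : ℤ) • cuspDiv p) v = _
  rw [← div_wBar, FF.div_apply]

theorem nsmul_cuspidal : (p - 1) • cuspidal p = 0 := by
  rw [← natCast_zsmul, Nat.cast_sub hp.out.pos, Nat.cast_one]
  exact smul_cuspidal p

/-- Galois fixes the cuspidal class. -/
theorem galois_smul_cuspidal (σ : Qb ≃ₐ[ℚ] Qb) : σ • cuspidal p = cuspidal p := by
  rw [galois_smul_pic0_def, cuspidal, SemilinearAut.pic0_smul_mk]
  refine congrArg Pic0.mk (Subtype.ext ?_)
  show arithmeticGalois (modularFunctionFieldFull p) σ • cuspDiv p = cuspDiv p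
  rw [cuspDiv, smul_sub, SemilinearAut.smul_single, SemilinearAut.smul_single,
    galois_smul_placeInf, galois_smul_placeZero]

end Prime

end Fermat.Agent.Mazur.Eisenstein

end
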