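import Fermat.Agent.Mazur.Eisenstein.AtP
import Fermat.Agent.Mazur.Eisenstein.CocR

/-!
# The Eisenstein descent

The fixed Eisenstein torsion is bounded. Hence, for a fixed point, a bounded power of `r` times
its Eisenstein component is divisible by every power of `r` among fixed points (`exists_descent`).
-/

set_option autoImplicit false
set_option linter.unusedSectionVars false
set_option linter.style.haveILetI false

noncomputable section

namespace Fermat.Agent.Mazur.Eisenstein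

open Fermat.Agent.Arith Module Matrix
open scoped Pointwise

variable {p r : ℕ} [Fact r.Prime] {J : Type} [AddCommGroup J] [DistribMulAction GQ J]
variable {T : Type} [CommRing T] [Module T J]

namespace EisensteinDatum

variable (D : EisensteinDatum p r J T)

include D in
theorem exists_pow_smul_eq (m : ℕ) (y : J) : ∃ x : J, r ^ m • x = y := by
  induction m generalizing y with
  | zero => exact ⟨y, by rw [pow_zero, one_smul]⟩
  | succ m ih =>
    obtain ⟨z, hz⟩ := D.divisible y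
    obtain ⟨x, hx⟩ := ih z
    exact ⟨x, by rw [pow_succ', mul_smul, hx, hz]⟩

/-- The fixed Eisenstein torsion is bounded. -/
theorem exists_fixed_bound : ∃ c : ℕ, ∀ m : ℕ,
    letI := subAction (D.eisTors m) (D.gal_mem_eisTors m)
    Nat.card (fixedBy (D.eisTors m) (⊤ : Subgroup GQ)) ≤ r ^ c := by
  classical
  have hr : r.Prime := Fact.out
  obtain ⟨q, hq, hqp, hqr⟩ : ∃ q : ℕ, q.Prime ∧ q ≠ p ∧ q ≠ r := by
    have h5 := D.five_le
    by_cases h2 : r = 2
    · exact ⟨3, Nat.prime_three, by omega, by omega⟩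
    · exact ⟨2, Nat.prime_two, by omega, fun h => h2 h.symm⟩
  obtain ⟨A, hA⟩ := exists_liesOverPrime hq
  obtain ⟨φ, hφ⟩ := exists_isFrobeniusAt hA hq
  obtain ⟨δ, hδ, hδ'⟩ := D.exists_bound q hq hqp A hA
  obtain ⟨a, δ', hδd, rfl⟩ := Nat.exists_eq_pow_mul_and_not_dvd hδ r hr.ne_one
  refine ⟨a * D.d, fun m => ?_⟩
  letI := subAction (D.eisTors m) (D.gal_mem_eisTors m)
  have hkill : ∀ b : fixedBy (D.eisTors m) (⊤ : Subgroup GQ), r ^ a • ((b : D.eisTors m) : J) = 0 := by
    intro b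
    have hfix : ∀ g : GQ, g • ((b : D.eisTors m) : J) = ((b : D.eisTors m) : J) := fun g =>
      congrArg Subtype.val ((mem_fixedBy (D.eisTors m)).mp b.2 g trivial)
    have htor : r ^ m • ((b : D.eisTors m) : J) = 0 := D.pow_smul_eisTors (b : D.eisTors m).2
    have hmem := hδ' φ hφ ((b : D.eisTors m) : J) (by rw [hfix, hfix, sub_self]; exact zero_mem _)
    have hzero : (r ^ a * δ') • ((b : D.eisTors m) : J) = 0 :=
      D.eq_zero_of_mem q hq hqp A hA (r ^ m) _
        (fun hd => hqr ((Nat.prime_dvd_prime_iff_eq hq hr).mp (hq.dvd_of_dvd_pow hd)))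
        (by rw [← mul_smul, mul_comm (r ^ m), mul_smul, htor, smul_zero]) hmem
    rw [← addOrderOf_dvd_iff_nsmul_eq_zero] at hzero htor ⊢
    exact (Nat.Coprime.pow_left m ((hr.coprime_iff_not_dvd).mpr hδd)).coprime_dvd_left htor
      |>.dvd_of_dvd_mul_right hzero
  choose f hf using fun b => D.exists_ι_eq a _ (hkill b)
  haveI : NeZero (r ^ a) := ⟨pow_ne_zero _ hr.ne_zero⟩
  refine (Nat.card_le_card_of_injective f fun b b' h => Subtype.ext (Subtype.ext
    (by rw [← hf b, ← hf b', h]))).trans (le_of_eq ?_)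
  rw [Nat.card_fun, Nat.card_zmod, Nat.card_eq_fintype_card, Fintype.card_fin, ← pow_mul]

/-- The Eisenstein descent. -/
theorem exists_descent : ∃ C : ℕ, ∀ y : J, (∀ σ : GQ, σ • y = y) → ∀ m : ℕ,
    ∃ z : J, (∀ σ : GQ, σ • z = z) ∧ r ^ C • ((D.t₀ ^ r ^ m) • y) = r ^ m • z := by
  classical
  have hr : r.Prime := Fact.out
  obtain ⟨Ap, hAp⟩ := exists_liesOverPrime D.prime
  obtain ⟨Ar, hAr⟩ := exists_liesOverPrime hr
  obtain ⟨rN, rS, Cp, hNS, hS2, hatP⟩ := D.exists_atP hAp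
  obtain ⟨e, hunit⟩ := D.exists_unit_multiple hAr
  obtain ⟨CB, hCB⟩ := D.exists_index_bounds (Y := ⊥) bot_le
  obtain ⟨C0, hC0⟩ := D.exists_index_bounds (D.connLat_le Ar)
  obtain ⟨cG, hcG⟩ := D.exists_fixed_bound
  set g := D.eisRank with hg
  refine ⟨cG + CB + Cp + 1 + e, fun y hy m => ?_⟩
  letI := subAction (D.eisTors m) (D.gal_mem_eisTors m)
  haveI : NeZero r := ⟨hr.ne_zero⟩
  obtain ⟨hfixIp, k, hk0, hkle, hkb⟩ := hatP m
  -- the Selmer bound
  obtain ⟨hsel0, hsel⟩ := descentBound_of_admissible (galData p r Ap Ar) baer_unitsBar (cyc r)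
    (fun A _ _ _ A0 hcard hact hgood => descentBound_line D.prime D.ne hAp hAr hcard hgood hact)
    (D.eisTors m) (D.connSub Ar m) (D.isAdmissible_eisTors m) (D.isLocallyGood hAr m)
  set sel := selCard (galData p r Ap Ar) (D.connSub Ar m) with hseldef
  have hB : Nat.card (D.eisTors m) ≤ r ^ (m * (2 * g) + CB) := by
    have := (hCB m).2
    rwa [D.index_imTors_bot, finrank_bot, Nat.sub_zero] at this
  have hB0 : r ^ (m * g) ≤ (D.connSub Ar m).index := by
    have := (hC0 m).1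
    rwa [D.imTors_connLat, D.finrank_connLat hAr, show 2 * g - g = g by omega] at this
  have hprod : sel * k ≤ r ^ (cG + CB + Cp) := by
    have hchain : sel * r ^ (m * g) * r ^ (m * (2 * g - rN)) ≤
        r ^ cG * r ^ (m * (2 * g) + CB) :=
      (Nat.mul_le_mul (Nat.mul_le_mul le_rfl hB0) hfixIp).trans
        (hsel.trans (Nat.mul_le_mul (hcG m) hB))
    have hpos : 0 < r ^ (m * g) * r ^ (m * (2 * g - rN)) :=
      Nat.mul_pos (pow_pos hr.pos _) (pow_pos hr.pos _)
    refine Nat.le_of_mul_le_mul_right ?_ hpos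
    calc sel * k * (r ^ (m * g) * r ^ (m * (2 * g - rN)))
        = sel * r ^ (m * g) * r ^ (m * (2 * g - rN)) * k := by ring
      _ ≤ r ^ cG * r ^ (m * (2 * g) + CB) * r ^ (m * (2 * g - rS) + Cp) :=
          Nat.mul_le_mul hchain hkle
      _ ≤ r ^ (cG + CB + Cp) * (r ^ (m * g) * r ^ (m * (2 * g - rN))) := by
          rw [← pow_add, ← pow_add, ← pow_add, ← pow_add]
          refine Nat.pow_le_pow_right hr.pos ?_
          have h1 : m * (2 * g + (2 * g - rS)) ≤ m * (g + (2 * g - rN)) :=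
            Nat.mul_le_mul_left m (by omega)
          rw [mul_add, mul_add] at h1
          omega
  -- the cocycle
  obtain ⟨w₀, hw₀⟩ := D.exists_pow_smul_eq m y
  set t := D.t₀ ^ r ^ m with ht
  set w := t • w₀ with hw
  set ty := t • y with hty
  have hwy : r ^ m • w = ty := by
    rw [hw, hty, ← hw₀, SMulCommClass.smul_comm (r ^ m) t w₀]
  have hfixty : ∀ σ : GQ, σ • ty = ty := fun σ => by rw [hty, D.smul_comm, hy]
  have hκ : ∀ σ : GQ, σ • w - w ∈ D.eisTors m := fun σ => by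
    rw [hw, D.smul_comm, ← smul_sub]
    refine D.t₀_smul_mem_eisTors m _ ?_
    rw [smul_sub, ← SMulCommClass.smul_comm σ (r ^ m), hw₀, hy, sub_self]
  let c : GQ → D.eisTors m := fun σ => ⟨σ • w - w, hκ σ⟩
  have hcoc : c ∈ cocycles (G := GQ) (D.eisTors m) := by
    obtain ⟨H, hH, hfix⟩ := D.isOpen w
    refine ⟨fun a b => Subtype.ext ?_, H, hH, fun a b hb => Subtype.ext ?_⟩
    · show (a * b) • w - w = a • w - w + a • (b • w - w)
      rw [mul_smul, smul_sub]; abel
    · show (a * b) • w - w = a • w - w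
      rw [mul_smul, hfix b hb]
  set n := 2 * r ^ e with hn
  have hkc : k • c ∈ cocycles (G := GQ) (D.eisTors m) := AddSubgroup.nsmul_mem _ hcoc k
  obtain ⟨hmem, hchar⟩ := hunit m (k • c) hkc fun σ hσ => by
    show k • (σ • w - w) ∈ D.ker Ar
    exact AddSubgroup.nsmul_mem _ (D.inertia_sub_mem r hr D.ne Ar hAr σ hσ w) k
  have hselmer : n • (k • c) ∈ selmer (galData p r Ap Ar) (D.connSub Ar m) := by
    refine ⟨AddSubgroup.nsmul_mem _ hkc n, fun σ hσ => Subtype.ext ?_, ?_, hmem, hchar⟩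
    · obtain ⟨q, A', hq, hqp, hqr, hA', hσ'⟩ := hσ
      have h0 : σ • w - w = 0 := D.eq_zero_of_mem q hq hqp A' hA' (r ^ m) _
        (fun hd => hqr ((Nat.prime_dvd_prime_iff_eq hq hr).mp (hq.dvd_of_dvd_pow hd)))
        (D.pow_smul_eisTors (hκ σ)) (D.inertia_sub_mem q hq hqp A' hA' σ hσ' w)
      show n • k • (σ • w - w) = 0
      rw [h0, smul_zero, smul_zero]
    · obtain ⟨b, hb, hb'⟩ := hkb w hκ
      refine ⟨n • ⟨b, hb⟩, fun σ hσ => Subtype.ext ?_⟩
      show n • k • (σ • w - w) = σ • (n • b) - n • b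
      rw [hb' σ hσ, smul_sub, SMulCommClass.smul_comm σ n]
  obtain ⟨b, hb⟩ : sel • (n • (k • c)) ∈ (dB (G := GQ) (D.eisTors m)).range :=
    AddSubgroup.nsmul_index_mem
      ((dB (G := GQ) (D.eisTors m)).range.addSubgroupOf (selmer (galData p r Ap Ar) (D.connSub Ar m)))
      ⟨_, hselmer⟩
  set N := sel * (n * k) with hN
  set z₀ := N • w - (b : J) with hz₀
  have hz₀fix : ∀ σ : GQ, σ • z₀ = z₀ := fun σ => by
    have h : σ • (b : J) - b = sel • n • k • (σ • w - w) := congrArg Subtype.val (congrFun hb σ)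
    rw [← mul_smul, ← mul_smul, mul_assoc, ← hN, smul_sub] at h
    rw [hz₀, smul_sub, SMulCommClass.smul_comm σ N]
    linear_combination (norm := abel) -h
  have hz₀y : r ^ m • z₀ = N • ty := by
    rw [hz₀, smul_sub, D.pow_smul_eisTors b.2, sub_zero, SMulCommClass.smul_comm (r ^ m) N w, hwy]
  have hN0 : N ≠ 0 := Nat.mul_ne_zero hsel0
    (Nat.mul_ne_zero (Nat.mul_ne_zero two_ne_zero (pow_ne_zero _ hr.ne_zero)) hk0)
  obtain ⟨s, u, hu, hNsu⟩ := Nat.exists_eq_pow_mul_and_not_dvd hN0 r hr.ne_one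
  have hs : s ≤ cG + CB + Cp + 1 + e := by
    refine (Nat.pow_le_pow_iff_right hr.one_lt).mp ?_
    calc r ^ s ≤ N := hNsu ▸ Nat.le_mul_of_pos_right _ (Nat.pos_of_ne_zero fun h => hu (h ▸ dvd_zero r))
      _ = sel * k * n := by rw [hN]; ring
      _ ≤ r ^ (cG + CB + Cp) * (r * r ^ e) :=
          Nat.mul_le_mul hprod (Nat.mul_le_mul hr.two_le le_rfl)
      _ = _ := by rw [← pow_succ', ← pow_add]; congr 1; omega
  obtain ⟨a, a', haa⟩ : IsCoprime (u : ℤ) ((r : ℤ) ^ m) := by
    have : Nat.Coprime u (r ^ m) := (Nat.Coprime.pow_left m (hr.coprime_iff_not_dvd.mpr hu)).symm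
    have h2 := Nat.isCoprime_iff_coprime.mpr this
    rwa [Nat.cast_pow] at h2
  set z₁ := a • z₀ + ((r : ℤ) ^ s * a') • ty with hz₁
  obtain ⟨d', hd'⟩ := Nat.exists_eq_add_of_le hs
  refine ⟨r ^ d' • z₁, fun σ => ?_, ?_⟩
  · rw [SMulCommClass.smul_comm σ (r ^ d'), hz₁, smul_add, SMulCommClass.smul_comm σ a,
      SMulCommClass.smul_comm σ ((r : ℤ) ^ s * a'), hz₀fix, hfixty]
  · have h1 : r ^ m • z₁ = r ^ s • ty := by
      simp only [← natCast_zsmul] at hz₀y ⊢
      rw [hz₁, smul_add, SMulCommClass.smul_comm _ a, hz₀y, smul_smul, smul_smul, ← add_smul]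
      congr 1
      rw [hNsu]
      push_cast
      linear_combination ((r : ℤ) ^ s) * haa
    rw [hd', pow_add, mul_comm, mul_smul, ← h1, SMulCommClass.smul_comm (r ^ d') (r ^ m)]

end EisensteinDatum

end Fermat.Agent.Mazur.Eisenstein
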