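import Fermat.Agent.GaloisReps.Attach
import Fermat.Agent.Mazur.Eisenstein.Datum

/-!
# The Galois planes of the Hecke eigensystems over an algebraic closure of `ℚ_r`
-/

set_option autoImplicit false
set_option linter.unusedSectionVars false
set_option linter.style.haveILetI false
set_option maxHeartbeats 1000000

noncomputable section

open Module Matrix
open Fermat.Agent.GaloisReps
open scoped Pointwise

namespace Fermat.Agent.Mazur.Eisenstein

variable {N r : ℕ} [NeZero N] [Fact r.Prime] (D : HeckeGaloisModel N r)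

section DVR

variable {O : Type} [CommRing O] [IsDomain O] [IsDiscreteValuationRing O] [CharZero O]
  (ι : ℤ_[r] →+* O) (θ : FullHecke N →+* O) (hr : (r : O) ∈ IsLocalRing.maximalIdeal O)

include hr in
theorem det_eigenAction_of_not_scalar {h : AbsGal}
    (hh : ¬ IsScalarLike (D.eigenAction ι θ h)) :
    LinearMap.det (D.eigenAction ι θ h) = ι (chi r h : ℤ_[r]) := by
  refine sub_eq_zero.mp (HeckeGaloisModel.eq_zero_of_forall_pow_dvd hr fun n => ?_)
  haveI : NeZero (r ^ n) := ⟨pow_ne_zero _ (Fact.out : r.Prime).ne_zero⟩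
  obtain ⟨ζ, hζ⟩ := exists_primitiveRoot (r ^ n)
  obtain ⟨a, ha, haζ⟩ :=
    D.det_cyclotomic_of_not_scalarLike ι θ frobeniusDensity hr hh n hζ.pow_eq_one
  have h2 := (hζ.isOfFinOrder (NeZero.ne _)).pow_eq_pow_iff_modEq.mp
    ((chi_spec h hζ.pow_eq_one).symm.trans haζ)
  rw [← hζ.eq_orderOf, ← ZMod.natCast_eq_natCast_iff, ZMod.natCast_val, ZMod.cast_id] at h2
  have h3 : (chi r h : ℤ_[r]) - (a : ℤ_[r]) ∈ Ideal.span {(r : ℤ_[r]) ^ n} := by
    rw [← PadicInt.ker_toZModPow, RingHom.mem_ker, map_sub, map_natCast, h2, sub_self]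
  obtain ⟨z, hz⟩ := Ideal.mem_span_singleton.mp h3
  have h4 : ι (chi r h : ℤ_[r]) - (a : O) = (r : O) ^ n * ι z := by
    have := congrArg ι hz
    rwa [map_sub, map_natCast, map_mul, map_pow, map_natCast] at this
  have e : LinearMap.det (D.eigenAction ι θ h) - ι (chi r h : ℤ_[r]) =
      (LinearMap.det (D.eigenAction ι θ h) - a) - (ι (chi r h : ℤ_[r]) - a) := by ring
  rw [e]
  exact dvd_sub ha ⟨_, h4⟩

include hr in
/-- The determinant on every eigen-lattice is the cyclotomic character. -/
theorem det_eigenAction (g : AbsGal) :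
    LinearMap.det (D.eigenAction ι θ g) = ι (chi r g : ℤ_[r]) := by
  by_cases hg : IsScalarLike (D.eigenAction ι θ g)
  swap
  · exact det_eigenAction_of_not_scalar D ι θ hr hg
  obtain ⟨c, hc2, hc⟩ := D.exists_conj
  have hcn := D.not_isScalarLike_conj ι θ hc
  have hcgn : ¬ IsScalarLike (D.eigenAction ι θ (c * g)) := by
    rintro ⟨a, b, ha, hab⟩
    obtain ⟨a', b', ha', hab'⟩ := hg
    refine hcn ⟨a * b', a' * b, mul_ne_zero ha ?_, fun v => ?_⟩
    · intro hb'
      have hinj : Function.Injective (D.eigenAction ι θ g) := by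
        refine Function.LeftInverse.injective (g := D.eigenAction ι θ g⁻¹) fun x => ?_
        rw [← Module.End.mul_apply, ← map_mul, inv_mul_cancel, map_one, Module.End.one_apply]
      refine (D.eigenBasis θ).ne_zero 0 (hinj (((smul_eq_zero.mp ?_).resolve_left ha').trans
        (map_zero _).symm))
      rw [hab', hb', zero_smul]
    · have h1 : D.eigenAction ι θ c (a' • D.eigenAction ι θ g v) =
          D.eigenAction ι θ c (b' • v) := by rw [hab' v]
      rw [map_smul, map_smul, ← Module.End.mul_apply, ← map_mul] at h1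
      have h2 := congrArg (fun x => a • x) h1
      simp only [smul_comm a a', hab v, smul_smul] at h2
      exact h2.symm
  have e : g = c * (c * g) := by rw [← mul_assoc, hc2, one_mul]
  rw [e, map_mul (D.eigenAction ι θ), map_mul LinearMap.det,
    det_eigenAction_of_not_scalar D ι θ hr hcn, det_eigenAction_of_not_scalar D ι θ hr hcgn,
    map_mul (chi r) c (c * g), Units.val_mul, map_mul ι]

end DVR

/-- A basis of the plane of an eigensystem over `Kr r`, with determinant the cyclotomic
character. -/
theorem exists_plane (θ : FullHecke N →+* Kr r) :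
    ∃ v : Fin 2 → (Fin D.d → Kr r), LinearIndependent (Kr r) v ∧
      (∀ j, v j ∈ eigenspace D.hecke θ) ∧
      ∀ g : AbsGal, ∃ G : Matrix (Fin 2) (Fin 2) (Kr r),
        (∀ j, (D.gal g).map (toK r) *ᵥ v j = ∑ k, G k j • v k) ∧
          G.det = toK r (chi r g) := by
  classical
  haveI : Module.Finite ℤ (FullHecke N) := IntegralStructure.heckeAlgebra_finite N 2 ∅
  haveI : Finite (IsLocalRing.ResidueField ℤ_[r]) :=
    Finite.of_equiv _ (PadicInt.residueField (p := r)).symm.toEquiv
  let e0 : FractionRing ℤ_[r] ≃+* ℚ_[r] :=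
    (FractionRing.algEquiv ℤ_[r] ℚ_[r]).toRingEquiv
  let e : AlgebraicClosure (FractionRing ℤ_[r]) ≃+* Kr r :=
    IsAlgClosure.equivOfEquiv (AlgebraicClosure (FractionRing ℤ_[r])) (Kr r) e0
  obtain ⟨O, _, _, _, _, _, _, _, _, _, j, θ', -, hj, hjι, hjθ⟩ :=
    exists_coeffExt ℤ_[r] (e.symm.toRingHom.comp θ)
  set ι := algebraMap ℤ_[r] O with hι
  set j' : O →+* Kr r := e.toRingHom.comp j with hj'
  have hj'inj : Function.Injective j' := e.injective.comp hj
  have hjθ' : j'.comp θ' = θ := by
    rw [hj', RingHom.comp_assoc, hjθ, ← RingHom.comp_assoc, RingEquiv.toRingHom_comp_symm_toRingHom,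
      RingHom.id_comp]
  have hjι' : ∀ x, j' (ι x) = toK r x := fun x => by
    have h := RingHom.congr_fun hjι x
    simp only [RingHom.comp_apply] at h
    show e (j (ι x)) = _
    rw [hι, h, IsScalarTower.algebraMap_apply ℤ_[r] (FractionRing ℤ_[r])
      (AlgebraicClosure (FractionRing ℤ_[r])), IsAlgClosure.equivOfEquiv_algebraMap]
    show algebraMap ℚ_[r] (Kr r) (e0 (algebraMap _ _ x)) = _
    exact congrArg _ ((FractionRing.algEquiv ℤ_[r] ℚ_[r]).commutes x)
  have hr : (r : O) ∈ IsLocalRing.maximalIdeal O := by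
    rw [← map_natCast ι r]
    refine map_nonunit ι _ ?_
    rw [IsLocalRing.mem_maximalIdeal]
    exact PadicInt.p_nonunit
  set b := D.eigenBasis θ' with hb
  set v : Fin 2 → (Fin D.d → Kr r) := fun k i => j' ((b k : Fin D.d → O) i) with hv
  refine ⟨v, ?_, fun k => ?_, fun g => ?_⟩
  · have hli : LinearIndependent O fun k => ((b k : Fin D.d → O)) :=
      b.linearIndependent.map' (eigenspace D.hecke θ').subtype (Submodule.ker_subtype _)
    let L : (Fin D.d → O) →ₗ[O] (Fin D.d → FractionRing O) :=
      (Algebra.linearMap O (FractionRing O)).compLeft (Fin D.d)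
    have hL : LinearMap.ker L = ⊥ := LinearMap.ker_eq_bot.mpr fun x y hxy => funext fun i =>
      IsFractionRing.injective O (FractionRing O) (congrFun hxy i)
    have hliE : LinearIndependent (FractionRing O) (fun k => L (b k : Fin D.d → O)) :=
      (LinearIndependent.iff_fractionRing O (FractionRing O)).mp (hli.map' L hL)
    have := linearIndependent_comp_fieldHom
      (IsFractionRing.lift hj'inj : FractionRing O →+* Kr r) hliE
    have hv' : v = fun k i => (IsFractionRing.lift hj'inj : FractionRing O →+* Kr r)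
        (L (b k : Fin D.d → O) i) :=
      funext₂ fun k i => (IsFractionRing.lift_algebraMap hj'inj _).symm
    rw [hv']
    exact this
  · have h := D.map_mem_eigenspace j' θ' (b k).2
    rwa [hjθ'] at h
  · refine ⟨(D.eigenMatrix ι θ' g).map j', fun k => funext fun i => ?_, ?_⟩
    · have h : D.eigenAction ι θ' g (b k) = ∑ l, D.eigenMatrix ι θ' g l k • b l := by
        conv_lhs => rw [← b.sum_repr (D.eigenAction ι θ' g (b k))]
        refine Finset.sum_congr rfl fun l _ => ?_
        rw [HeckeGaloisModel.eigenMatrix, LinearMap.toMatrix_apply]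
      have h1 := congrArg j' (congrFun (congrArg Subtype.val h) i)
      rw [HeckeGaloisModel.coe_eigenAction, RingHom.map_mulVec] at h1
      simp only [Submodule.coe_sum, SetLike.val_smul, Finset.sum_apply, Pi.smul_apply,
        smul_eq_mul, map_sum, map_mul] at h1
      have hM : ((D.gal g).map ι).map j' = (D.gal g).map (toK r) := by
        ext a c
        exact hjι' _
      rw [hM] at h1
      rw [Finset.sum_apply]
      exact h1
    · rw [← RingHom.mapMatrix_apply, ← RingHom.map_det, HeckeGaloisModel.eigenMatrix,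
        LinearMap.det_toMatrix, det_eigenAction D ι θ' hr, hjι']

end Fermat.Agent.Mazur.Eisenstein

end
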