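import Fermat.Agent.Arith.Frobenius
import Fermat.Agent.FiniteFlat.GalOrder
import Fermat.Prelude.Def_ModularCurve_HeckeModule
import Fermat.Prelude.Def_ModularCurve_ReductionModL

/-!
# The geometric inputs of the Eisenstein descent on `J₀(p)`
-/

set_option autoImplicit false
set_option linter.style.haveILetI false

noncomputable section

open ModularCurve
open Fermat.Agent.Arith
open scoped Pointwise

namespace Fermat.Agent.Mazur.Eisenstein

variable (N : ℕ) [NeZero N]

/-- The `r`-power torsion lies in Galois orders at `r`, with functions congruent on the classes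
reducing to zero. -/
def OrderProperty : Prop :=
  ∀ r : ℕ, r.Prime → ¬ r ∣ N → ∀ A : ValuationSubring QBar, A.LiesOverPrime r → ∀ m : ℕ,
    ∃ (M : Type) (_ : AddCommGroup M) (_ : DistribMulAction GQ M) (_ : Finite M)
      (i : M →+ JZero N) (O : FiniteFlat.GalOrder r M),
      Function.Injective i ∧ (∀ (g : GQ) (x : M), i (g • x) = g • i x) ∧
      (∀ x : JZero N, r ^ m • x = 0 → x ∈ i.range) ∧
      ∀ f ∈ O.H, ∀ x : M, reductionModL A N (i x) = 0 → f x - f 0 ∈ A.nonunits

/-- Inertia at a prime exactly dividing the level is unipotent of level two on the torsion prime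
to it. -/
def SemistableProperty (q : ℕ) : Prop :=
  ∀ A : ValuationSubring QBar, A.LiesOverPrime q → ∀ σ ∈ A.inertiaSubgroupIn ℚ,
    ∀ (m : ℕ) (x : JZero N), ¬ q ∣ m → m • x = 0 →
      σ • (σ • x - x) - (σ • x - x) = 0

end Fermat.Agent.Mazur.Eisenstein

end
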