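import Fermat.Agent.Mazur.Eisenstein.Admissible
import Fermat.Agent.Mazur.Eisenstein.Connected
import Fermat.Agent.Mazur.Eisenstein.CycInertia

/-!
# Local properties of the Eisenstein lattice

Inertia at `r` is cyclotomic on the part reducing to zero (`gal_mulVec_connLat`), and inertia at
`p` is unipotent (`gal_sub_sq`).
-/

set_option autoImplicit false
set_option linter.unusedSectionVars false
set_option linter.style.haveILetI false

noncomputable section

namespace Fermat.Agent.Mazur.Eisenstein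

open Fermat.Agent.Arith Module Matrix
open scoped Pointwise

variable {p r : ℕ} [Fact r.Prime] {J : Type} [AddCommGroup J] [DistribMulAction GQ J]
variable {T : Type} [CommRing T] [Module T J]

theorem IsAdmissible.restrict {G : Type*} [Group G] {B : Type*} [AddCommGroup B]
    [DistribMulAction G B] {c : ℕ} {χ : G →* (ZMod c)ˣ} (h : IsAdmissible B c χ) (H : Subgroup G) :
    IsAdmissible (G := H) B c (χ.comp H.subtype) :=
  ⟨h.rPow, fun g b => h.nilp (g : G) b⟩

theorem chi_frobenius {A : ValuationSubring QBar} {q : ℕ} (hA : A.LiesOverPrime q) (hq : q.Prime)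
    (hqr : q ≠ r) {F : GQ} (hF : A.IsFrobeniusAt F q) : (chi r F : ℤ_[r]) = q := by
  refine PadicInt.ext_of_toZModPow.mp fun m => ?_
  rw [map_natCast]
  exact toZModPow_chi_eq F fun ζ hζ => frobenius_root hA hq hF hζ fun hd =>
    hqr ((Nat.prime_dvd_prime_iff_eq hq (Fact.out : r.Prime)).mp (hq.dvd_of_dvd_pow hd))

theorem exists_inertia_chi_ne_one {A : ValuationSubring QBar} (hA : A.LiesOverPrime r) :
    ∃ σ ∈ A.inertiaSubgroupIn ℚ, (chi r σ : ℤ_[r]) ≠ 1 := by
  have hr : r.Prime := Fact.out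
  obtain ⟨σ, hσ, hσinv⟩ := exists_inertia_inv hA hr 2
  refine ⟨σ, hσ, fun h1 => ?_⟩
  haveI : NeZero (r ^ 2) := ⟨pow_ne_zero _ hr.ne_zero⟩
  haveI : Fact (1 < r ^ 2) := ⟨Nat.one_lt_pow two_ne_zero hr.one_lt⟩
  obtain ⟨ζ, hζ⟩ := HasEnoughRootsOfUnity.exists_primitiveRoot QBar (r ^ 2)
  have h2 := chi_spec σ hζ.pow_eq_one
  rw [hσinv ζ hζ.pow_eq_one, h1, map_one, ZMod.val_one, pow_one] at h2
  have h3 : ζ ^ 2 = 1 := by
    rw [sq]
    calc ζ * ζ = ζ⁻¹ * ζ := by rw [h2]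
      _ = 1 := inv_mul_cancel₀ (hζ.ne_zero (NeZero.ne _))
  have h4 : r ^ 2 ∣ 2 := hζ.dvd_of_pow_eq_one _ h3
  have h5 := Nat.le_of_dvd two_pos h4
  have h6 := hr.two_le
  nlinarith

namespace EisensteinDatum

variable (D : EisensteinDatum p r J T)

variable {A : ValuationSubring QBar}

theorem inertia_smul_mem_ker {q : ℕ} (hq : q.Prime) (hqp : q ≠ p) (hA : A.LiesOverPrime q)
    {σ : GQ} (hσ : σ ∈ A.inertiaSubgroupIn ℚ) {x : J} (hx : x ∈ D.ker A) : σ • x ∈ D.ker A := by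
  simpa using add_mem (D.inertia_sub_mem q hq hqp A hA σ hσ x) hx

/-- On Eisenstein points reducing to zero, inertia at `r` is cyclotomic. -/
theorem inertia_smul_eq (hA : A.LiesOverPrime r) (m : ℕ) {σ : GQ}
    (hσ : σ ∈ A.inertiaSubgroupIn ℚ) {x : J} (hx : x ∈ D.eisTors m) (hxk : x ∈ D.ker A) :
    σ • x = (PadicInt.toZModPow m (chi r σ : ℤ_[r])).val • x := by
  classical
  have hr : r.Prime := Fact.out
  obtain ⟨M, _, _, _, i, O, hinj, heq, hsurj, hcong⟩ := D.exists_order A hA m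
  set S : AddSubgroup M := (D.eisTors m ⊓ D.ker A).comap i with hS
  have hstab : ∀ g : A.inertiaSubgroupIn ℚ, ∀ y ∈ S, g • y ∈ S := by
    intro g y hy
    rw [hS, AddSubgroup.mem_comap] at hy ⊢
    rw [Subgroup.smul_def, heq]
    exact ⟨D.gal_mem_eisTors m g _ hy.1, D.inertia_smul_mem_ker hr D.ne hA g.2 hy.2⟩
  haveI : NeZero r := ⟨hr.ne_zero⟩
  have hadm : letI := subAction S hstab
      IsAdmissible S r ((cyc r).comp (A.inertiaSubgroupIn ℚ).subtype) := by
    letI := subAction (D.eisTors m) (D.gal_mem_eisTors m)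
    letI := subAction S hstab
    let f : S →+ D.eisTors m :=
      (i.comp S.subtype).codRestrict (D.eisTors m) fun y => (y.2 : i y ∈ D.eisTors m ⊓ D.ker A).1
    refine ((D.isAdmissible_eisTors m).restrict _).of_injective f
      (fun a b h => Subtype.ext (hinj (congrArg Subtype.val h))) fun g a => Subtype.ext ?_
    exact heq g a
  obtain ⟨y, rfl⟩ := hsurj x (D.pow_smul_eisTors hx)
  set e := Monoid.exponent (Multiplicative M) with he
  haveI : NeZero e := ⟨Monoid.exponent_ne_zero_of_finite⟩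
  haveI : NeZero (e * r ^ m) := ⟨mul_ne_zero (NeZero.ne e) (pow_ne_zero _ hr.ne_zero)⟩
  set c : ℕ := (cyc (e * r ^ m) σ : ZMod (e * r ^ m)).val with hc
  have hroot : ∀ ζ : QBar, ζ ^ (e * r ^ m) = 1 → σ ζ = ζ ^ c := fun ζ hζ => cyc_spec σ hζ
  have h1 := inertia_smul_of_congruent hA hr O _ S hstab hadm
    (fun f hf z hz => hcong f hf z (hz : i z ∈ D.eisTors m ⊓ D.ker A).2) hσ
    (c := c) (fun ζ hζ => hroot ζ (by rw [pow_mul, hζ, one_pow]))
    (x := y) (show i y ∈ D.eisTors m ⊓ D.ker A from ⟨hx, hxk⟩)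
  have h2 : PadicInt.toZModPow m (chi r σ : ℤ_[r]) = c :=
    toZModPow_chi_eq σ fun ζ hζ => hroot ζ (by rw [mul_comm, pow_mul, hζ, one_pow])
  rw [← heq, h1, map_nsmul, h2, ZMod.val_natCast]
  conv_lhs => rw [← Nat.div_add_mod c (r ^ m), add_smul, mul_comm, mul_smul,
    D.pow_smul_eisTors hx, smul_zero, zero_add]

/-- Inertia at `r` is cyclotomic on the lattice reducing to zero. -/
theorem gal_mulVec_connLat (hA : A.LiesOverPrime r) {σ : GQ}
    (hσ : σ ∈ A.inertiaSubgroupIn ℚ) {v : Fin D.d → ℤ_[r]} (hv : v ∈ D.connLat A) :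
    D.gal σ *ᵥ v = (chi r σ : ℤ_[r]) • v := by
  refine D.pm_ext fun m => ?_
  rw [← gal_smul_pm, D.inertia_smul_eq hA m hσ (D.pm_mem_eisTors m hv.1) (hv.2 m), pm_smul]

/-- Twice an Eisenstein point reducing to zero comes from the lattice reducing to zero. -/
theorem two_smul_mem_connTors (hA : A.LiesOverPrime r) (m : ℕ) {x : J} (hx : x ∈ D.eisTors m)
    (hxk : x ∈ D.ker A) : 2 • x ∈ D.connTors A m := by
  have hr : r.Prime := Fact.out
  obtain ⟨σ, hσ, hσinv⟩ := exists_inertia_inv hA hr m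
  haveI : NeZero (r ^ m) := ⟨pow_ne_zero _ hr.ne_zero⟩
  have hc : PadicInt.toZModPow m (chi r σ : ℤ_[r]) = ((r ^ m - 1 : ℕ) : ZMod (r ^ m)) :=
    toZModPow_chi_eq σ fun ζ hζ => by
      rw [hσinv ζ hζ]
      refine inv_eq_of_mul_eq_one_right ?_
      rw [← pow_succ', Nat.sub_add_cancel (Nat.one_le_pow _ _ hr.pos), hζ]
  have h1 : σ • x = -x := by
    rw [D.inertia_smul_eq hA m hσ hx hxk, hc, ZMod.val_natCast,
      Nat.mod_eq_of_lt (Nat.sub_lt (Nat.one_le_pow _ _ hr.pos) one_pos), eq_neg_iff_add_eq_zero,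
      ← succ_nsmul, Nat.sub_add_cancel (Nat.one_le_pow _ _ hr.pos), D.pow_smul_eisTors hx]
  obtain ⟨v, hv, rfl⟩ := hx
  refine ⟨-(D.gal σ *ᵥ v - v), neg_mem (D.inertia_sub_mem_connLat A hr D.ne hA hσ hv), ?_⟩
  rw [map_neg, map_sub, ← gal_smul_pm, h1, two_nsmul]
  abel

/-- The square of a Frobenius minus one is injective modulo the lattice reducing to zero. -/
theorem mem_connLat_of_sq {q : ℕ} (hq : q.Prime) (hqp : q ≠ p) (hA : A.LiesOverPrime q) {F : GQ}
    (hF : A.IsFrobeniusAt F q) {v : Fin D.d → ℤ_[r]} (hv : v ∈ D.eisLat)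
    (h : D.gal F *ᵥ (D.gal F *ᵥ v) - v ∈ D.connLat A) : v ∈ D.connLat A := by
  obtain ⟨δ, hδ, hδ'⟩ := D.exists_bound q hq hqp A hA
  refine D.connLat_saturated A (δ : ℤ_[r]) v (by exact_mod_cast hδ)
    ⟨D.eisLat.smul_mem _ hv, fun m => ?_⟩
  rw [Nat.cast_smul_eq_nsmul, map_nsmul]
  refine hδ' F hF _ ?_
  rw [gal_smul_pm, gal_smul_pm, ← map_sub]
  exact h.2 m

variable {Ap : ValuationSubring QBar}

/-- Semistability on the lattice. -/
theorem gal_sub_sq (hA : Ap.LiesOverPrime p) {σ : GQ} (hσ : σ ∈ Ap.inertiaSubgroupIn ℚ) :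
    (D.gal σ - 1) * (D.gal σ - 1) = 0 := by
  refine Matrix.ext_of_mulVec_single fun j => D.pm_ext fun m => ?_
  rw [zero_mulVec, map_zero, ← mulVec_mulVec, sub_mulVec, sub_mulVec, one_mulVec, one_mulVec,
    map_sub, ← gal_smul_pm, map_sub, ← gal_smul_pm]
  exact D.semistable Ap hA σ hσ m _ (D.pow_smul_pm m _)

end EisensteinDatum

end Fermat.Agent.Mazur.Eisenstein
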