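import Fermat.Agent.Mazur.Eisenstein.Assembly
import Fermat.Agent.Mazur.Eisenstein.Inputs
import Fermat.Agent.Mazur.Eisenstein.Local

/-!
# Fixed torsion reducing to zero

`fixedTorsionProperty`: a Galois-fixed point of odd prime order cannot reduce to zero.
-/

set_option autoImplicit false
set_option linter.style.haveILetI false
set_option maxHeartbeats 1000000

noncomputable section

open ModularCurve
open Fermat.Agent.Arith
open scoped Pointwise

namespace Fermat.Agent.Mazur.Eisenstein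

/-- A Galois-fixed point of odd prime order cannot reduce to zero. -/
theorem fixedTorsionProperty {p : ℕ} [NeZero p] (hp : p.Prime) (hord : OrderProperty p) :
    FixedTorsionProperty p := by
  intro r hr hr2 hrp A hA x hx hrx hxk
  classical
  haveI := Fact.mk hr
  haveI : NeZero r := ⟨hr.ne_zero⟩
  obtain ⟨M, _, _, _, i, O, hinj, heq, hsurj, hcong⟩ :=
    hord r hr (fun h => hrp ((Nat.prime_dvd_prime_iff_eq hr hp).mp h)) A hA 1
  obtain ⟨x₀, rfl⟩ := hsurj x (by rwa [pow_one])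
  have hfix : ∀ g : GQ, g • x₀ = x₀ := fun g => hinj (by rw [heq, hx g])
  have hr0 : r • x₀ = 0 := hinj (by rw [map_nsmul, map_zero, hrx])
  set S₀ := AddSubgroup.zmultiples x₀ with hS₀
  have hfixS : ∀ g : GQ, ∀ y ∈ S₀, g • y = y := by
    intro g y hy
    obtain ⟨n, rfl⟩ := AddSubgroup.mem_zmultiples_iff.mp hy
    rw [← DistribMulAction.toAddMonoidHom_apply M g, map_zsmul,
      DistribMulAction.toAddMonoidHom_apply, hfix]
  have hstab : ∀ g : A.inertiaSubgroupIn ℚ, ∀ y ∈ S₀, g • y ∈ S₀ := fun g y hy => by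
    rw [Subgroup.smul_def, hfixS _ y hy]; exact hy
  have hadm : letI := subAction S₀ hstab
      IsAdmissible S₀ r ((cyc r).comp (A.inertiaSubgroupIn ℚ).subtype) := by
    letI := subAction S₀ hstab
    refine ⟨fun b => ⟨1, Subtype.ext ?_⟩, fun g b => ⟨1, ?_⟩⟩
    · obtain ⟨n, hn⟩ := AddSubgroup.mem_zmultiples_iff.mp b.2
      rw [pow_one, AddSubgroup.coe_nsmul, ← hn, smul_comm, hr0, smul_zero, AddSubgroup.coe_zero]
    · have hgb : g • b = b := Subtype.ext (hfixS g b b.2)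
      simp only [Function.iterate_one, pieceOp, AddMonoidHom.coe_mk, ZeroHom.coe_mk, hgb]
      abel
  have hcongS : ∀ f ∈ O.H, ∀ y ∈ S₀, f y - f 0 ∈ A.nonunits := by
    intro f hf y hy
    obtain ⟨n, rfl⟩ := AddSubgroup.mem_zmultiples_iff.mp hy
    refine hcong f hf _ (reductionModL_eq_zero_of_mem ?_)
    rw [map_zsmul]
    exact zsmul_mem hxk n
  obtain ⟨σ, hσ, hσinv⟩ := exists_inertia_inv hA hr 1
  set e := Monoid.exponent (Multiplicative M) with he
  haveI : NeZero e := ⟨Monoid.exponent_ne_zero_of_finite⟩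
  haveI : NeZero (e * r) := ⟨mul_ne_zero (NeZero.ne e) hr.ne_zero⟩
  set c : ℕ := (cyc (e * r) σ : ZMod (e * r)).val with hc
  have hroot : ∀ ζ : QBar, ζ ^ (e * r) = 1 → σ ζ = ζ ^ c := fun ζ hζ => cyc_spec σ hζ
  have h1 := inertia_smul_of_congruent hA hr O _ S₀ hstab hadm hcongS hσ (c := c)
    (fun ζ hζ => hroot ζ (by rw [pow_mul, hζ, one_pow])) (x := x₀)
    (AddSubgroup.mem_zmultiples x₀)
  rw [hfix] at h1
  obtain ⟨ζ, hζ⟩ := HasEnoughRootsOfUnity.exists_primitiveRoot QBar r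
  have h2 : ζ ^ (c + 1) = 1 := by
    rw [pow_succ, ← hroot ζ (by rw [mul_comm, pow_mul, hζ.pow_eq_one, one_pow]),
      hσinv ζ (by rw [pow_one, hζ.pow_eq_one]), inv_mul_cancel₀ (hζ.ne_zero hr.ne_zero)]
  have h3 : (c + 1) • x₀ = 0 := by
    obtain ⟨k, hk⟩ := hζ.dvd_of_pow_eq_one _ h2
    rw [hk, mul_smul, smul_comm, hr0, smul_zero]
  rw [succ_nsmul, ← h1, ← two_nsmul] at h3
  rw [eq_zero_of_coprime_nsmul ((Nat.coprime_primes Nat.prime_two hr).mpr hr2.symm) h3 hr0,
    map_zero]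

end Fermat.Agent.Mazur.Eisenstein

end
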