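import Fermat.Agent.EichlerShimura.InjectiveProof
import Fermat.Agent.Mazur.Eisenstein.Consequences
import Fermat.Agent.Mazur.Eisenstein.FixedTorsion

/-!
# The three-place lemma, given the inputs of the Eisenstein descent
-/

set_option autoImplicit false

noncomputable section

namespace Fermat.Agent.Mazur.Eisenstein

variable
  (hdesc : ∀ (p : ℕ) [NeZero p], p.Prime → p ∉ ({2, 3, 5, 7, 13} : Finset ℕ) → DescentProperty p)
  (hord : ∀ (p : ℕ) [NeZero p], p.Prime → p ∉ ({2, 3, 5, 7, 13} : Finset ℕ) → OrderProperty p)

include hdesc hord in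
/-- The three-place lemma from the descent and the orders at `r`. -/
theorem threePlaceLemma_of_order : Large.ThreePlaceLemma :=
  threePlaceLemma (fun p _ _ => EichlerShimura.injectiveOnTorsion_all p) hdesc
    fun p _ hp hp' => fixedTorsionProperty hp (hord p hp hp')

end Fermat.Agent.Mazur.Eisenstein

end
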