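import Fermat.Agent.FiniteFlat.JTorsion
import Fermat.Agent.Mazur.Eisenstein.Inputs

/-!
# Galois orders on the torsion of `J₀(N)`, as an input of the descent
-/

set_option autoImplicit false
set_option linter.style.haveILetI false

noncomputable section

open ModularCurve
open Fermat.Agent.Arith

namespace Fermat.Agent.Mazur.Eisenstein

/-- The order input of the Eisenstein descent holds. -/
theorem orderProperty (N : ℕ) [NeZero N] : OrderProperty N := by
  intro r hr hrN A hA m
  haveI := Arith.residueField_isAlgClosed A
  obtain ⟨O, hO⟩ := FiniteFlat.exists_galOrder_jTor (k := m) hA hr hrN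
  refine ⟨FiniteFlat.JTor N r m, inferInstance, inferInstance, FiniteFlat.finite_jTor N r m hr,
    FiniteFlat.jTorIncl N r m, O, FiniteFlat.jTorIncl_injective N r m,
    FiniteFlat.jTorIncl_smul N r m, fun x hx => ?_, fun f hf x hx => hO f hf x 0 ?_⟩
  · obtain ⟨y, hy⟩ := FiniteFlat.exists_jTorIncl_eq N r m (y := x) (by rwa [natCast_zsmul])
    exact ⟨y, hy⟩
  · rw [hx, map_zero, map_zero]

end Fermat.Agent.Mazur.Eisenstein

end
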