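import Fermat.Agent.Mazur.Eisenstein.PropertyDescent
import Fermat.Agent.Mazur.Eisenstein.Irreducible
import Fermat.Agent.Mazur.Eisenstein.Orders

/-!
# Mazur's theorem for the Frey curve
-/

set_option autoImplicit false

noncomputable section

namespace Fermat.Agent.Mazur.Eisenstein

/-- The descent holds at every prime `p ≥ 5`. -/
theorem descentProperty_all (p : ℕ) [NeZero p] (hp : p.Prime)
    (hp' : p ∉ ({2, 3, 5, 7, 13} : Finset ℕ)) : DescentProperty p := by
  have := Fact.mk hp
  intro r hr
  exact descentProperty (five_le_of_not_mem hp hp') hr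

/-- Mazur's three-place lemma. -/
theorem threePlaceLemma_holds : Large.ThreePlaceLemma :=
  threePlaceLemma_of_order descentProperty_all fun p _ _ _ => orderProperty p

end Fermat.Agent.Mazur.Eisenstein

end
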