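import Fermat.Agent.GaloisReps.HeckeGalois
import Fermat.Agent.GaloisReps.KummerHecke
import Fermat.Agent.GaloisReps.LatticeHecke
import Fermat.Agent.MordellWeil.Main
import Fermat.Prelude.Def_ModularCurve_HeckeModule

/-!
# Commutation of the Hecke operators on `J₀(N)`

A class fixed over a number field and divisible by every integer among such classes is zero.
Hence the Hecke operators commute at prime level (`heckeOperatorsCommuteBar`).
-/

set_option autoImplicit false
set_option linter.style.haveILetI false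
set_option linter.unusedSectionVars false

noncomputable section

open AlgebraicCurve Fermat.Agent.FF

namespace Fermat.Agent.Mazur.Eisenstein

open Fermat.Agent.MordellWeil Fermat.Agent.MordellWeil.Coords

variable {F : Type*} [Field F] [Algebra MordellWeil.Qb F] [IsFunctionField MordellWeil.Qb F]

local notation "Qb" => MordellWeil.Qb

theorem finite_vectors_over (L : IntermediateField ℚ Qb) [FiniteDimensional ℚ L] {σ' : Type*}
    [Fintype σ'] (l₀ : σ') (B : ℝ) :
    {q : σ' → Qb | q l₀ = 1 ∧ (∀ l, q l ∈ L) ∧ habs q ≤ B}.Finite := by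
  classical
  haveI := numberField_of_finite L
  have hfin : {a : L | Height.logHeight₁ a ≤ B * Module.finrank ℚ L}.Finite :=
    NumberField.finite_setOfPred_logHeight₁_le L _
  refine ((Set.Finite.pi' fun _ : σ' => hfin).image fun (g : σ' → L) l => (g l : Qb)).subset ?_
  rintro q ⟨h1, hq, hB⟩
  refine ⟨fun l => ⟨q l, hq l⟩, fun l => ?_, rfl⟩
  have hmem : ∀ i, (![q l, 1] : Fin 2 → Qb) i ∈ L := by
    intro i; fin_cases i
    · exact hq l
    · exact one_mem L
  have e := habs_comp_le (![l, l₀] : Fin 2 → σ') q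
  rw [show q ∘ (![l, l₀] : Fin 2 → σ') = ![q l, 1] by
    funext i; fin_cases i <;> simp [h1], habs_eq _ L hmem, fieldHeight,
    show (fun i => (⟨![q l, 1] i, hmem i⟩ : L)) = ![⟨q l, hq l⟩, 1] by
      funext i; fin_cases i <;> rfl, ← Height.logHeight₁_eq_logHeight] at e
  have hpos : (0 : ℝ) < Module.finrank ℚ L := by exact_mod_cast Module.finrank_pos
  rw [div_le_iff₀ hpos] at e
  exact le_trans e (by nlinarith)

/-- Northcott over a number field. -/
theorem finite_fixed_over {X : Coords F} (A : X.GalAct) (L : IntermediateField ℚ Qb)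
    [FiniteDimensional ℚ L] (B : ℝ) :
    {y : Pic0 Qb F | (∀ σ : Qb ≃ₐ[ℚ] Qb, (∀ q ∈ L, σ q = q) → A.act σ • y = y) ∧
      X.hgt y ≤ B}.Finite := by
  classical
  haveI : IsAlgClosure ℚ Qb := ⟨inferInstance, inferInstance⟩
  haveI : Normal ℚ Qb := IsAlgClosure.normal ℚ Qb
  haveI : IsGalois ℚ Qb := {}
  obtain ⟨C, hC⟩ := X.exists_habs_classPhi_le
  let Q : Set ((Fin X.kk → Fin (X.d (lev F))) → Qb) :=
    ⋃ l₀, {q | q l₀ = 1 ∧ (∀ l, q l ∈ L) ∧ habs q ≤ B + C}
  have hQ : Q.Finite := Set.finite_iUnion fun l₀ => finite_vectors_over L l₀ _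
  refine (hQ.biUnion fun v _ => X.finite_phi_fibre v).subset ?_
  rintro y ⟨hfix, hB⟩
  obtain ⟨hp, hy⟩ := (X.exists_pair_a0 y).choose_spec
  obtain ⟨l₀, hl₀⟩ := Function.ne_iff.mp (X.classPhi_ne_zero y)
  set v := X.classPhi y
  set q := (v l₀)⁻¹ • v
  refine Set.mem_biUnion (x := q) (Set.mem_iUnion.mpr ⟨l₀, ?_, fun l => ?_, ?_⟩)
    ⟨_, _, _, hp, hy, v l₀, hl₀, ?_⟩
  · simp only [q, Pi.smul_apply, smul_eq_mul]
    exact inv_mul_cancel₀ hl₀
  · rw [← InfiniteGalois.fixedField_fixingSubgroup L]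
    rintro ⟨σ, hσ⟩
    obtain ⟨c, hc, e⟩ := A.phi_act σ hp
    obtain ⟨c', hc', e'⟩ := X.phi_congr hp (A.act_pair σ hp) (by
      rw [← A.smul_cls σ hp.deg, hy, hfix σ ((IntermediateField.mem_fixingSubgroup_iff _ _).mp hσ)])
    rw [e', smul_smul] at e
    have key : ∀ j, σ (v j) = c * c' * v j := fun j => congrFun e j
    show σ (q l) = q l
    simp only [q, Pi.smul_apply, smul_eq_mul, map_mul, map_inv₀, key]
    have h0 : v l₀ ≠ 0 := hl₀
    field_simp
  · rw [show habs q = habs v from habs_smul v (inv_ne_zero hl₀)]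
    linarith [hC y]
  · change v = _
    rw [smul_inv_smul₀ hl₀]

/-- A class fixed over a number field and divisible by every integer among such classes is `0`. -/
theorem eq_zero_of_divisible {X : Coords F} (A : X.GalAct) (L : IntermediateField ℚ Qb)
    [FiniteDimensional ℚ L] (S : AddSubgroup (Pic0 Qb F))
    (hS : ∀ y ∈ S, ∀ σ : Qb ≃ₐ[ℚ] Qb, (∀ q ∈ L, σ q = q) → A.act σ • y = y)
    {x : Pic0 Qb F} (h : ∀ m : ℕ, 0 < m → ∃ z ∈ S, m • z = x) : x = 0 := by
  classical
  obtain ⟨P, hP⟩ := X.hgt_parallelogram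
  have h4 : ∀ y, X.hgt y ≤ (X.hgt (2 • y) + |P| + |X.hgt 0|) / 4 := fun y => by
    have e := abs_le.mp (hP y y)
    rw [sub_self, ← two_nsmul] at e
    have := le_abs_self P; have := neg_abs_le (X.hgt 0); have := le_abs_self (X.hgt 0)
    linarith [e.1, e.2]
  set c : ℝ := |P| + |X.hgt 0| with hc
  have hc0 : 0 ≤ c := by positivity
  -- torsion classes have bounded height
  have htor : ∀ y : Pic0 Qb F, IsOfFinAddOrder y → X.hgt y ≤ c / 3 := by
    intro y hy
    have hfin : (AddSubgroup.zmultiples y : Set (Pic0 Qb F)).Finite := hy.finite_zmultiples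
    obtain ⟨s, hs, hmax⟩ := hfin.toFinset.exists_max_image X.hgt ⟨y, by simp⟩
    have h1 := hmax y (by simp)
    have h2 := hmax (2 • s) (by
      rw [Set.Finite.mem_toFinset] at hs ⊢
      exact nsmul_mem hs 2)
    have := h4 s
    linarith
  obtain ⟨Lb, hLb⟩ := X.exists_hgt_ge
  set B := max (X.hgt x) (c / 3) with hB
  have hfinset : {y | y ∈ S ∧ X.hgt y ≤ B}.Finite :=
    (finite_fixed_over A L B).subset fun y hy => ⟨hS y hy.1, hy.2⟩
  -- halving keeps the height bounded
  have hhalf : ∀ (k : ℕ) (y : Pic0 Qb F), X.hgt (2 ^ k • y) ≤ B → X.hgt y ≤ B := by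
    intro k
    induction k with
    | zero => intro y hy; simpa using hy
    | succ k ih =>
      intro y hy
      have h2 := ih (2 • y) (by rwa [← mul_smul, ← pow_succ])
      have := h4 y
      have := le_max_right (X.hgt x) (c / 3)
      linarith
  -- so `x` is torsion
  have hxtor : IsOfFinAddOrder x := by
    choose z hzS hzx using fun k : ℕ => h (2 ^ k) (pow_pos two_pos k)
    have hmem : ∀ k, z k ∈ {y | y ∈ S ∧ X.hgt y ≤ B} := fun k =>
      ⟨hzS k, hhalf k _ (by rw [hzx k]; exact le_max_left _ _)⟩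
    haveI := hfinset.to_subtype
    obtain ⟨i, j, hij, heq⟩ := Finite.exists_ne_map_eq_of_infinite
      fun k => (⟨z k, hmem k⟩ : {y | y ∈ S ∧ X.hgt y ≤ B})
    have he : z i = z j := congrArg Subtype.val heq
    wlog hlt : i < j generalizing i j
    · exact this j i hij.symm heq.symm he.symm (by omega)
    obtain ⟨d, rfl⟩ := Nat.exists_eq_add_of_lt hlt
    have e1 : 2 ^ (d + 1) • x = x := by
      conv_lhs => rw [← hzx i, ← mul_smul, ← pow_add, he, show d + 1 + i = i + d + 1 by omega, hzx]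
    refine isOfFinAddOrder_iff_nsmul_eq_zero.mpr ⟨2 ^ (d + 1) - 1, ?_, ?_⟩
    · have : 2 ≤ 2 ^ (d + 1) := by
        rw [pow_succ']; exact Nat.le_mul_of_pos_right 2 (pow_pos two_pos d)
      omega
    · have h2 : (2 ^ (d + 1) - 1) • x + x = x := by
        rw [← succ_nsmul, Nat.sub_add_cancel (Nat.one_le_two_pow), e1]
      exact add_eq_right.mp h2
  -- and a multiple of a class killed by a fixed integer
  set M := ∏ y ∈ hfinset.toFinset.filter (fun y => IsOfFinAddOrder y), addOrderOf y with hM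
  have hM0 : 0 < M := Finset.prod_pos fun y hy => (Finset.mem_filter.mp hy).2.addOrderOf_pos
  obtain ⟨z, hzS, hzx⟩ := h M hM0
  have hztor : IsOfFinAddOrder z := by
    obtain ⟨n, hn, hnx⟩ := isOfFinAddOrder_iff_nsmul_eq_zero.mp hxtor
    exact isOfFinAddOrder_iff_nsmul_eq_zero.mpr
      ⟨n * M, Nat.mul_pos hn hM0, by rw [mul_smul, hzx, hnx]⟩
  have hzmem : z ∈ hfinset.toFinset.filter (fun y => IsOfFinAddOrder y) := by
    rw [Finset.mem_filter, Set.Finite.mem_toFinset]
    exact ⟨⟨hzS, (htor z hztor).trans (le_max_right _ _)⟩, hztor⟩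
  obtain ⟨u, hu⟩ := Finset.dvd_prod_of_mem addOrderOf hzmem
  rw [← hzx, hM, hu, mul_comm, mul_smul, addOrderOf_nsmul_eq_zero, smul_zero]

section Hecke

open ModularCurve CongruenceSubgroup ModularCurve.Period Fermat.Agent.JacTorsion
  Fermat.Agent.GaloisReps

variable (N : ℕ) [NeZero N]

theorem homOp_comm {B : Type} [CommRing B] {l l' : ℕ} (hl : l.Prime) (hl' : l'.Prime)
    {φ : Additive (Gamma0 N) →+ B} (hφ : φ ∈ Gamma0.ellParHoms (Gamma0 N) B)
    (h1 : homOp N B l hl φ ∈ Gamma0.ellParHoms (Gamma0 N) B)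
    (h2 : homOp N B l' hl' φ ∈ Gamma0.ellParHoms (Gamma0 N) B) :
    coord N B (homOp N B l hl (homOp N B l' hl' φ)) =
      coord N B (homOp N B l' hl' (homOp N B l hl φ)) := by
  rw [coord_homOp l hl h2, coord_homOp l' hl' hφ, coord_homOp l' hl' h1, coord_homOp l hl hφ,
    Matrix.mulVec_mulVec, Matrix.mulVec_mulVec, ← Matrix.map_mul, ← Matrix.map_mul,
    ← latticeMat_heckeOp l hl, ← latticeMat_heckeOp l' hl', ← map_mul, ← map_mul, mul_comm (HeckeDuality.heckeOp N 2 l hl)]

/-- The commutator of two Hecke operators kills the torsion. -/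
theorem commutator_torsion_eq_zero (l l' : Nat.Primes) (m : ℕ) [NeZero m] {x : JZero N}
    (hx : m • x = 0) :
    heckeOperatorBar N l (heckeOperatorBar N l' x) -
      heckeOperatorBar N l' (heckeOperatorBar N l x) = 0 := by
  obtain ⟨l, hl⟩ := l
  obtain ⟨l', hl'⟩ := l'
  have hmem : ∀ y : JZero N, m • y = 0 →
      y ∈ Pic0.torsion (AlgebraicClosure ℚ) (modularFunctionFieldBar N) m := fun y hy =>
    Pic0.mem_torsion.mpr (by rw [natCast_zsmul]; exact hy)
  have hT : ∀ (q : Nat.Primes) (y : JZero N), m • y = 0 → m • heckeOperatorBar N q y = 0 :=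
    fun q y hy => by rw [← map_nsmul, hy, map_zero]
  set x0 : Pic0.torsion (AlgebraicClosure ℚ) (modularFunctionFieldBar N) m := ⟨x, hmem x hx⟩
  set a : Pic0.torsion (AlgebraicClosure ℚ) (modularFunctionFieldBar N) m :=
    ⟨_, hmem _ (hT ⟨l', hl'⟩ x hx)⟩
  set b : Pic0.torsion (AlgebraicClosure ℚ) (modularFunctionFieldBar N) m :=
    ⟨_, hmem _ (hT ⟨l, hl⟩ x hx)⟩
  set a' : Pic0.torsion (AlgebraicClosure ℚ) (modularFunctionFieldBar N) m :=
    ⟨_, hmem _ (hT ⟨l, hl⟩ _ (hT ⟨l', hl'⟩ x hx))⟩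
  set b' : Pic0.torsion (AlgebraicClosure ℚ) (modularFunctionFieldBar N) m :=
    ⟨_, hmem _ (hT ⟨l', hl'⟩ _ (hT ⟨l, hl⟩ x hx))⟩
  set e := (torsionEquiv N m).trans (atkinEquiv N (ZMod m)) with he
  have ea : (e a).1 = homOp N (ZMod m) l' hl' (e x0).1 :=
    atkinHom_torsionEquiv_hecke l' hl' x0 a rfl
  have eb : (e b).1 = homOp N (ZMod m) l hl (e x0).1 := atkinHom_torsionEquiv_hecke l hl x0 b rfl
  have ea' : (e a').1 = homOp N (ZMod m) l hl (e a).1 := atkinHom_torsionEquiv_hecke l hl a a' rfl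
  have eb' : (e b').1 = homOp N (ZMod m) l' hl' (e b).1 :=
    atkinHom_torsionEquiv_hecke l' hl' b b' rfl
  have key : a' = b' := e.injective ((coord_bijective (N := N) (ZMod m)).1 (by
    show coord N (ZMod m) (e a').1 = coord N (ZMod m) (e b').1
    rw [ea', eb', ea, eb]
    exact homOp_comm N hl hl' (e x0).2 (eb ▸ (e b).2) (ea ▸ (e a).2)))
  exact sub_eq_zero.mpr (congrArg Subtype.val key)

/-- The Hecke operators on `J₀(N)` commute, for prime `N`. -/
theorem heckeOperatorsCommuteBar [Fact N.Prime] : HeckeOperatorsCommuteBar N := by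
  classical
  intro l l'
  refine LinearMap.ext fun x => ?_
  rw [Module.End.mul_apply, Module.End.mul_apply, ← sub_eq_zero]
  obtain ⟨L, hL, hfix⟩ := (x0GalAct N).exists_field_fix x
  let D : JZero N → JZero N := fun y => heckeOperatorBar N l (heckeOperatorBar N l' y) -
    heckeOperatorBar N l' (heckeOperatorBar N l y)
  have hDg : ∀ (σ : Arith.GQ) (y : JZero N), σ • D y = D (σ • y) := fun σ y => by
    simp only [D, smul_sub, galois_heckeOperatorBar]
  let S : AddSubgroup (JZero N) :=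
    { carrier := {y | ∀ σ : Arith.GQ, (∀ q ∈ L, σ q = q) → σ • y = y}
      add_mem' := fun ha hb σ hσ => by rw [smul_add, ha σ hσ, hb σ hσ]
      zero_mem' := fun σ _ => smul_zero σ
      neg_mem' := fun ha σ hσ => by rw [smul_neg, ha σ hσ] }
  refine eq_zero_of_divisible (x0GalAct N) L S (fun y hy σ hσ => hy σ hσ) fun m hm => ?_
  obtain ⟨z, hz⟩ := jZero_exists_nsmul_eq N m hm x
  refine ⟨D z, fun σ hσ => ?_, ?_⟩
  · haveI : NeZero m := ⟨hm.ne'⟩
    have htor : m • (σ • z - z) = 0 := by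
      rw [nsmul_sub, show m • σ • z = σ • (m • z) from
        (map_nsmul (DistribSMul.toAddMonoidHom (JZero N) σ) m z).symm, hz]
      exact sub_eq_zero.mpr (hfix σ hσ)
    have := commutator_torsion_eq_zero N l l' m htor
    rw [hDg, ← sub_eq_zero]
    simp only [D] at this ⊢
    simp only [map_sub] at this
    linear_combination (norm := abel) this
  · show m • (_ - _) = _
    rw [nsmul_sub, ← map_nsmul, ← map_nsmul, ← map_nsmul, ← map_nsmul, hz]

end Hecke

end Fermat.Agent.Mazur.Eisenstein
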