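import Mathlib.GroupTheory.PGroup
import Mathlib.Algebra.CharP.Lemmas
import Mathlib.Algebra.Module.Injective
import Mathlib.Algebra.Module.ZMod
import Mathlib.GroupTheory.GroupAction.Hom
import Fermat.Agent.Mazur.Eisenstein.DescentCore

/-!
# Admissible modules have stable lines

`exists_stable_line`: a finite nontrivial module on which every `(g - 1) (g - χ g)` is nilpotent
has a stable line with character one or `χ`.
-/

set_option autoImplicit false

noncomputable section

namespace Fermat.Agent.Mazur.Eisenstein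

universe u

variable {G : Type*} [Group G]

/-- The operator `(g - 1)(g - c)`. -/
def pieceOp (B : Type*) [AddCommGroup B] [DistribMulAction G B] (g : G) (c : ℤ) : B →+ B where
  toFun b := g • (g • b) - g • b - c • (g • b) + c • b
  map_zero' := by simp
  map_add' a b := by simp only [smul_add]; abel

/-- Admissibility: `(g - 1)(g - χ g)` is nilpotent on `B` and `B` is killed by a power of `r`. -/
structure IsAdmissible (B : Type*) [AddCommGroup B] [DistribMulAction G B] (r : ℕ)
    (χ : G →* (ZMod r)ˣ) : Prop where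
  rPow : ∀ b : B, ∃ k : ℕ, r ^ k • b = 0
  nilp : ∀ (g : G) (b : B), ∃ n : ℕ, (⇑(pieceOp B g ((χ g : ZMod r).val : ℤ)))^[n] b = 0

theorem pieceOp_map {A B : Type*} [AddCommGroup A] [DistribMulAction G A] [AddCommGroup B]
    [DistribMulAction G B] (f : A →+ B) (hf : ∀ (g : G) a, f (g • a) = g • f a) (g : G) (c : ℤ)
    (n : ℕ) (a : A) : f ((⇑(pieceOp A g c))^[n] a) = (⇑(pieceOp B g c))^[n] (f a) :=
  Function.Semiconj.iterate_right (f := f) (fun x => by simp [pieceOp, hf]) n a

theorem IsAdmissible.of_injective {A B : Type*} [AddCommGroup A] [DistribMulAction G A]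
    [AddCommGroup B] [DistribMulAction G B] {r : ℕ} {χ : G →* (ZMod r)ˣ} (h : IsAdmissible B r χ)
    (f : A →+ B) (hinj : Function.Injective f) (hf : ∀ (g : G) a, f (g • a) = g • f a) :
    IsAdmissible A r χ where
  rPow a := (h.rPow (f a)).imp fun k hk => hinj (by rw [map_nsmul, hk, map_zero])
  nilp g a := (h.nilp g (f a)).imp fun n hn => hinj (by rw [pieceOp_map f hf, hn, map_zero])

theorem IsAdmissible.of_surjective {B C : Type*} [AddCommGroup B] [DistribMulAction G B]
    [AddCommGroup C] [DistribMulAction G C] {r : ℕ} {χ : G →* (ZMod r)ˣ} (h : IsAdmissible B r χ)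
    (f : B →+ C) (hsurj : Function.Surjective f) (hf : ∀ (g : G) b, f (g • b) = g • f b) :
    IsAdmissible C r χ where
  rPow c := by
    obtain ⟨b, rfl⟩ := hsurj c
    exact (h.rPow b).imp fun k hk => by rw [← map_nsmul, hk, map_zero]
  nilp g c := by
    obtain ⟨b, rfl⟩ := hsurj c
    exact (h.nilp g b).imp fun n hn => by rw [← pieceOp_map f hf, hn, map_zero]

/-- A minimal stable subgroup. -/
theorem exists_minimal_stable (B : Type*) [AddCommGroup B] [DistribMulAction G B] [Finite B]
    (S : AddSubgroup B) (hS : S ≠ ⊥) (hstab : ∀ (g : G), ∀ b ∈ S, g • b ∈ S) :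
    ∃ V : AddSubgroup B, V ≤ S ∧ V ≠ ⊥ ∧ (∀ (g : G), ∀ b ∈ V, g • b ∈ V) ∧
      ∀ W : AddSubgroup B, W ≤ V → W ≠ ⊥ → (∀ (g : G), ∀ b ∈ W, g • b ∈ W) → W = V := by
  obtain ⟨V, ⟨h1, h2, h3⟩, hmin⟩ := exists_minimal_of_wellFoundedLT
    (fun V : AddSubgroup B => V ≤ S ∧ V ≠ ⊥ ∧ ∀ (g : G), ∀ b ∈ V, g • b ∈ V) ⟨S, le_rfl, hS, hstab⟩
  exact ⟨V, h1, h2, h3, fun W hW hW0 hWs =>
    le_antisymm hW (hmin ⟨hW.trans h1, hW0, hWs⟩ hW)⟩

/-- A stable line. -/
theorem exists_stable_line {r : ℕ} [Fact r.Prime] (χ : G →* (ZMod r)ˣ) (B : Type*)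
    [AddCommGroup B] [DistribMulAction G B] [Finite B] [Nontrivial B]
    (hB : IsAdmissible B r χ) :
    ∃ A : AddSubgroup B, Nat.card A = r ∧ (∀ (g : G), ∀ a ∈ A, g • a ∈ A) ∧
      ((∀ (g : G), ∀ a ∈ A, g • a = a) ∨ ∀ (g : G), ∀ a ∈ A, g • a = (χ g : ZMod r).val • a) := by
  classical
  have hr : r.Prime := Fact.out
  set T : AddSubgroup B := (nsmulAddMonoidHom r : B →+ B).ker with hT
  have hTmem : ∀ b, b ∈ T ↔ r • b = 0 := fun b => AddMonoidHom.mem_ker
  have hT0 : T ≠ ⊥ := by
    obtain ⟨b, hb⟩ := exists_ne (0 : B)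
    have hex := hB.rPow b
    have hk := Nat.find_spec hex
    cases hcase : Nat.find hex with
    | zero => rw [hcase, pow_zero, one_smul] at hk; exact absurd hk hb
    | succ k =>
      have hne : r ^ k • b ≠ 0 := fun h0 => by
        have := Nat.find_min' hex h0
        omega
      rw [hcase, pow_succ', mul_smul] at hk
      exact fun hbot => hne ((AddSubgroup.eq_bot_iff_forall T).mp hbot _ ((hTmem _).mpr hk))
  obtain ⟨V, hVT, hV0, hVs, hVmin⟩ := exists_minimal_stable (G := G) B T hT0
    (fun g b hb => by rw [hTmem] at hb ⊢; rw [smul_comm, hb, smul_zero])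
  have hrV : ∀ v ∈ V, r • v = 0 := fun v hv => (hTmem v).mp (hVT hv)
  have hmod : ∀ (v : B), v ∈ V → ∀ {m n : ℕ}, (m : ZMod r) = n → m • v = n • v := by
    intro v hv m n hmn
    rw [ZMod.natCast_eq_natCast_iff'] at hmn
    rw [← Nat.mod_add_div m r, ← Nat.mod_add_div n r, add_smul, add_smul, mul_comm r, mul_comm r,
      mul_smul, mul_smul, hrV v hv, smul_zero, smul_zero, hmn]
  -- endomorphisms of `V`
  let : DistribMulAction G V :=
    { smul := fun g v => ⟨g • (v : B), hVs g v v.2⟩
      one_smul := fun v => Subtype.ext (one_smul G (v : B))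
      mul_smul := fun g h v => Subtype.ext (mul_smul g h (v : B))
      smul_zero := fun g => Subtype.ext (smul_zero g)
      smul_add := fun g v w => Subtype.ext (smul_add g (v : B) w) }
  have hVne : ∃ v₀ : V, v₀ ≠ 0 := by
    obtain ⟨b, hb, hb0⟩ := (AddSubgroup.bot_or_exists_ne_zero V).resolve_left hV0
    exact ⟨⟨b, hb⟩, fun h => hb0 (congrArg Subtype.val h)⟩
  have : Nontrivial V := let ⟨v₀, h⟩ := hVne; ⟨⟨v₀, 0, h⟩⟩
  have hend : ∀ (m : ℕ) (v : V), ((m : AddMonoid.End V) v) = m • v := fun m v => rfl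
  have hchar : CharP (AddMonoid.End V) r := by
    refine ⟨fun n => ⟨fun h => ?_, fun ⟨m, hm⟩ => ?_⟩⟩
    · obtain ⟨v₀, hv₀⟩ := hVne
      have h1 : n • v₀ = 0 := by rw [← hend, h]; rfl
      have h2 : addOrderOf v₀ = r := addOrderOf_eq_prime (Subtype.ext (hrV _ v₀.2)) hv₀
      exact h2 ▸ addOrderOf_dvd_of_nsmul_eq_zero h1
    · ext v
      show ((((n : ℕ) : AddMonoid.End V) v : V) : B) = ((0 : V) : B)
      rw [hend, hm, mul_comm, mul_smul]
      show m • (r • (v : B)) = 0
      rw [hrV _ v.2, smul_zero]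
  set ρ : G →* AddMonoid.End V := DistribMulAction.toAddMonoidEnd G V with hρ
  set X : G → AddMonoid.End V := fun g => ρ g - 1 with hX
  set Y : G → AddMonoid.End V := fun g => ρ g - ((χ g : ZMod r).val : AddMonoid.End V) with hY
  have hop : ∀ g, (X g * Y g : AddMonoid.End V) = pieceOp V g ((χ g : ZMod r).val : ℤ) := by
    intro g
    refine DFunLike.ext _ _ fun v => ?_
    show g • (g • v - (χ g : ZMod r).val • v) - (g • v - (χ g : ZMod r).val • v)
      = g • (g • v) - g • v - (((χ g : ZMod r).val : ℕ) : ℤ) • (g • v)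
        + (((χ g : ZMod r).val : ℕ) : ℤ) • v
    rw [smul_sub, natCast_zsmul, natCast_zsmul, smul_comm g ((χ g : ZMod r).val) v]
    abel
  have hnil : ∀ g, ∀ v : V, ∃ n : ℕ, ((X g * Y g) ^ n : AddMonoid.End V) v = 0 := by
    intro g v
    obtain ⟨n, hn⟩ := (hB.of_injective V.subtype Subtype.val_injective (fun _ _ => rfl)).nilp g v
    refine ⟨n, ?_⟩
    rw [AddMonoid.End.coe_pow,
      show (⇑(X g * Y g) : V → V) = ⇑(pieceOp V g ((χ g : ZMod r).val : ℤ)) from
        congrArg (fun f : V →+ V => (⇑f : V → V)) (hop g)]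
    exact hn
  -- elements with trivial character act with `r`-power order
  have hpgroup : ∀ g, χ g = 1 → ∃ k : ℕ, ρ g ^ r ^ k = 1 := by
    intro g hg
    have hxy : Y g = X g := by simp [hX, hY, hg]
    have : ∀ v : V, ∃ k : ℕ, ((X g) ^ r ^ k : AddMonoid.End V) v = 0 := by
      intro v
      obtain ⟨n, hn⟩ := hnil g v
      refine ⟨2 * n, ?_⟩
      have hle : 2 * n ≤ r ^ (2 * n) := (Nat.lt_pow_self hr.one_lt).le
      rw [hxy, ← sq, ← pow_mul] at hn
      rw [← Nat.sub_add_cancel hle, pow_add]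
      show ((X g) ^ (r ^ (2 * n) - 2 * n)) (((X g) ^ (2 * n)) v) = 0
      rw [hn, map_zero]
    choose k hk using this
    have : Fintype V := Fintype.ofFinite V
    refine ⟨Finset.univ.sup k, ?_⟩
    rw [← sub_eq_zero]
    have hcomm : Commute (ρ g) 1 := Commute.one_right _
    have h2 := sub_pow_char_pow_of_commute (p := r) (Finset.univ.sup k) hcomm
    rw [one_pow] at h2
    rw [← h2]
    refine DFunLike.ext _ _ fun v => ?_
    have hle : r ^ k v ≤ r ^ Finset.univ.sup k :=
      Nat.pow_le_pow_right hr.pos (Finset.le_sup (Finset.mem_univ v))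
    show ((X g) ^ r ^ Finset.univ.sup k) v = (0 : AddMonoid.End V) v
    rw [← Nat.sub_add_cancel hle, pow_add]
    show ((X g) ^ (r ^ Finset.univ.sup k - r ^ k v)) (((X g) ^ r ^ k v) v) = 0
    rw [hk v, map_zero]
  -- hence the kernel of `χ` acts trivially
  have htriv : ∀ g, χ g = 1 → ∀ v : V, g • v = v := by
    set P := χ.ker.map (MulAction.toPermHom G V) with hP
    have hPp : IsPGroup r P := by
      rintro ⟨_, g, hg, rfl⟩
      obtain ⟨k, hk⟩ := hpgroup g (MonoidHom.mem_ker.mp hg)
      refine ⟨k, Subtype.ext (Equiv.ext fun v => ?_)⟩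
      have h3 := congrArg (fun f : AddMonoid.End V => f v) hk
      rw [← map_pow] at h3
      rw [SubmonoidClass.coe_pow, ← map_pow]
      exact h3
    have hfix := hPp.card_modEq_card_fixedPoints V
    have hdvd : r ∣ Nat.card V := by
      obtain ⟨v₀, hv₀⟩ := hVne
      have : addOrderOf v₀ = r :=
        addOrderOf_eq_prime (Subtype.ext (hrV _ v₀.2)) hv₀
      exact this ▸ addOrderOf_dvd_natCard v₀
    have hdvd' : r ∣ Nat.card (MulAction.fixedPoints P V) :=
      (Nat.ModEq.dvd_iff hfix dvd_rfl).mp hdvd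
    obtain ⟨w, hw, hw0⟩ : ∃ w ∈ MulAction.fixedPoints P V, w ≠ (0 : V) := by
      by_contra hcon
      push Not at hcon
      have h0 : (0 : V) ∈ MulAction.fixedPoints P V := by
        rintro ⟨_, g, -, rfl⟩; exact smul_zero g
      have : MulAction.fixedPoints P V = {(0 : V)} :=
        Set.eq_singleton_iff_unique_mem.mpr ⟨h0, hcon⟩
      rw [this, Nat.card_coe_set_eq, Set.ncard_singleton] at hdvd'
      exact hr.ne_one (Nat.dvd_one.mp hdvd')
    let W : AddSubgroup B :=
      { carrier := {b | b ∈ V ∧ ∀ g, χ g = 1 → g • b = b}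
        zero_mem' := ⟨zero_mem _, fun g _ => smul_zero g⟩
        add_mem' := fun ha hb =>
          ⟨add_mem ha.1 hb.1, fun g hg => by rw [smul_add, ha.2 g hg, hb.2 g hg]⟩
        neg_mem' := fun ha => ⟨neg_mem ha.1, fun g hg => by rw [smul_neg, ha.2 g hg]⟩ }
    have hW : W = V := hVmin W (fun b hb => hb.1) (fun hbot => hw0 (Subtype.ext
      ((AddSubgroup.eq_bot_iff_forall W).mp hbot _
        ⟨w.2, fun g hg => congrArg Subtype.val (hw ⟨_, ⟨g, hg, rfl⟩⟩)⟩)))
      (fun h b hb => ⟨hVs h b hb.1, fun g hg => by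
        have h1 : χ (h⁻¹ * g * h) = 1 := by
          rw [map_mul, map_mul, hg, mul_one, map_inv, inv_mul_cancel]
        have h2 := congrArg (h • ·) (hb.2 _ h1)
        simpa [mul_smul, smul_inv_smul] using h2⟩)
    intro g hg v
    exact Subtype.ext ((hW.ge v.2).2 g hg)
  have hcomm : ∀ (g h : G) (v : V), g • h • v = h • g • v := by
    intro g h v
    have hc : χ ((h * g)⁻¹ * (g * h)) = 1 := by
      rw [map_mul, map_inv, map_mul, map_mul, mul_comm (χ h) (χ g), inv_mul_cancel]
    have := congrArg ((h * g) • ·) (htriv _ hc v)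
    simpa only [← mul_smul, mul_inv_cancel_left] using this
  -- every element acts as `1` or as `χ`
  have hscal : ∀ g, (∀ v : V, g • v = v) ∨ ∀ v : V, g • v = (χ g : ZMod r).val • v := by
    intro g
    have key : ∀ f : AddMonoid.End V, (∀ (h : G) v, f (h • v) = h • f v) →
        (∃ v, v ≠ 0 ∧ f v = 0) → ∀ v, f v = 0 := by
      intro f hf ⟨v, hv, hv0⟩
      let W : AddSubgroup B := (AddMonoidHom.ker f).map V.subtype
      have hW : W = V := hVmin W (by rintro _ ⟨x, -, rfl⟩; exact x.2)
        (fun hbot => hv (Subtype.ext ((AddSubgroup.eq_bot_iff_forall W).mp hbot _ ⟨v, hv0, rfl⟩)))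
        (by
          rintro h _ ⟨x, hx, rfl⟩
          refine ⟨h • x, ?_, rfl⟩
          show f (h • x) = 0
          rw [hf, show f x = 0 from hx, smul_zero])
      intro x
      obtain ⟨y, hy, hyx⟩ := (hW.ge x.2)
      rw [← Subtype.val_injective hyx]; exact hy
    by_cases hXz : ∃ v, v ≠ 0 ∧ X g v = 0
    · left
      intro v
      have := key (X g) (fun h v => by
        show g • h • v - h • v = h • (g • v - v)
        rw [smul_sub, hcomm]) hXz v
      exact sub_eq_zero.mp this
    · right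
      intro v
      by_cases hYz : ∃ v, v ≠ 0 ∧ Y g v = 0
      · have := key (Y g) (fun h v => by
          show g • h • v - (χ g : ZMod r).val • (h • v) = h • (g • v - (χ g : ZMod r).val • v)
          rw [smul_sub, hcomm]; congr 1; exact (smul_comm _ _ _)) hYz v
        exact sub_eq_zero.mp this
      · exfalso
        push Not at hXz hYz
        obtain ⟨v₀, hv₀⟩ := hVne
        obtain ⟨n, hn⟩ := hnil g v₀
        have : ∀ n : ℕ, ((X g * Y g) ^ n) v₀ ≠ 0 := by
          intro n
          induction n with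
          | zero => exact hv₀
          | succ n ih => rw [pow_succ']; exact fun h => hXz _ (hYz _ ih) h
        exact this n hn
  have hglobal : (∀ (g : G) (v : V), g • v = v) ∨
      ∀ (g : G) (v : V), g • v = (χ g : ZMod r).val • v := by
    by_contra hcon
    push Not at hcon
    obtain ⟨⟨g, v, hgv⟩, ⟨h, w, hhw⟩⟩ := hcon
    have hg : ∀ v : V, g • v = (χ g : ZMod r).val • v :=
      (hscal g).resolve_left fun h1 => hgv (h1 v)
    have hh : ∀ v : V, h • v = v := (hscal h).resolve_right fun h1 => hhw (h1 w)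
    rcases hscal (g * h) with h1 | h1
    · exact hgv (by simpa [mul_smul, hh v] using h1 v)
    · apply hhw
      rw [hh w]
      have h2 : g • (h • w) = (χ (g * h) : ZMod r).val • w := by rw [← mul_smul]; exact h1 w
      rw [hh w, hg w] at h2
      have hcancel : (χ g : ZMod r).val • w = (χ g : ZMod r).val • ((χ h : ZMod r).val • w) := by
        rw [h2, ← mul_smul]
        refine Subtype.ext (hmod _ w.2 ?_)
        simp
      have hinj : ∀ u u' : V, (χ g : ZMod r).val • u = (χ g : ZMod r).val • u' → u = u' := by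
        intro u u' hu
        have h3 := congrArg ((((χ g)⁻¹ : (ZMod r)ˣ) : ZMod r).val • ·) hu
        have h4 : ∀ x : V, (((χ g)⁻¹ : (ZMod r)ˣ) : ZMod r).val • (χ g : ZMod r).val • x = x := by
          intro x
          rw [← mul_smul]
          conv_rhs => rw [← one_smul ℕ x]
          refine Subtype.ext (hmod _ x.2 ?_)
          simp
        simpa only [h4] using h3
      exact hinj _ _ hcancel
  obtain ⟨v₀, hv₀⟩ := hVne
  have hb0 : (v₀ : B) ≠ 0 := fun h => hv₀ (Subtype.ext h)
  have hstab : ∀ g : G, g • (v₀ : B) ∈ AddSubgroup.zmultiples (v₀ : B) := fun g => by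
    rcases hglobal with h | h
    · have h1 := congrArg Subtype.val (h g v₀)
      exact (congrArg (· ∈ AddSubgroup.zmultiples (v₀ : B)) (show g • (v₀ : B) = v₀ from h1)).mpr
        (AddSubgroup.mem_zmultiples _)
    · have h1 := congrArg Subtype.val (h g v₀)
      exact (show g • (v₀ : B) = (χ g : ZMod r).val • (v₀ : B) from h1) ▸
        AddSubgroup.nsmul_mem_zmultiples _ _
  refine ⟨AddSubgroup.zmultiples (v₀ : B), ?_, ?_, ?_⟩
  · rw [Nat.card_zmultiples, addOrderOf_eq_prime (hrV _ v₀.2) hb0]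
  · rintro g _ ⟨n, rfl⟩
    show g • (n • (v₀ : B)) ∈ _
    rw [smul_comm]; exact zsmul_mem (hstab g) n
  · refine hglobal.imp (fun h => ?_) (fun h => ?_) <;> rintro g _ ⟨n, rfl⟩ <;>
      show g • (n • (v₀ : B)) = _
    · rw [smul_comm g, show g • (v₀ : B) = v₀ from congrArg Subtype.val (h g v₀)]
    · rw [smul_comm g, show g • (v₀ : B) = (χ g : ZMod r).val • (v₀ : B) from
        congrArg Subtype.val (h g v₀), smul_comm]

end Fermat.Agent.Mazur.Eisenstein
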