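import Fermat.Agent.GaloisReps.LatticeHecke
import Fermat.Agent.Newforms.Semisimple
import Fermat.Agent.Newforms.Newform
import Fermat.Agent.Patching.SmallLevel
import Mathlib.FieldTheory.Perfect
import Mathlib.LinearAlgebra.Eigenspace.Pi
import Mathlib.LinearAlgebra.Eigenspace.Semisimple

/-!
# The Hecke algebra at prime level

At prime level the Hecke algebra is reduced (`isReduced_fullHecke`) and the lattice is spanned by
joint eigenvectors over an algebraically closed field (`span_eigenspace`).
-/

set_option autoImplicit false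

noncomputable section

open CongruenceSubgroup ModularFormClass Polynomial

namespace Fermat.Agent.Mazur.Eisenstein

variable {p : ℕ} [NeZero p]

/-- A normalised eigenform is an eigenvector of the whole Hecke algebra. -/
theorem exists_eigenvalue {g : CuspForm (Gamma0 p) 2} (hg : g.IsNormalizedEigenform)
    (t : GaloisReps.FullHecke p) : ∃ c : ℂ, t.1 g = c • g := by
  obtain ⟨t, ht⟩ := t
  induction ht using Algebra.adjoin_induction with
  | mem x hx =>
    rcases hx with ⟨ℓ, hℓ, hℓN, -, rfl⟩ | ⟨q, hqN, hq, -, rfl⟩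
    · exact ⟨_, Newforms.hOp_eq_heckeTLin hℓ hℓN ▸ Newforms.hOp_of_isNormalizedEigenform hg hℓ⟩
    · exact ⟨_, Newforms.hOp_eq_heckeULin hq hqN ▸ Newforms.hOp_of_isNormalizedEigenform hg hq⟩
  | algebraMap z =>
    exact ⟨(z : ℂ), by
      simp only [eq_intCast, Module.End.intCast_apply]
      rw [Int.cast_smul_eq_zsmul]⟩
  | add a b _ _ iha ihb =>
    obtain ⟨c, hc⟩ := iha
    obtain ⟨d, hd⟩ := ihb
    exact ⟨c + d, by simp only [LinearMap.add_apply, hc, hd, add_smul]⟩
  | mul a b _ _ iha ihb =>
    obtain ⟨c, hc⟩ := iha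
    obtain ⟨d, hd⟩ := ihb
    exact ⟨d * c, by simp only [Module.End.mul_apply, hd, map_smul, hc, mul_smul]⟩

/-- At prime level the forms are spanned by eigenvectors of the whole Hecke algebra. -/
theorem span_eigenforms_eq_top (hp : p.Prime) :
    Submodule.span ℂ {g : CuspForm (Gamma0 p) 2 |
      ∀ t : GaloisReps.FullHecke p, ∃ c : ℂ, t.1 g = c • g} = ⊤ := by
  classical
  rw [eq_top_iff, ← Newforms.span_eigenvectors_eq_top, Submodule.span_le]
  intro f hf
  rcases eq_or_ne f 0 with rfl | hf0
  · exact zero_mem _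
  choose lam hlam using hf
  set L : ℕ → ℂ := fun ℓ => if h : ℓ.Prime ∧ ¬ ℓ ∣ p then lam ℓ h.1 h.2 else 0 with hL
  have hLf : ∀ ℓ (hℓ : ℓ.Prime), ¬ ℓ ∣ p → Newforms.hOp p hℓ f = L ℓ • f := fun ℓ hℓ hℓp => by
    rw [hL]
    simp only [dif_pos (⟨hℓ, hℓp⟩ : ℓ.Prime ∧ ¬ ℓ ∣ p)]
    exact hlam ℓ hℓ hℓp
  obtain ⟨g, hg, hgL⟩ := Newforms.exists_eigenform_of_eigen hf0 (fun ℓ => ¬ ℓ ∣ p) L hLf
  obtain ⟨M, h, hM, hh, hhg⟩ := Newforms.exists_newform hg
  rcases hp.eq_one_or_self_of_dvd M hM with hM1 | hM1
  · subst hM1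
    exfalso
    have h1 := hh.1.qCoeff_one
    rw [Patching.cuspForm_weight_two_eq_zero 1 (by norm_num) h] at h1
    exact zero_ne_one (((Newforms.coeffLin (N := 1) (k := 2) 1).map_zero).symm.trans h1)
  · subst hM1
    have e := Newforms.eq_smul_of_eigen hh (f := f) fun ℓ hℓ hℓM => by
      rw [hLf ℓ hℓ hℓM, hhg ℓ hℓ hℓM, hgL ℓ hℓ hℓM]
    rw [e]
    exact Submodule.smul_mem _ _ (Submodule.subset_span fun t => exists_eigenvalue hh.1 t)

/-- The Hecke algebra of prime level is reduced. -/
theorem isReduced_fullHecke (hp : p.Prime) : IsReduced (GaloisReps.FullHecke p) := by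
  refine ⟨fun t ⟨n, hn⟩ => Subtype.ext (LinearMap.ext_on (span_eigenforms_eq_top hp) ?_)⟩
  intro g hg
  obtain ⟨c, hc⟩ := hg t
  have hpow : ∀ k : ℕ, (t.1 ^ k) g = c ^ k • g := fun k => by
    induction k with
    | zero => simp
    | succ k ih => rw [pow_succ', Module.End.mul_apply, ih, map_smul, hc, pow_succ, mul_smul]
  have h0 : c ^ n • g = 0 := by
    rw [← hpow n]
    show ((t.1) ^ n) g = 0
    rw [← SubmonoidClass.coe_pow, hn]
    rfl
  rcases smul_eq_zero.mp h0 with h | h
  · rw [hc, eq_zero_of_pow_eq_zero h, zero_smul]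
    rfl
  · rw [h, map_zero, map_zero]

section Lattice

variable {R : Type*} [CommRing R] [IsReduced R] {d : ℕ}
  {h : R →+* Matrix (Fin d) (Fin d) ℤ}

/-- The rational minimal polynomials of a reduced ring of integral matrices are squarefree. -/
theorem squarefree_minpoly_matIn (hinj : Function.Injective h) (a : R) :
    Squarefree (minpoly ℚ (GaloisReps.matIn h ℚ a)) := by
  set M := GaloisReps.matIn h ℚ a with hM
  have hP0 : minpoly ℚ M ≠ 0 := minpoly.ne_zero (IsIntegral.of_finite ℚ M)
  have hnil : ∀ w : ℚ[X], aeval M w ^ 2 = 0 → aeval M w = 0 := by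
    intro w hw
    obtain ⟨c, hc, hcw⟩ :=
      IsLocalization.integerNormalization_spec (nonZeroDivisors ℤ) w
    set W := IsLocalization.integerNormalization (nonZeroDivisors ℤ) w
    have hc0 : (c : ℚ) ≠ 0 := by exact_mod_cast nonZeroDivisors.ne_zero hc
    have hW : W.map (algebraMap ℤ ℚ) = (c : ℚ) • w := by
      rw [hcw, Int.cast_smul_eq_zsmul]
    have he : GaloisReps.matIn h ℚ (aeval a W) = (c : ℚ) • aeval M w := by
      rw [show GaloisReps.matIn h ℚ (aeval a W) = (GaloisReps.matIn h ℚ).toIntAlgHom (aeval a W)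
        from rfl, ← aeval_algHom_apply, ← map_smul, ← hW, aeval_map_algebraMap]
      rfl
    have hinjQ : Function.Injective (GaloisReps.matIn h ℚ) := fun x y hxy => hinj
      (Matrix.map_injective Int.cast_injective hxy)
    have h2 : aeval a W ^ 2 = 0 := hinjQ (by
      rw [map_pow, he, _root_.smul_pow, hw, smul_zero, map_zero])
    rw [eq_zero_of_pow_eq_zero h2, map_zero] at he
    exact (smul_eq_zero.mp he.symm).resolve_left hc0
  intro u ⟨v, hv⟩
  have hu : u * v ≠ 0 := fun h0 => hP0 (by rw [hv, mul_assoc, h0, mul_zero])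
  have h2 : aeval M (u * v) ^ 2 = 0 := by
    rw [← map_pow, show (u * v) ^ 2 = minpoly ℚ M * v by rw [hv]; ring, map_mul, minpoly.aeval,
      zero_mul]
  obtain ⟨z, hz⟩ := minpoly.dvd ℚ M (hnil _ h2)
  refine IsUnit.of_mul_eq_one z (mul_left_cancel₀ hu ?_)
  rw [mul_one]
  conv_rhs => rw [hz, hv]
  ring

variable (K : Type) [Field K] [CharZero K]

theorem isSemisimple_matIn (hinj : Function.Injective h) (a : R) :
    Module.End.IsSemisimple (GaloisReps.matIn h K a).mulVecLin := by
  set P := minpoly ℚ (GaloisReps.matIn h ℚ a) with hP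
  have hsep : P.Separable :=
    PerfectField.separable_iff_squarefree.mpr (squarefree_minpoly_matIn hinj a)
  refine Module.End.isSemisimple_of_squarefree_aeval_eq_zero
    (p := P.map (algebraMap ℚ K)) (hsep.map).squarefree ?_
  have h1 : aeval (GaloisReps.matIn h K a) P = 0 := by
    have e : GaloisReps.matIn h K a =
        (Algebra.ofId ℚ K).mapMatrix (GaloisReps.matIn h ℚ a) := by
      ext i j
      simp
    rw [e, aeval_algHom_apply, hP, minpoly.aeval, map_zero]
  rw [aeval_map_algebraMap]
  have e2 : (GaloisReps.matIn h K a).mulVecLin =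
      ((Matrix.toLinAlgEquiv' (R := K) (n := Fin d)).toAlgHom.restrictScalars ℚ)
        (GaloisReps.matIn h K a) := by
    ext v
    simp [Matrix.toLinAlgEquiv'_apply]
  rw [e2, aeval_algHom_apply, h1, map_zero]

variable [IsAlgClosed K]

/-- Joint eigenvectors of a reduced ring of integral matrices span. -/
theorem iSup_eigenspace_eq_top (hinj : Function.Injective h) :
    ⨆ θ : R →+* K, GaloisReps.eigenspace h θ = ⊤ := by
  classical
  set F : R → Module.End K (Fin d → K) := fun a => (GaloisReps.matIn h K a).mulVecLin with hF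
  have hFmul : ∀ a b, F (a * b) = F a * F b := fun a b => by
    rw [hF]
    simp only [map_mul, Matrix.mulVecLin_mul]
    rfl
  have hcomm : Pairwise fun a b => Commute (F a) (F b) := fun a b _ => by
    show F a * F b = F b * F a
    rw [← hFmul, ← hFmul, mul_comm]
  have htop := Module.End.iSup_iInf_maxGenEigenspace_eq_top_of_iSup_maxGenEigenspace_eq_top_of_commute
    F hcomm fun a => Module.End.iSup_maxGenEigenspace_eq_top _
  rw [eq_top_iff, ← htop, iSup_le_iff]
  intro χ v hv
  rcases eq_or_ne v 0 with rfl | hv0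
  · exact zero_mem _
  have he : ∀ a, F a v = χ a • v := fun a => by
    have hva := Submodule.mem_iInf _ |>.mp hv a
    rw [(isSemisimple_matIn K hinj a).isFinitelySemisimple.maxGenEigenspace_eq_eigenspace,
      Module.End.mem_eigenspace_iff] at hva
    exact hva
  have hinjv : ∀ x y : K, x • v = y • v → x = y := fun x y hxy => smul_left_injective K hv0 hxy
  let θ : R →+* K :=
    { toFun := χ
      map_one' := hinjv _ _ (by rw [← he, hF]; simp)
      map_mul' := fun a b => hinjv _ _ (by
        rw [← he, hFmul, Module.End.mul_apply, he b, map_smul, he a, ← mul_smul, mul_comm])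
      map_zero' := hinjv _ _ (by rw [← he, hF]; simp)
      map_add' := fun a b => hinjv _ _ (by
        rw [← he, add_smul, ← he, ← he, hF]
        simp only [map_add, LinearMap.add_apply]) }
  exact Submodule.mem_iSup_of_mem θ ((GaloisReps.mem_eigenspace h θ v).mpr he)

end Lattice

/-- At prime level the lattice is spanned by joint eigenvectors. -/
theorem span_eigenspace (hp : p.Prime) (K : Type) [Field K] [CharZero K] [IsAlgClosed K] :
    (⨆ θ : GaloisReps.FullHecke p →+* K,
      GaloisReps.eigenspace (GaloisReps.latticeMat p) θ) = ⊤ := by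
  have := isReduced_fullHecke hp
  exact iSup_eigenspace_eq_top K GaloisReps.latticeMat_injective

end Fermat.Agent.Mazur.Eisenstein

end
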