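import Fermat.Agent.Mazur.Eisenstein.EigenDet

/-!
# A basis adapted to the planes of the Hecke eigensystems over an algebraic closure of `ℚ_r`
-/

set_option autoImplicit false
set_option linter.unusedSectionVars false
set_option linter.style.haveILetI false
set_option maxHeartbeats 1000000

noncomputable section

open Module Matrix
open Fermat.Agent.GaloisReps

namespace Fermat.Agent.Mazur.Eisenstein

section Indep

variable {R : Type*} [CommRing R] {K : Type*} [Field K] {d : ℕ}
  (h : R →+* Matrix (Fin d) (Fin d) ℤ)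

/-- Eigenvectors of distinct characters are independent. -/
theorem eq_zero_of_sum_eigenvectors (s : Finset (R →+* K)) :
    ∀ w : (R →+* K) → (Fin d → K), (∀ θ ∈ s, w θ ∈ eigenspace h θ) → ∑ θ ∈ s, w θ = 0 →
      ∀ θ ∈ s, w θ = 0 := by
  classical
  induction s using Finset.induction with
  | empty => exact fun _ _ _ θ hθ => absurd hθ (Finset.notMem_empty θ)
  | insert θ₀ s hnot ih =>
    intro w hw hsum
    have hzero : ∀ θ ∈ s, w θ = 0 := by
      intro θ hθ
      have hne : θ ≠ θ₀ := fun e => hnot (e ▸ hθ)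
      obtain ⟨a, ha⟩ := not_forall.mp fun hall => hne (RingHom.ext hall)
      have h1 : ∑ φ ∈ s, (φ a - θ₀ a) • w φ = 0 := by
        have e : (matIn h K a) *ᵥ (∑ φ ∈ insert θ₀ s, w φ) -
            θ₀ a • (∑ φ ∈ insert θ₀ s, w φ) = 0 := by
          rw [hsum, mulVec_zero, smul_zero, sub_zero]
        rw [mulVec_sum, Finset.smul_sum, ← Finset.sum_sub_distrib,
          Finset.sum_congr rfl (fun φ hφ => by
            rw [(mem_eigenspace h φ _).mp (hw φ hφ) a, ← sub_smul]),
          Finset.sum_insert hnot, sub_self, zero_smul, zero_add] at e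
        exact e
      exact (smul_eq_zero.mp (ih _ (fun φ hφ => Submodule.smul_mem _ _
        (hw φ (Finset.mem_insert_of_mem hφ))) h1 θ hθ)).resolve_left (sub_ne_zero.mpr ha)
    intro θ hθ
    rcases Finset.mem_insert.mp hθ with rfl | hθ'
    · rwa [Finset.sum_insert hnot, Finset.sum_eq_zero hzero, add_zero] at hsum
    · exact hzero θ hθ'

end Indep

variable {N r : ℕ} [NeZero N] [Fact r.Prime] (D : HeckeGaloisModel N r)

/-- A basis adapted to the planes of the eigensystems, with determinants the cyclotomic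
character. -/
theorem exists_planeBasis
    (hspan : ⨆ θ : FullHecke N →+* Kr r, eigenspace D.hecke θ = ⊤) :
    ∃ (n : ℕ) (theta : Fin n → (FullHecke N →+* Kr r)), Function.Injective theta ∧
      ∃ b : Basis (Fin n × Fin 2) (Kr r) (Fin D.d → Kr r),
        (∀ (t : FullHecke N) (x : Fin n × Fin 2),
          matIn D.hecke (Kr r) t *ᵥ b x = theta x.1 t • b x) ∧
        ∀ (g : AbsGal) (i : Fin n), ∃ G : Matrix (Fin 2) (Fin 2) (Kr r),
          (∀ j, (D.gal g).map (toK r) *ᵥ b (i, j) = ∑ k, G k j • b (i, k)) ∧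
            G.det = toK r (chi r g) := by
  classical
  choose v hv hmem hgal using exists_plane D
  let u : (FullHecke N →+* Kr r) × Fin 2 → (Fin D.d → Kr r) := fun x => v x.1 x.2
  have hli : LinearIndependent (Kr r) u := by
    rw [linearIndependent_iff']
    intro t g hg x hx
    set g' : (FullHecke N →+* Kr r) × Fin 2 → Kr r := fun y => if y ∈ t then g y else 0
    set w : (FullHecke N →+* Kr r) → (Fin D.d → Kr r) := fun θ => ∑ j, g' (θ, j) • v θ j
    set s := t.image Prod.fst
    have hsum : ∑ θ ∈ s, w θ = 0 := by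
      rw [← hg]
      show ∑ θ ∈ s, ∑ j, g' (θ, j) • u (θ, j) = _
      rw [← Finset.sum_product' (f := fun θ j => g' (θ, j) • u (θ, j))]
      refine (Finset.sum_subset (fun y hy => Finset.mem_product.mpr
        ⟨Finset.mem_image_of_mem _ hy, Finset.mem_univ _⟩) (fun y _ hy => ?_)).symm.trans
        (Finset.sum_congr rfl fun y hy => ?_)
      · simp [g', hy]
      · simp [g', hy]
    have hw0 := eq_zero_of_sum_eigenvectors D.hecke s w
      (fun θ _ => Submodule.sum_mem _ fun j _ => Submodule.smul_mem _ _ (hmem θ j)) hsum x.1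
      (Finset.mem_image_of_mem _ hx)
    have := Fintype.linearIndependent_iff.mp (hv x.1) (fun j => g' (x.1, j)) hw0 x.2
    simpa [g', hx] using this
  have hfin : Finite ((FullHecke N →+* Kr r) × Fin 2) := hli.finite
  haveI : Finite (FullHecke N →+* Kr r) := Finite.of_surjective _ (Prod.fst_surjective (β := Fin 2))
  haveI := Fintype.ofFinite (FullHecke N →+* Kr r)
  set n := Fintype.card (FullHecke N →+* Kr r)
  let e : Fin n ≃ (FullHecke N →+* Kr r) := (Fintype.equivFin _).symm
  have hli' : LinearIndependent (Kr r) (fun x : Fin n × Fin 2 => v (e x.1) x.2) :=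
    hli.comp (fun x : Fin n × Fin 2 => (e x.1, x.2)) (fun x y hxy => by
      simp only [Prod.mk.injEq] at hxy
      exact Prod.ext (e.injective hxy.1) hxy.2)
  have hsp : ⊤ ≤ Submodule.span (Kr r) (Set.range fun x : Fin n × Fin 2 => v (e x.1) x.2) := by
    rw [← hspan, iSup_le_iff]
    intro θ
    have hle : Submodule.span (Kr r) (Set.range (v θ)) = eigenspace D.hecke θ := by
      refine Submodule.eq_of_le_of_finrank_le (Submodule.span_le.mpr ?_) ?_
      · rintro _ ⟨j, rfl⟩; exact hmem θ j
      · rw [D.finrank_eigenspace, finrank_span_eq_card (hv θ), Fintype.card_fin]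
    rw [← hle]
    refine Submodule.span_mono ?_
    rintro _ ⟨j, rfl⟩
    exact ⟨(e.symm θ, j), by simp⟩
  refine ⟨n, e, e.injective, Basis.mk hli' hsp, fun t x => ?_, fun g i => ?_⟩
  · rw [Basis.mk_apply]
    exact (mem_eigenspace D.hecke _ _).mp (hmem _ _) t
  · obtain ⟨G, hG, hdet⟩ := hgal (e i) g
    exact ⟨G, fun j => by simp only [Basis.mk_apply]; exact hG j, hdet⟩

end Fermat.Agent.Mazur.Eisenstein

end
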