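import Fermat.Agent.GaloisReps.OfInjective
import Fermat.Agent.Mazur.Eisenstein.Datum
import Fermat.Agent.Mazur.Eisenstein.HeckeCommute

/-!
# The `r`-power torsion of `J₀(N)` in coordinates
-/

set_option autoImplicit false
set_option linter.unusedSectionVars false
set_option linter.style.haveILetI false
set_option maxHeartbeats 1000000
set_option synthInstance.maxHeartbeats 400000

noncomputable section

open AlgebraicCurve ModularCurve Matrix CongruenceSubgroup
open Fermat.Agent.GaloisReps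
open scoped Pointwise

namespace Fermat.Agent.Mazur.Eisenstein

variable (N r : ℕ) [NeZero N] [Fact r.Prime]

/-- The Hecke algebra of correspondences onto the Hecke algebra of forms. -/
def toFullHecke : HeckeAlg →+* FullHecke N :=
  MvPolynomial.eval₂Hom (Int.castRingHom _) fun q : Nat.Primes =>
    HeckeDuality.heckeOp N 2 q.1 q.2

theorem toFullHecke_heckeGen (q : Nat.Primes) :
    toFullHecke N (heckeGen q) = HeckeDuality.heckeOp N 2 q.1 q.2 :=
  MvPolynomial.eval₂_X _ _ q

theorem fullHecke_hom_ext {R : Type} [CommRing R] {φ ψ : FullHecke N →+* R}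
    (h : φ.comp (toFullHecke N) = ψ.comp (toFullHecke N)) : φ = ψ := by
  have hgen : ∀ (ℓ : ℕ) (hℓ : ℓ.Prime),
      φ (HeckeDuality.heckeOp N 2 ℓ hℓ) = ψ (HeckeDuality.heckeOp N 2 ℓ hℓ) := fun ℓ hℓ => by
    rw [← toFullHecke_heckeGen N ⟨ℓ, hℓ⟩]
    exact RingHom.congr_fun h _
  refine RingHom.ext fun t => ?_
  obtain ⟨x, hx⟩ := t
  revert hx
  refine fun hx => Algebra.adjoin_induction (p := fun y hy => φ ⟨y, hy⟩ = ψ ⟨y, hy⟩) ?_ ?_ ?_ ?_ hx
  · rintro y (⟨ℓ, hℓ, hℓN, -, rfl⟩ | ⟨q, hqN, hq, -, rfl⟩)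
    · have := hgen ℓ hℓ
      rwa [HeckeDuality.heckeOp, dif_neg hℓN] at this
    · have := hgen q hq
      rwa [HeckeDuality.heckeOp, dif_pos hqN] at this
  · intro a
    show φ (algebraMap ℤ (FullHecke N) a) = ψ (algebraMap ℤ (FullHecke N) a)
    rw [eq_intCast, map_intCast, map_intCast]
  · intro a b ha hb h1 h2
    show φ (⟨a, ha⟩ + ⟨b, hb⟩) = ψ (⟨a, ha⟩ + ⟨b, hb⟩)
    rw [map_add, map_add, h1, h2]
  · intro a b ha hb h1 h2
    show φ (⟨a, ha⟩ * ⟨b, hb⟩) = ψ (⟨a, ha⟩ * ⟨b, hb⟩)
    rw [map_mul, map_mul, h1, h2]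

/-- The Hecke action on the lattice. -/
def heckeMat : HeckeAlg →+*
    Matrix (Fin (2 * Gamma0.genus N)) (Fin (2 * Gamma0.genus N)) ℤ :=
  (latticeMat N).comp (toFullHecke N)

/-- The identifications of the `r`-power torsion. -/
def torsE : TorsionIso N r := torsionIso N r (conjProperty N)

/-- The torsion points with given coordinates. -/
def torsPt (m : ℕ) : (Fin (2 * Gamma0.genus N) → ZMod (r ^ m)) →+ JZero N :=
  (JTors N r m).subtype.comp ((torsE N r).psi m).symm.toAddMonoidHom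

theorem torsPt_psi (m : ℕ) (x : JTors N r m) :
    torsPt N r m ((torsE N r).psi m x) = (x : JZero N) :=
  congrArg Subtype.val (AddEquiv.symm_apply_apply _ x)

theorem torsPt_injective (m : ℕ) : Function.Injective (torsPt N r m) :=
  Subtype.val_injective.comp ((torsE N r).psi m).symm.injective

theorem exists_torsPt_eq {m : ℕ} {x : JZero N} (hx : r ^ m • x = 0) :
    ∃ v, torsPt N r m v = x :=
  ⟨_, torsPt_psi N r m ⟨x, Pic0.mem_torsion.mpr (by rw [natCast_zsmul]; exact hx)⟩⟩

theorem torsPt_compat (m : ℕ) (v : Fin (2 * Gamma0.genus N) → ℤ_[r]) :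
    r • torsPt N r (m + 1) (redVec r _ (m + 1) v) = torsPt N r m (redVec r _ m v) := by
  obtain ⟨x, hx⟩ := ((torsE N r).psi (m + 1)).surjective (redVec r _ (m + 1) v)
  rw [← hx, torsPt_psi]
  have hmem : r • (x : JZero N) ∈ JTors N r m := by
    rw [Pic0.mem_torsion, natCast_zsmul, ← mul_nsmul', ← pow_succ]
    have := Pic0.mem_torsion.mp x.2
    rwa [natCast_zsmul] at this
  have key : (torsE N r).psi m ⟨_, hmem⟩ = redVec r _ m v := by
    rw [TorsionIso.psi_apply, (torsE N r).compat m x ⟨_, hmem⟩ rfl]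
    funext i
    have hi := congrFun hx i
    rw [TorsionIso.psi_apply] at hi
    show (ZMod.castHom (pow_dvd_pow r m.le_succ) (ZMod (r ^ m)))
      ((coord N (ZMod (r ^ (m + 1))))
        ((torsE N r).e (m + 1) x : Additive (Gamma0 N) →+ ZMod (r ^ (m + 1))) i) = _
    rw [hi]
    exact RingHom.congr_fun (cast_castRingHom m) (v i)
  rw [← key, torsPt_psi]

theorem torsPt_gal (m : ℕ) (g : Fermat.Agent.Arith.GQ) (v : Fin (2 * Gamma0.genus N) → ℤ_[r]) :
    g • torsPt N r m (redVec r _ m v) =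
      torsPt N r m (redVec r _ m ((torsE N r).gal g *ᵥ v)) := by
  have h : redVec r _ m ((torsE N r).gal g *ᵥ v) =
      (torsE N r).galLvl m g *ᵥ redVec r _ m v := by
    rw [← TorsionIso.map_gal]
    exact funext fun i =>
      RingHom.map_mulVec (PadicInt.toZModPow m : ℤ_[r] →+* ZMod (r ^ m)) _ _ i
  obtain ⟨x, hx⟩ := ((torsE N r).psi m).surjective (redVec r _ m v)
  rw [h, ← hx, TorsionIso.galLvl_mulVec, torsPt_psi, torsPt_psi]
  rfl

variable {N}

theorem torsPt_heckeMat [Fact N.Prime] (m : ℕ) (t : HeckeAlg) :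
    letI := heckeModuleBar N
    ∀ w : Fin (2 * Gamma0.genus N) → ZMod (r ^ m),
      t • torsPt N r m w =
        torsPt N r m ((heckeMat N t).map (Int.castRingHom (ZMod (r ^ m))) *ᵥ w) := by
  letI := heckeModuleBar N
  induction t using MvPolynomial.induction_on with
  | C a =>
    intro w
    rw [heckeModuleBar_C_smul,
      show (MvPolynomial.C a : HeckeAlg) = (a : HeckeAlg) from eq_intCast MvPolynomial.C a,
      ← RingHom.mapMatrix_apply, map_intCast, map_intCast, ← map_zsmul]
    congr 1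
    rw [← zsmul_one, Matrix.smul_mulVec, Matrix.one_mulVec]
  | add f g hf hg =>
    intro w
    rw [add_smul, hf, hg, ← map_add, map_add (heckeMat N), Matrix.map_add _ (map_add _),
      Matrix.add_mulVec]
  | mul_X f q hf =>
    intro w
    rw [mul_smul, show (MvPolynomial.X q : HeckeAlg) = heckeGen q from rfl,
      heckeModuleBar_heckeGen_smul (heckeOperatorsCommuteBar N)]
    obtain ⟨x, rfl⟩ := ((torsE N r).psi m).surjective w
    rw [torsPt_psi]
    have e : heckeOperatorBar N q (x : JZero N) =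
        torsPt N r m ((torsE N r).psi m (heckeTors m q x)) :=
      (torsPt_psi N r m (heckeTors m q x)).symm
    rw [e, hf, map_mul (heckeMat N), Matrix.map_mul, ← Matrix.mulVec_mulVec]
    congr 2
    obtain ⟨ℓ, hℓ⟩ := q
    rw [← TorsionIso.mat_mulVec, TorsionIso.mat_heckeTors]
    rw [show heckeMat N (heckeGen ⟨ℓ, hℓ⟩) = opMat N ℓ hℓ from
      (congrArg (latticeMat N) (toFullHecke_heckeGen N ⟨ℓ, hℓ⟩)).trans (latticeMat_heckeOp ℓ hℓ)]

theorem torsPt_mat [Fact N.Prime] (m : ℕ) (t : HeckeAlg) (v : Fin (2 * Gamma0.genus N) → ℤ_[r]) :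
    (letI := heckeModuleBar N; t • torsPt N r m (redVec r _ m v)) =
      torsPt N r m (redVec r _ m (intMat r (heckeMat N t) *ᵥ v)) := by
  rw [torsPt_heckeMat]
  congr 1
  funext i
  show _ = (PadicInt.toZModPow m : ℤ_[r] →+* ZMod (r ^ m)) ((intMat r (heckeMat N t) *ᵥ v) i)
  rw [RingHom.map_mulVec]
  refine congrFun (congrArg₂ _ ?_ rfl) i
  ext a b
  simp [intMat]

variable {r}

theorem gal_heckeMat (hinj : EichlerShimura.InjectiveOnTorsion N) (g : Fermat.Agent.Arith.GQ)
    (t : HeckeAlg) :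
    (torsE N r).gal g * intMat r (heckeMat N t) = intMat r (heckeMat N t) * (torsE N r).gal g :=
  ((torsE N r).gal_commute (torsionGalois N r (congruenceProperty_of_injective hinj)) g
    (toFullHecke N t)).eq

end Fermat.Agent.Mazur.Eisenstein

end
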