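import Fermat.Agent.EichlerShimura.InjectiveProof
import Fermat.Agent.Mazur.Eisenstein.Assembly
import Fermat.Agent.Mazur.Eisenstein.Descent
import Fermat.Agent.Mazur.Eisenstein.Orders
import Fermat.Agent.Mazur.Eisenstein.PrimeLevel
import Fermat.Agent.Mazur.Eisenstein.PropertyPlanes
import Fermat.Agent.Mazur.Eisenstein.TorsionData
import Fermat.Agent.Semistable.Exact

/-!
# The Eisenstein descent on `J₀(p)`
-/

set_option autoImplicit false
set_option linter.unusedSectionVars false
set_option linter.style.haveILetI false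
set_option maxHeartbeats 1000000
set_option synthInstance.maxHeartbeats 400000

noncomputable section

open ModularCurve Matrix Module
open Fermat.Agent.Arith
open scoped Pointwise

namespace Fermat.Agent.Mazur.Eisenstein

variable {p r : ℕ}

/-- An integral lift of the eigencharacter with exact Eisenstein values away from `p` and `r`. -/
def eisLift (p r : ℕ) (ε : HeckeAlg →+* ℤ) : HeckeAlg →+* ℤ :=
  MvPolynomial.eval₂Hom (Int.castRingHom ℤ) fun q : Nat.Primes =>
    if (q : ℕ) ≠ p ∧ (q : ℕ) ≠ r then (1 : ℤ) + q else ε (heckeGen q)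

theorem eisLift_heckeGen (ε : HeckeAlg →+* ℤ) (q : Nat.Primes) :
    eisLift p r ε (heckeGen q) =
      if (q : ℕ) ≠ p ∧ (q : ℕ) ≠ r then (1 : ℤ) + q else ε (heckeGen q) :=
  MvPolynomial.eval₂_X _ _ q

variable [Fact p.Prime] [Fact r.Prime]

/-- On an Eisenstein point of order `r` the lift agrees with the eigencharacter modulo `r`. -/
theorem eisLift_congr {c : JZero p} {ε : HeckeAlg →+* ℤ} (hc : ∀ σ : GQ, σ • c = c)
    (hεc : ∀ t : HeckeAlg, (letI := heckeModuleBar p; t • c) = ε t • c)
    (hord : addOrderOf c = r) (t : HeckeAlg) :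
    (eisLift p r ε t : ZMod r) = (ε t : ZMod r) := by
  have hp : p.Prime := Fact.out
  have hr : r.Prime := Fact.out
  letI := heckeModuleBar p
  suffices h : (Int.castRingHom (ZMod r)).comp (eisLift p r ε) =
      (Int.castRingHom (ZMod r)).comp ε from RingHom.congr_fun h t
  refine MvPolynomial.ringHom_ext (fun a => ?_) fun q => ?_
  · rw [show (MvPolynomial.C a : HeckeAlg) = (a : HeckeAlg) from eq_intCast MvPolynomial.C a,
      map_intCast, map_intCast]
  · show (eisLift p r ε (heckeGen q) : ZMod r) = (ε (heckeGen q) : ZMod r)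
    rw [eisLift_heckeGen]
    split_ifs with hq
    swap
    · rfl
    obtain ⟨l, hl⟩ := q
    obtain ⟨A, hA⟩ := exists_liesOverPrime hl
    obtain ⟨σ, hσ⟩ := exists_isFrobeniusAt hA hl
    have hlp : ¬ l ∣ p := fun h => hq.1 ((Nat.prime_dvd_prime_iff_eq hl hp).mp h)
    have hlr : ¬ l ∣ r := fun h => hq.2 ((Nat.prime_dvd_prime_iff_eq hl hr).mp h)
    have h := EichlerShimura.frobenius_smul_torsion (EichlerShimura.injectiveOnTorsion_all p) hl
      hlp hA hσ hlr (x := c) (by rw [← hord]; exact addOrderOf_nsmul_eq_zero c)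
    rw [hc, hc] at h
    have e : heckeOperatorBar p ⟨l, hl⟩ c = ε (heckeGen ⟨l, hl⟩) • c :=
      (heckeModuleBar_heckeGen_smul (heckeOperatorsCommuteBar p) _ c).symm.trans (hεc _)
    rw [e, ← natCast_zsmul] at h
    have h2 : ((1 : ℤ) + l - ε (heckeGen ⟨l, hl⟩)) • c = 0 := by
      rw [sub_zsmul, add_zsmul, one_zsmul]
      linear_combination (norm := abel) h
    rw [← addOrderOf_dvd_iff_zsmul_eq_zero, hord, ← ZMod.intCast_zmod_eq_zero_iff_dvd,
      Int.cast_sub, sub_eq_zero] at h2
    exact h2

/-- The descent datum of a fixed Eisenstein point of order `r`. -/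
theorem exists_datum (hp5 : 5 ≤ p) (hrp : r ≠ p) {c : JZero p} {ε : HeckeAlg →+* ℤ}
    (hc : ∀ σ : GQ, σ • c = c)
    (hεc : ∀ t : HeckeAlg, (letI := heckeModuleBar p; t • c) = ε t • c)
    (hord : addOrderOf c = r) :
    letI := heckeModuleBar p
    ∃ D : EisensteinDatum p r (JZero p) HeckeAlg, D.eps = eisLift p r ε := by
  classical
  letI := heckeModuleBar p
  have hp : p.Prime := Fact.out
  have hr : r.Prime := Fact.out
  have hinj : EichlerShimura.InjectiveOnTorsion p := EichlerShimura.injectiveOnTorsion_all p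
  obtain ⟨n, theta, hθ, b, hmat, hgal⟩ := exists_planeBasis
    ((torsE p r).toModel (GaloisReps.torsionGalois p r
      (GaloisReps.congruenceProperty_of_injective (p := r) hinj)))
    (span_eigenspace hp (Kr r))
  have hrc : r ^ 1 • c = 0 := by rw [pow_one, ← hord]; exact addOrderOf_nsmul_eq_zero c
  obtain ⟨v', hv'⟩ := exists_torsPt_eq p r (m := 1) hrc
  have hv'mat : ∀ t : HeckeAlg,
      (heckeMat p t).map (Int.castRingHom (ZMod (r ^ 1))) *ᵥ v' = ε t • v' := fun t =>
    torsPt_injective p r 1 (by rw [map_zsmul, ← torsPt_heckeMat, hv', hεc])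
  set f : ZMod (r ^ 1) ≃+* ZMod r := ZMod.ringEquivCongr (pow_one r) with hf
  have hFunField : ∀ {A : ValuationSubring QBar} {q : ℕ}, A.LiesOverPrime q → q.Prime → q ≠ p →
      IsAlgClosed (EichlerShimura.Kappa A) ∧ (p : EichlerShimura.Kappa A) ≠ 0 :=
    fun {A q} hA hq hqp => ⟨haveI := Fact.mk hq; residueField_isAlgClosed A,
      EichlerShimura.natCast_ne_zero hq
        (fun h => hqp ((Nat.prime_dvd_prime_iff_eq hq hp).mp h)) hA⟩
  refine ⟨{
    prime := hp
    five_le := hp5
    ne := hrp
    smul_comm := fun g t x => galois_smul_hecke g t x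
    isOpen := fun x => ?_
    divisible := fun x => MordellWeil.jZero_exists_nsmul_eq p r hr.pos x
    d := 2 * Gamma0.genus p
    mat := heckeMat p
    gal := (torsE p r).gal
    gal_mat := fun g t => gal_heckeMat hinj g t
    ι := torsPt p r
    ι_injective := torsPt_injective p r
    exists_ι_eq := fun m x hx => exists_torsPt_eq p r hx
    ι_compat := torsPt_compat p r
    ι_mat := fun m t v => torsPt_mat r m t v
    ι_gal := fun m g v => torsPt_gal p r m g v
    ker := kerRed p
    inertia_sub_mem := fun q hq hqp A hA σ hσ x => ?_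
    eq_zero_of_mem := fun q hq hqp A hA m x hqm hmx hx =>
      eq_zero_of_mem_kerRed hinj hq (fun h => hqp ((Nat.prime_dvd_prime_iff_eq hq hp).mp h)) hA
        hqm hmx hx
    smul_mem := fun q hq hqp A hA σ hσ x hx => ?_
    hecke_mem := fun q _ _ A _ t x hx => hecke_mem_kerRed t hx
    exists_bound := fun q hq hqp A hA => ?_
    exists_order := fun A hA m => ?_
    semistable := fun A hA σ hσ m x hx =>
      Semistable.semistableProperty hp hp5 dvd_rfl (fun h => by
        have := Nat.le_of_dvd hp.pos h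
        nlinarith) A hA σ hσ (r ^ m) x
        (fun hd => hrp ((Nat.prime_dvd_prime_iff_eq hp hr).mp (hp.dvd_of_dvd_pow hd)).symm) hx
    eps := eisLift p r ε
    v₁ := fun i => f (v' i)
    v₁_ne := fun h => ?_
    mat_v₁ := fun t => ?_
    eps_frobenius := fun q hq hqp hqr A hA σ hσ => ?_
    n := n
    theta := fun i => (theta i).comp (toFullHecke p)
    theta_injective := fun i j h => hθ (fullHecke_hom_ext p h)
    planeBasis := b
    mat_planeBasis := fun t x => hmat (toFullHecke p t) x
    gal_planeBasis := hgal }, rfl⟩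
  · obtain ⟨L, hL, hfix⟩ := (MordellWeil.x0GalAct p).exists_field_fix x
    exact ⟨L.fixingSubgroup, L.fixingSubgroup_isOpen, fun h hh =>
      hfix h ((IntermediateField.mem_fixingSubgroup_iff _ _).mp hh)⟩
  · obtain ⟨_, hN⟩ := hFunField hA hq hqp
    exact inertia_sub_mem_kerRed hN hσ x
  · obtain ⟨_, hN⟩ := hFunField hA hq hqp
    exact smul_mem_kerRed hN hσ hx
  · obtain ⟨_, hN⟩ := hFunField hA hq hqp
    exact exists_bound_kerRed hN hq hA
  · obtain ⟨M, _, _, _, i, O, hi, heq, hsurj, hcong⟩ :=
      orderProperty p r hr (fun h => hrp ((Nat.prime_dvd_prime_iff_eq hr hp).mp h)) A hA m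
    exact ⟨M, inferInstance, inferInstance, inferInstance, i, O, hi, heq, hsurj,
      fun f hf x hx => hcong f hf x (reductionModL_eq_zero_of_mem hx)⟩
  · have hv0 : v' = 0 := funext fun i => f.injective ((congrFun h i).trans (map_zero f).symm)
    rw [hv0, map_zero] at hv'
    rw [← hv', addOrderOf_zero] at hord
    exact hr.ne_one hord.symm
  · funext i
    have h := congrArg f (congrFun (hv'mat t) i)
    rw [Pi.smul_apply, map_zsmul, zsmul_eq_mul, ← eisLift_congr hc hεc hord t] at h
    refine Eq.trans ?_ h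
    show _ = f.toRingHom _
    rw [RingHom.map_mulVec]
    refine congrFun (congrArg₂ _ ?_ rfl) i
    ext a b
    simp
  · refine ⟨heckeGen ⟨q, hq⟩, ?_, ?_⟩
    · exact (eisLift_heckeGen ε _).trans (if_pos ⟨hqp, hqr⟩)
    · have h := (torsE p r).gal_frobenius (GaloisReps.torsionGalois p r
        (GaloisReps.congruenceProperty_of_injective (p := r) hinj)) q hq
        (fun hd => ((Nat.Prime.dvd_mul hq).mp hd).elim
          (fun h => hqp ((Nat.prime_dvd_prime_iff_eq hq hp).mp h))
          (fun h => hqr ((Nat.prime_dvd_prime_iff_eq hq hr).mp h))) A hA σ hσ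
      rw [← toFullHecke_heckeGen p ⟨q, hq⟩] at h
      exact h

/-- The Eisenstein descent on `J₀(p)`. -/
theorem descentProperty (hp5 : 5 ≤ p) : DescentProperty p := by
  intro r hr c ε hc hεc hpos hrc hrp
  haveI := Fact.mk hr
  letI := heckeModuleBar p
  set k := addOrderOf c / r with hk
  have hordk : addOrderOf (k • c) = r := by
    rw [addOrderOf_nsmul' c (Nat.div_pos (Nat.le_of_dvd hpos hrc) hr.pos).ne',
      Nat.gcd_eq_right (Nat.div_dvd_of_dvd hrc), Nat.div_div_self hrc hpos.ne']
  have hck : ∀ σ : GQ, σ • (k • c) = k • c := fun σ => by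
    rw [EichlerShimura.galois_smul_nsmul, hc]
  have hεk : ∀ t : HeckeAlg, t • (k • c) = ε t • (k • c) := fun t => by
    rw [smul_comm, hεc, smul_comm]
  obtain ⟨D, hD⟩ := exists_datum hp5 hrp hck hεk hordk
  obtain ⟨C, hC⟩ := D.exists_descent
  refine ⟨C, D.t₀, ?_, fun y hy m => hC y hy m⟩
  have h := D.eps_t₀
  rw [hD, eisLift_congr hck hεk hordk] at h
  rw [← ZMod.intCast_zmod_eq_zero_iff_dvd, Int.cast_sub, h, Int.cast_one, sub_self]

end Fermat.Agent.Mazur.Eisenstein

end
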